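import Fermat.Agent.EL.AuxPt

/-!
# EL / AddAllA : the special fibre has infinitely many nonsingular affine points
-/

set_option autoImplicit false

namespace Fermat.Agent.EL

open WeierstrassCurve IsLocalRing

/-- outside the zeros of a nonzero polynomial in `x` all points are nonsingular. -/
theorem AddAllA_exists_poly {κ : Type*} [Field κ] (V : WeierstrassCurve κ) :
    ∃ Q : Polynomial κ, Q ≠ 0 ∧ ∀ x y : κ, V.toAffine.Equation x y → Q.eval x ≠ 0 →
      V.toAffine.Nonsingular x y := by
  by_cases h2 : (2 : κ) = 0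
  · by_cases h13 : V.a₁ = 0 ∧ V.a₃ = 0
    · -- `a₁ = a₃ = 0`, characteristic `2`
      have h3 : (3 : κ) = 1 := by
        have : (3 : κ) = 2 + 1 := by norm_num
        rw [this, h2, zero_add]
      refine ⟨Polynomial.X ^ 2 + Polynomial.C V.a₄,
        (Polynomial.monic_X_pow_add_C V.a₄ two_ne_zero).ne_zero, fun x y he hQ => ?_⟩
      rw [Affine.nonsingular_iff']
      refine ⟨he, Or.inl ?_⟩
      intro h
      apply hQ
      simp only [Polynomial.eval_add, Polynomial.eval_pow, Polynomial.eval_X, Polynomial.eval_C]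
      have e : V.toAffine.a₁ * y - (3 * x ^ 2 + 2 * V.toAffine.a₂ * x + V.toAffine.a₄) =
          -(x ^ 2 + V.a₄) := by
        rw [h3, h2, show V.toAffine.a₁ = 0 from h13.1]
        show (0 : κ) * y - (1 * x ^ 2 + 0 * V.a₂ * x + V.a₄) = _
        ring
      rw [e] at h
      exact neg_eq_zero.mp h
    · refine ⟨Polynomial.C V.a₁ * Polynomial.X + Polynomial.C V.a₃, ?_, fun x y he hQ => ?_⟩
      · intro h
        apply h13
        have c1 := congrArg (fun P : Polynomial κ => P.coeff 1) h
        have c0 := congrArg (fun P : Polynomial κ => P.coeff 0) h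
        simp at c1 c0
        exact ⟨c1, c0⟩
      · rw [Affine.nonsingular_iff']
        refine ⟨he, Or.inr ?_⟩
        intro h
        apply hQ
        simp only [Polynomial.eval_add, Polynomial.eval_mul, Polynomial.eval_X, Polynomial.eval_C]
        rw [h2, zero_mul, zero_add] at h
        exact h
  · let ψ : Cubic κ :=
      ⟨4, V.a₁ ^ 2 + 4 * V.a₂, 2 * V.a₁ * V.a₃ + 4 * V.a₄, V.a₃ ^ 2 + 4 * V.a₆⟩
    have h4 : (4 : κ) ≠ 0 := by
      have : (4 : κ) = 2 * 2 := by norm_num
      rw [this]
      exact mul_ne_zero h2 h2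
    refine ⟨ψ.toPoly, Cubic.ne_zero_of_a_ne_zero h4, fun x y he hQ => ?_⟩
    rw [Affine.nonsingular_iff']
    refine ⟨he, Or.inr ?_⟩
    intro h
    apply hQ
    rw [Affine.equation_iff'] at he
    have hDe : ψ.toPoly.eval x = (V.a₁ * x + V.a₃) ^ 2 +
        4 * (x ^ 3 + V.a₂ * x ^ 2 + V.a₄ * x + V.a₆) := by
      simp only [Cubic.toPoly, Polynomial.eval_add, Polynomial.eval_mul, Polynomial.eval_C,
        Polynomial.eval_pow, Polynomial.eval_X, ψ]
      ring
    rw [hDe]
    have he' : y ^ 2 + V.a₁ * x * y + V.a₃ * y - (x ^ 3 + V.a₂ * x ^ 2 + V.a₄ * x + V.a₆) = 0 := he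
    have h' : 2 * y + V.a₁ * x + V.a₃ = 0 := h
    linear_combination (2 * y + V.a₁ * x + V.a₃) * h' - 4 * he'

/-- a Weierstrass curve over an algebraically closed field has infinitely many nonsingular affine
points. -/
theorem AddAllA_exists {κ : Type*} [Field κ] [IsAlgClosed κ] (V : WeierstrassCurve κ)
    (s : Finset κ) : ∃ x y : κ, V.toAffine.Nonsingular x y ∧ x ∉ s := by
  classical
  obtain ⟨Q, hQ0, hQ⟩ := AddAllA_exists_poly V
  have hP : Q * ∏ t ∈ s, (Polynomial.X - Polynomial.C t) ≠ 0 :=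
    mul_ne_zero hQ0 (Finset.prod_ne_zero_iff.mpr fun t _ => Polynomial.X_sub_C_ne_zero t)
  obtain ⟨x, hx⟩ : ∃ x, (Q * ∏ t ∈ s, (Polynomial.X - Polynomial.C t)).eval x ≠ 0 := by
    by_contra hcon
    push Not at hcon
    exact hP (Polynomial.funext fun r => by rw [hcon r, Polynomial.eval_zero])
  rw [Polynomial.eval_mul] at hx
  have hxs : x ∉ s := by
    intro hmem
    apply right_ne_zero_of_mul hx
    rw [Polynomial.eval_prod]
    exact Finset.prod_eq_zero hmem (by simp)
  -- the ordinate
  let p : Polynomial κ := Polynomial.C 1 * Polynomial.X ^ 2 +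
    Polynomial.C (V.a₁ * x + V.a₃) * Polynomial.X +
    Polynomial.C (-(x ^ 3 + V.a₂ * x ^ 2 + V.a₄ * x + V.a₆))
  have hdeg : p.degree ≠ 0 := by
    rw [Polynomial.degree_quadratic one_ne_zero]
    norm_num
  obtain ⟨y, hy⟩ := IsAlgClosed.exists_root p hdeg
  refine ⟨x, y, hQ x y ?_ (left_ne_zero_of_mul hx), hxs⟩
  rw [Affine.equation_iff']
  simp only [p, Polynomial.IsRoot.def, Polynomial.eval_add, Polynomial.eval_mul,
    Polynomial.eval_C, Polynomial.eval_pow, Polynomial.eval_X] at hy
  show y ^ 2 + V.a₁ * x * y + V.a₃ * y - (x ^ 3 + V.a₂ * x ^ 2 + V.a₄ * x + V.a₆) = 0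
  linear_combination hy

variable {K : Type*} [Field K] {A : ValuationSubring K}
variable {W : WeierstrassCurve A}

/-- the special fibre has infinitely many nonsingular affine points: for every finite set `s` of
abscissas there is one with `x ∉ s`.
PROOF. `κ` is algebraically closed (`isAlgClosed_residueField`), hence infinite.  A singular point
`(x, y)` satisfies `2y + a₁x + a₃ = 0` and `3x² + 2a₂x + a₄ - a₁y = 0`, hence `x` is a root of the nonzero
polynomial `4X³ + b₂X² + 2b₄X + b₆` (if `2 ≠ 0`), resp. in characteristic 2: `a₁ x = a₃` and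
`x² = a₄ + a₁ y`: if `a₁ ≠ 0`, `x = a₃/a₁`; if `a₁ = 0` then (`a₃ = 0` and) `x² = a₄`.  In all cases finitely
many `x` (at most 3) are excluded; for the other `x` choose a root `y` of the quadratic.
(The proof of `hasAux` in `AuxPt.lean` does this for `2 ≠ 0`.) -/
theorem exists_nonsingular_not_mem [IsAlgClosed K] (W : WeierstrassCurve A)
    (s : Finset (ResidueField A)) :
    ∃ xb yb : ResidueField A, (spe W).toAffine.Nonsingular xb yb ∧ xb ∉ s := by
  have hκ : IsAlgClosed (ResidueField A) := isAlgClosed_residueField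
  exact AddAllA_exists (spe W) s

end Fermat.Agent.EL
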