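import Fermat.Agent.EL.RedB
import Fermat.Agent.EL.AddAllA

/-!
# EL / AddAll : the reduction is additive, without any hypothesis on the special fibre
(`K` algebraically closed)
-/

set_option autoImplicit false

namespace Fermat.Agent.EL

open WeierstrassCurve IsLocalRing

variable {K : Type*} [Field K] {A : ValuationSubring K}
variable {W : WeierstrassCurve A}

variable [DecidableEq K] [DecidableEq (ResidueField A)]

/-- the abscissa of a point, as a finite set. -/
def AddAll_xc {F : Type*} [Field F] {W' : Affine F} : W'.Point → Finset F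
  | .zero => ∅
  | .some x _ _ => {x}

theorem AddAll_ne_of_not_mem {F : Type*} [Field F] {W' : Affine F} {x y : F}
    (h : W'.Nonsingular x y) (Y : W'.Point) (hx : x ∉ AddAll_xc Y) :
    Affine.Point.some x y h ≠ Y := by
  rintro rfl
  exact hx (Finset.mem_singleton_self x)

/-- PROOF. Let `g ≠ -g`, `H` = the points with `S = -S` (a subgroup).  The complement of `H` is
infinite: it contains `g + H`, and if `H` is finite it is the complement of a finite set in an infinite
set (`exists_nonsingular_not_mem`).  So it contains `Sb ∉ {T, -T}`; lift `Sb` (`exists_redTo_some`;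
`Sb ≠ 0` as `0 ∈ H`). -/
theorem hasAux_of_exists [IsAlgClosed K] (W : WeierstrassCurve A)
    (h : ∃ g : (spe W).toAffine.Point, g ≠ -g) : HasAux W := by
  obtain ⟨g, hg⟩ := h
  intro T
  obtain ⟨xb, yb, hb, hxs⟩ := exists_nonsingular_not_mem W
    (AddAll_xc T ∪ AddAll_xc (-T) ∪ AddAll_xc (T - g) ∪ AddAll_xc (-T - g))
  simp only [Finset.mem_union, not_or] at hxs
  obtain ⟨⟨⟨hx1, hx2⟩, hx3⟩, hx4⟩ := hxs
  have n1 := AddAll_ne_of_not_mem hb _ hx1
  have n2 := AddAll_ne_of_not_mem hb _ hx2
  have n3 := AddAll_ne_of_not_mem hb _ hx3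
  have n4 := AddAll_ne_of_not_mem hb _ hx4
  obtain ⟨Sb, s1, s2, s3⟩ : ∃ Sb : (spe W).toAffine.Point, Sb ≠ T ∧ Sb ≠ -T ∧ Sb ≠ -Sb := by
    by_cases hX : (Affine.Point.some xb yb hb : (spe W).toAffine.Point) = -Affine.Point.some xb yb hb
    · refine ⟨Affine.Point.some xb yb hb + g, fun e => n3 (eq_sub_of_add_eq e),
        fun e => n4 (eq_sub_of_add_eq e), fun e => hg ?_⟩
      rw [neg_add, ← hX] at e
      exact add_left_cancel e
    · exact ⟨_, n1, n2, hX⟩
  rcases Sb with _ | ⟨x, y, hxy⟩
  · exact absurd (neg_zero (G := (spe W).toAffine.Point)).symm s3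
  · obtain ⟨S, hS⟩ := exists_redTo_some W hxy
    exact ⟨S, _, hS, s1, s2, s3⟩

namespace RedTo

variable {P Q : (gen W).toAffine.Point} {Pb Qb : (spe W).toAffine.Point}

/-- **The reduction is additive.**
PROOF. If some `g ≠ -g` exists: `RedTo.add (hasAux_of_exists W _)`.  Otherwise every point of the special
fibre is its own negative.  `Pb ≠ Qb`: `add_of_ne`.  `Pb = Qb` affine: `add_of_eq_neg_self` (and
`Pb + Pb = Pb + -Pb = 0`).  `Pb = Qb = 0`: take an affine `Sb` with a lift `S`
(`exists_nonsingular_not_mem ∅`, `exists_redTo_some`); `P + S ↦ Sb`, `Q + -S ↦ -Sb = Sb` by `add_of_ne`, and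
`(P + S) + (Q + -S) ↦ 0` by `add_of_eq_neg_self`. -/
theorem add_all [IsAlgClosed K] (h : RedTo W P Pb) (h' : RedTo W Q Qb) :
    RedTo W (P + Q) (Pb + Qb) := by
  by_cases hex : ∃ g : (spe W).toAffine.Point, g ≠ -g
  · exact h.add (hasAux_of_exists W hex) h'
  have hall : ∀ g : (spe W).toAffine.Point, g = -g := by
    intro g
    by_contra hg
    exact hex ⟨g, hg⟩
  by_cases hne : Pb = Qb
  · subst hne
    have hPP : Pb + Pb = 0 := by
      calc Pb + Pb = Pb + -Pb := congrArg (Pb + ·) (hall Pb)
        _ = 0 := add_neg_cancel Pb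
    rw [hPP]
    rcases Pb with _ | ⟨x, y, hxy⟩
    · obtain ⟨xb, yb, hb, -⟩ := exists_nonsingular_not_mem W ∅
      obtain ⟨S, hS⟩ := exists_redTo_some W hb
      have hS' : RedTo W (-S) (.some xb yb hb) := by
        have := hS.neg
        rwa [← hall] at this
      have hne0 : (Affine.Point.zero : (spe W).toAffine.Point) ≠ .some xb yb hb := by
        intro e
        cases e
      have k1 := h.add_of_ne hS hne0
      have k2 := h'.add_of_ne hS' hne0
      have e0 : (Affine.Point.zero : (spe W).toAffine.Point) + .some xb yb hb = .some xb yb hb :=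
        zero_add _
      rw [e0] at k1 k2
      have k3 := RedTo.add_of_eq_neg_self (hall _) k1 k2
      have e1 : P + S + (Q + -S) = P + Q := by abel
      rwa [e1] at k3
    · exact RedTo.add_of_eq_neg_self (hall _) h h'
  · exact h.add_of_ne h' hne

theorem nsmul_all [IsAlgClosed K] (h : RedTo W P Pb) (n : ℕ) : RedTo W (n • P) (n • Pb) := by
  induction n with
  | zero => simpa using RedTo.zero
  | succ n ih => rw [succ_nsmul, succ_nsmul]; exact ih.add_all h

theorem sub_all [IsAlgClosed K] (h : RedTo W P Pb) (h' : RedTo W Q Qb) :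
    RedTo W (P - Q) (Pb - Qb) := by
  rw [sub_eq_add_neg, sub_eq_add_neg]; exact h.add_all h'.neg

theorem zsmul_all [IsAlgClosed K] (h : RedTo W P Pb) (n : ℤ) : RedTo W (n • P) (n • Pb) := by
  obtain ⟨m, rfl | rfl⟩ := n.eq_nat_or_neg
  · simpa using h.nsmul_all m
  · simpa using (h.nsmul_all m).neg

end RedTo

end Fermat.Agent.EL
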