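import Fermat.Agent.EL.RedAdd

/-!
# EL / AuxPt : auxiliary points exist when `K` is algebraically closed and the residue
characteristic is not `2`
-/

set_option autoImplicit false

namespace Fermat.Agent.EL

open WeierstrassCurve IsLocalRing

variable {K : Type*} [Field K] {A : ValuationSubring K}

/-- a monic nonconstant polynomial over `A` has a root in `A`. -/
theorem AuxPt_exists_root [IsAlgClosed K] (q : Polynomial A) (hq : q.Monic) (hdeg : q.degree ≠ 0) :
    ∃ a : A, q.eval a = 0 := by
  have hdeg' : (q.map A.subtype).degree ≠ 0 := by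
    rw [Polynomial.degree_map_eq_of_injective A.subtype_injective]
    exact hdeg
  obtain ⟨z, hz⟩ := IsAlgClosed.exists_root (q.map A.subtype) hdeg'
  have hz' : Polynomial.eval₂ A.subtype z q = 0 := by
    rw [← Polynomial.eval_map]
    exact hz
  have hint : IsIntegral A z := ⟨q, hq, hz'⟩
  obtain ⟨a, rfl⟩ := IsIntegrallyClosed.isIntegral_iff.1 hint
  refine ⟨a, A.subtype_injective ?_⟩
  rw [map_zero, ← hz']
  exact (Polynomial.eval₂_at_apply A.subtype a).symm

/-- the residue field of a valuation ring of an algebraically closed field is algebraically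
closed -/
theorem isAlgClosed_residueField [IsAlgClosed K] : IsAlgClosed (ResidueField A) := by
  refine IsAlgClosed.of_exists_root _ fun p hp hirr => ?_
  have hl : p ∈ Polynomial.lifts (residue A) := by
    rw [Polynomial.mem_lifts]
    exact Polynomial.map_surjective _ residue_surjective p
  obtain ⟨q, hqp, hqdeg, hq⟩ := Polynomial.lifts_and_degree_eq_and_monic hl hp
  have hdeg : q.degree ≠ 0 := by
    rw [hqdeg]
    exact (Polynomial.degree_pos_of_irreducible hirr).ne'
  obtain ⟨a, ha⟩ := AuxPt_exists_root q hq hdeg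
  refine ⟨residue A a, ?_⟩
  rw [← hqp, Polynomial.eval_map, Polynomial.eval₂_at_apply, ha, map_zero]

/-- lifting an affine nonsingular point of the special fibre -/
theorem exists_redTo_some [IsAlgClosed K] (W : WeierstrassCurve A) {xb yb : ResidueField A}
    (hb : (spe W).toAffine.Nonsingular xb yb) :
    ∃ P, RedTo W P (.some xb yb hb) := by
  obtain ⟨a, rfl⟩ := residue_surjective xb
  set s : A := W.a₁ * a + W.a₃ with hs
  set t : A := a ^ 3 + W.a₂ * a ^ 2 + W.a₄ * a + W.a₆ with ht
  -- a root of the quadratic
  have hq : (Polynomial.X ^ 2 + Polynomial.C s * Polynomial.X - Polynomial.C t :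
      Polynomial A).Monic := by
    monicity!
  have hdeg : (Polynomial.X ^ 2 + Polynomial.C s * Polynomial.X - Polynomial.C t :
      Polynomial A).degree ≠ 0 := by
    have : (Polynomial.X ^ 2 + Polynomial.C s * Polynomial.X - Polynomial.C t :
      Polynomial A).degree = 2 := by compute_degree!
    rw [this]
    norm_num
  obtain ⟨b, hb0⟩ := AuxPt_exists_root _ hq hdeg
  simp only [Polynomial.eval_sub, Polynomial.eval_add, Polynomial.eval_pow, Polynomial.eval_X,
    Polynomial.eval_mul, Polynomial.eval_C] at hb0
  -- `yb` is the reduction of `b` or of `-s - b`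
  have heq := ((Affine.nonsingular_iff' _ _).1 hb).1
  rw [Affine.equation_iff'] at heq
  simp only [map_a₁, map_a₂, map_a₃, map_a₄, map_a₆] at heq
  have hb1 : residue A b ^ 2 + residue A s * residue A b - residue A t = 0 := by
    rw [← map_pow, ← map_mul, ← map_add, ← map_sub, hb0, map_zero]
  have hsr : residue A s = residue A W.a₁ * residue A a + residue A W.a₃ := by
    rw [hs, map_add, map_mul]
  have htr : residue A t = residue A a ^ 3 + residue A W.a₂ * residue A a ^ 2 +
      residue A W.a₄ * residue A a + residue A W.a₆ := by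
    rw [ht]
    simp only [map_add, map_mul, map_pow]
  have hprod : (yb - residue A b) * (yb - residue A (-s - b)) = 0 := by
    rw [map_sub, map_neg]
    rw [hsr, htr] at hb1
    rw [hsr]
    linear_combination heq - hb1
  -- conclusion for a root `b'` of the quadratic reducing to `yb`
  have main : ∀ b' : A, b' ^ 2 + s * b' - t = 0 → yb = residue A b' →
      ∃ P, RedTo W P (.some (residue A a) yb hb) := by
    intro b' hb' hy
    subst hy
    have hA : W.toAffine.Nonsingular a b' := by
      rw [Affine.nonsingular_iff', Affine.equation_iff']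
      refine ⟨by rw [hs, ht] at hb'; linear_combination hb', ?_⟩
      have h2 := ((Affine.nonsingular_iff' _ _).1 hb).2
      simp only [map_a₁, map_a₂, map_a₃, map_a₄] at h2
      rcases h2 with h2 | h2
      · refine Or.inl fun h0 => h2 ?_
        have := congrArg (residue A) h0
        simpa only [map_sub, map_add, map_mul, map_pow, map_zero, map_ofNat] using this
      · refine Or.inr fun h0 => h2 ?_
        have := congrArg (residue A) h0
        simpa only [map_sub, map_add, map_mul, map_pow, map_zero, map_ofNat] using this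
    have hK : (gen W).toAffine.Nonsingular (a : K) (b' : K) :=
      (Affine.map_nonsingular (W := W.toAffine) A.subtype_injective a b').2 hA
    exact ⟨_, RedTo.some hK hb⟩
  rcases mul_eq_zero.1 hprod with h | h
  · exact main b hb0 (sub_eq_zero.1 h)
  · exact main (-s - b) (by linear_combination hb0) (sub_eq_zero.1 h)

theorem hasAux [IsAlgClosed K] (h2 : (2 : ResidueField A) ≠ 0) (W : WeierstrassCurve A) :
    HasAux W := by
  classical
  have hκ : IsAlgClosed (ResidueField A) := isAlgClosed_residueField
  intro T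
  -- the `x`-coordinate to avoid
  obtain ⟨xT, hxT⟩ : ∃ xT : ResidueField A, ∀ x y (h : (spe W).toAffine.Nonsingular x y),
      (T = .some x y h ∨ -T = .some x y h) → x = xT := by
    rcases T with _ | ⟨x₀, y₀, h₀⟩
    · refine ⟨0, fun x y h hT => ?_⟩
      rcases hT with hT | hT
      · cases hT
      · change Affine.Point.zero = _ at hT
        cases hT
    · refine ⟨x₀, fun x y h hT => ?_⟩
      rcases hT with hT | hT
      · rw [Affine.Point.some.injEq] at hT
        exact hT.1.symm
      · rw [Affine.Point.neg_some, Affine.Point.some.injEq] at hT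
        exact hT.1.symm
  -- the cubic
  let ψ : Cubic (ResidueField A) :=
    ⟨4, (spe W).a₁ ^ 2 + 4 * (spe W).a₂, 2 * (spe W).a₁ * (spe W).a₃ + 4 * (spe W).a₄, (spe W).a₃ ^ 2 + 4 * (spe W).a₆⟩
  have h4 : (4 : ResidueField A) ≠ 0 := by
    have : (4 : ResidueField A) = 2 * 2 := by norm_num
    rw [this]
    exact mul_ne_zero h2 h2
  have hψ : ψ.toPoly * (Polynomial.X - Polynomial.C xT) ≠ 0 :=
    mul_ne_zero (Cubic.ne_zero_of_a_ne_zero h4) (Polynomial.X_sub_C_ne_zero xT)
  obtain ⟨xb, hxb⟩ : ∃ xb, (ψ.toPoly * (Polynomial.X - Polynomial.C xT)).eval xb ≠ 0 := by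
    by_contra hcon
    push Not at hcon
    exact hψ (Polynomial.funext fun r => by rw [hcon r, Polynomial.eval_zero])
  rw [Polynomial.eval_mul] at hxb
  have hD : ψ.toPoly.eval xb ≠ 0 := left_ne_zero_of_mul hxb
  have hx : xb ≠ xT := by
    intro h
    apply right_ne_zero_of_mul hxb
    simp [h]
  have hDe : ψ.toPoly.eval xb = ((spe W).a₁ * xb + (spe W).a₃) ^ 2 +
      4 * (xb ^ 3 + (spe W).a₂ * xb ^ 2 + (spe W).a₄ * xb + (spe W).a₆) := by
    simp only [Cubic.toPoly, Polynomial.eval_add, Polynomial.eval_mul, Polynomial.eval_C,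
      Polynomial.eval_pow, Polynomial.eval_X, ψ]
    ring
  obtain ⟨w, hw⟩ := IsAlgClosed.exists_pow_nat_eq (ψ.toPoly.eval xb) zero_lt_two
  have hw0 : w ≠ 0 := by
    rintro rfl
    apply hD
    rw [← hw]
    norm_num
  set yb : ResidueField A := (w - ((spe W).a₁ * xb + (spe W).a₃)) / 2 with hyb
  have hyw : 2 * yb + (spe W).a₁ * xb + (spe W).a₃ = w := by
    rw [hyb]
    field_simp
    ring
  have hns : (spe W).toAffine.Nonsingular xb yb := by
    rw [Affine.nonsingular_iff', Affine.equation_iff']
    refine ⟨?_, Or.inr (by rw [hyw]; exact hw0)⟩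
    have h5 : 4 * (yb ^ 2 + (spe W).a₁ * xb * yb + (spe W).a₃ * yb -
        (xb ^ 3 + (spe W).a₂ * xb ^ 2 + (spe W).a₄ * xb + (spe W).a₆)) = 0 := by
      have h6 : w ^ 2 = ((spe W).a₁ * xb + (spe W).a₃) ^ 2 +
          4 * (xb ^ 3 + (spe W).a₂ * xb ^ 2 + (spe W).a₄ * xb + (spe W).a₆) := by rw [hw, hDe]
      rw [← hyw] at h6
      linear_combination h6
    exact (mul_eq_zero.1 h5).resolve_left h4
  obtain ⟨S, hS⟩ := exists_redTo_some W hns
  refine ⟨S, _, hS, ?_, ?_, ?_⟩
  · intro h
    exact hx (hxT xb yb hns (Or.inl h.symm))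
  · intro h
    exact hx (hxT xb yb hns (Or.inr h.symm))
  · intro h
    rw [Affine.Point.neg_some, Affine.Point.some.injEq] at h
    have h7 := h.2
    simp only [Affine.negY] at h7
    apply hw0
    rw [← hyw]
    linear_combination h7

end Fermat.Agent.EL
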