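import Mathlib

/-!
# EL / Cusp : the group of nonsingular points of `y² = x³` is the additive group
-/

set_option autoImplicit false

namespace Fermat.Agent.EL

open WeierstrassCurve

/-- the cuspidal cubic `y² = x³` -/
def cusp (F : Type*) [CommRing F] : WeierstrassCurve F := ⟨0, 0, 0, 0, 0⟩

variable {F : Type*} [Field F]

lemma cusp_nonsingular_iff (x y : F) :
    (cusp F).toAffine.Nonsingular x y ↔ y ^ 2 = x ^ 3 ∧ x ≠ 0 := by
  rw [Affine.nonsingular_iff, Affine.equation_iff]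
  simp only [cusp, zero_mul, mul_zero, add_zero, sub_zero]
  constructor
  · rintro ⟨h, h'⟩
    refine ⟨h, ?_⟩
    rintro rfl
    have hy : y = 0 := by
      have : y ^ 2 = 0 := by rw [h]; ring
      exact pow_eq_zero_iff two_ne_zero |>.1 this
    subst hy
    rcases h' with h' | h'
    · exact h' (by ring)
    · exact h' (by ring)
  · rintro ⟨h, hx⟩
    refine ⟨h, ?_⟩
    have hy : y ≠ 0 := by
      rintro rfl
      exact pow_ne_zero 3 hx (by rw [← h]; ring)
    by_contra hcon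
    rw [not_or, not_not, not_not] at hcon
    obtain ⟨h3, h2⟩ := hcon
    have h3' : (3 : F) = 0 := by
      rcases mul_eq_zero.1 h3.symm with h | h
      · exact h
      · exact absurd h (pow_ne_zero 2 hx)
    have h2' : (2 : F) = 0 := by
      have : (2 : F) * y = 0 := by linear_combination h2
      rcases mul_eq_zero.1 this with h | h
      · exact h
      · exact absurd h hy
    exact one_ne_zero (α := F) (by linear_combination h3' - h2')

/-- the parameter `x / y` -/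
def cuspT : (cusp F).toAffine.Point → F
  | 0 => 0
  | .some x y _ => x / y

/-- the parametrisation `(u², u³)`. -/
lemma Cusp_param {x y : F} (h : y ^ 2 = x ^ 3) (hx : x ≠ 0) :
    ∃ u : F, u ≠ 0 ∧ x = u ^ 2 ∧ y = u ^ 3 := by
  have hy : y ≠ 0 := by
    rintro rfl
    exact pow_ne_zero 3 hx (by rw [← h]; ring)
  refine ⟨y / x, div_ne_zero hy hx, ?_, ?_⟩
  · field_simp
    linear_combination -h
  · field_simp
    linear_combination -h

lemma cuspT_eq_zero_iff (P : (cusp F).toAffine.Point) : cuspT P = 0 ↔ P = 0 := by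
  rcases P with _ | ⟨x, y, h⟩
  · exact ⟨fun _ => rfl, fun _ => rfl⟩
  · obtain ⟨e, hx⟩ := (cusp_nonsingular_iff x y).1 h
    have hy : y ≠ 0 := by
      rintro rfl
      exact pow_ne_zero 3 hx (by rw [← e]; ring)
    constructor
    · intro h0
      exact absurd h0 (div_ne_zero hx hy)
    · intro h0
      exact absurd h0 (Affine.Point.some_ne_zero h)

lemma cuspT_add [DecidableEq F] (P Q : (cusp F).toAffine.Point) :
    cuspT (P + Q) = cuspT P + cuspT Q := by
  rcases P with _ | ⟨x₁, y₁, h₁⟩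
  · show cuspT (0 + Q) = 0 + cuspT Q
    rw [zero_add, zero_add]
  rcases Q with _ | ⟨x₂, y₂, h₂⟩
  · show cuspT (Affine.Point.some x₁ y₁ h₁ + 0) = cuspT (Affine.Point.some x₁ y₁ h₁) + 0
    rw [add_zero, add_zero]
  obtain ⟨e₁, hx₁⟩ := (cusp_nonsingular_iff x₁ y₁).1 h₁
  obtain ⟨e₂, hx₂⟩ := (cusp_nonsingular_iff x₂ y₂).1 h₂
  obtain ⟨u₁, hu₁, rfl, rfl⟩ := Cusp_param e₁ hx₁
  obtain ⟨u₂, hu₂, rfl, rfl⟩ := Cusp_param e₂ hx₂
  by_cases hxy : u₁ ^ 2 = u₂ ^ 2 ∧ u₁ ^ 3 = (cusp F).toAffine.negY (u₂ ^ 2) (u₂ ^ 3)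
  · rw [Affine.Point.add_of_Y_eq hxy.1 hxy.2]
    show (0 : F) = u₁ ^ 2 / u₁ ^ 3 + u₂ ^ 2 / u₂ ^ 3
    obtain ⟨hx, hy⟩ := hxy
    simp only [Affine.negY, cusp, zero_mul, sub_zero] at hy
    have h : u₁ = -u₂ := by
      have h1 : u₁ * u₂ ^ 2 = -u₂ * u₂ ^ 2 := by linear_combination hy - u₁ * hx
      exact mul_right_cancel₀ (pow_ne_zero 2 hu₂) h1
    subst h
    field_simp
    ring
  · rw [Affine.Point.add_some hxy]
    show (cusp F).toAffine.addX (u₁ ^ 2) (u₂ ^ 2) _ / (cusp F).toAffine.addY (u₁ ^ 2) (u₂ ^ 2) (u₁ ^ 3) _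
      = u₁ ^ 2 / u₁ ^ 3 + u₂ ^ 2 / u₂ ^ 3
    by_cases hx : u₁ ^ 2 = u₂ ^ 2
    · have hy : u₁ ^ 3 ≠ (cusp F).toAffine.negY (u₂ ^ 2) (u₂ ^ 3) := fun h => hxy ⟨hx, h⟩
      rw [Affine.slope_of_Y_ne hx hy]
      simp only [Affine.negY, cusp, zero_mul, sub_zero] at hy
      have h : u₁ = u₂ := by
        rcases sq_eq_sq_iff_eq_or_eq_neg.1 hx with h | h
        · exact h
        · exact absurd (by rw [h]; ring) hy
      subst h
      have h2 : (2 : F) ≠ 0 := by
        intro h2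
        apply hy
        linear_combination u₁ ^ 3 * h2
      simp only [Affine.addX, Affine.addY, Affine.negAddY, Affine.negY, cusp, zero_mul, mul_zero,
        sub_zero, add_zero]
      have hs : 3 * (u₁ ^ 2) ^ 2 / (u₁ ^ 3 - -u₁ ^ 3) = 3 * u₁ / 2 := by
        have h3 : u₁ ^ 3 - -u₁ ^ 3 = 2 * u₁ ^ 3 := by ring
        rw [h3]
        field_simp
      rw [hs]
      have hX : (3 * u₁ / 2) ^ 2 - u₁ ^ 2 - u₁ ^ 2 = (u₁ / 2) ^ 2 := by
        field_simp
        ring
      have hY : -(3 * u₁ / 2 * ((u₁ / 2) ^ 2 - u₁ ^ 2) + u₁ ^ 3) = (u₁ / 2) ^ 3 := by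
        field_simp
        ring
      rw [hX, hY]
      field_simp
      ring
    · rw [Affine.slope_of_X_ne hx]
      simp only [Affine.addX, Affine.addY, Affine.negAddY, Affine.negY, cusp, zero_mul,
        sub_zero, add_zero]
      have hm : u₁ - u₂ ≠ 0 := by
        intro h
        apply hx
        rw [sub_eq_zero.1 h]
      have hp : u₁ + u₂ ≠ 0 := by
        intro h
        apply hx
        rw [eq_neg_of_add_eq_zero_left h]
        ring
      have hs : (u₁ ^ 3 - u₂ ^ 3) / (u₁ ^ 2 - u₂ ^ 2) = (u₁ ^ 2 + u₁ * u₂ + u₂ ^ 2) / (u₁ + u₂) := by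
        have h3 : u₁ ^ 2 - u₂ ^ 2 = (u₁ - u₂) * (u₁ + u₂) := by ring
        rw [h3]
        field_simp
        ring
      rw [hs]
      have hX : ((u₁ ^ 2 + u₁ * u₂ + u₂ ^ 2) / (u₁ + u₂)) ^ 2 - u₁ ^ 2 - u₂ ^ 2 =
          (u₁ * u₂ / (u₁ + u₂)) ^ 2 := by
        field_simp
        ring
      have hY : -((u₁ ^ 2 + u₁ * u₂ + u₂ ^ 2) / (u₁ + u₂) * ((u₁ * u₂ / (u₁ + u₂)) ^ 2 - u₁ ^ 2) +
          u₁ ^ 3) = (u₁ * u₂ / (u₁ + u₂)) ^ 3 := by
        field_simp
        ring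
      rw [hX, hY]
      field_simp
      ring

/-- the cusp group has no `n`-torsion when `n ≠ 0` in `F` -/
theorem cusp_nsmul_ne_zero [DecidableEq F] {n : ℕ} (hn : (n : F) ≠ 0)
    {P : (cusp F).toAffine.Point} (hP : P ≠ 0) : n • P ≠ 0 := by
  have h : ∀ m : ℕ, cuspT (m • P) = (m : F) * cuspT P := by
    intro m
    induction m with
    | zero =>
      rw [zero_smul, Nat.cast_zero, zero_mul]
      rfl
    | succ m ih => rw [succ_nsmul, cuspT_add, ih, Nat.cast_succ]; ring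
  intro h0
  have h1 := h n
  rw [h0] at h1
  have h2 : cuspT P ≠ 0 := fun h => hP ((cuspT_eq_zero_iff P).1 h)
  exact mul_ne_zero hn h2 h1.symm

end Fermat.Agent.EL
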