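import Fermat.Agent.S52.Short
import Fermat.Agent.S51.Torsion

/-!
# EL / Div2 : `E(F)` is `2`-divisible for `F` algebraically closed of characteristic `≠ 2`
-/

set_option autoImplicit false

namespace Fermat.Agent.EL

open Fermat.Agent.S52 WeierstrassCurve

/-- a monic quartic has a root. -/
theorem Div2_exists_root {F : Type*} [Field F] [IsAlgClosed F] (c3 c2 c1 c0 : F) :
    ∃ x : F, x ^ 4 + c3 * x ^ 3 + c2 * x ^ 2 + c1 * x + c0 = 0 := by
  have hdeg : (Polynomial.X ^ 4 + Polynomial.C c3 * Polynomial.X ^ 3 +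
      Polynomial.C c2 * Polynomial.X ^ 2 + Polynomial.C c1 * Polynomial.X +
      Polynomial.C c0 : Polynomial F).degree ≠ 0 := by
    have h : (Polynomial.X ^ 4 + Polynomial.C c3 * Polynomial.X ^ 3 +
      Polynomial.C c2 * Polynomial.X ^ 2 + Polynomial.C c1 * Polynomial.X +
      Polynomial.C c0 : Polynomial F).degree = 4 := by
      compute_degree!
    rw [h]
    norm_num
  obtain ⟨x, hx⟩ := IsAlgClosed.exists_root _ hdeg
  refine ⟨x, ?_⟩
  simpa [Polynomial.IsRoot.def] using hx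

theorem exists_two_nsmul_eq {F : Type*} [Field F] [IsAlgClosed F] [DecidableEq F]
    (h2 : (2 : F) ≠ 0) (a b : F) (hΔ : 4 * a ^ 3 + 27 * b ^ 2 ≠ 0) (P : (short a b).Point) :
    ∃ Q : (short a b).Point, 2 • Q = P := by
  by_cases hP : P = 0
  · exact ⟨0, by rw [hP, smul_zero]⟩
  have hΔV : (short a b).Δ ≠ 0 := by
    rw [short_Δ]
    have h16 : (16 : F) ≠ 0 := by
      have : (16 : F) = 2 ^ 4 := by norm_num
      rw [this]
      exact pow_ne_zero _ h2
    intro h0
    apply hΔ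
    have : (16 : F) * (4 * a ^ 3 + 27 * b ^ 2) = 0 := by linear_combination -h0
    exact (mul_eq_zero.mp this).resolve_left h16
  set x₀ := S51.xc (short a b) P with hx₀
  obtain ⟨x₁, hx₁⟩ := Div2_exists_root (-(4 * x₀)) (-(short a b).b₄ - x₀ * (short a b).b₂)
    (-(2 * (short a b).b₆) - x₀ * (2 * (short a b).b₄)) (-(short a b).b₈ - x₀ * (short a b).b₆)
  have hph : S51.ph (short a b) x₁ = x₀ * S51.ff (short a b) x₁ := by
    unfold S51.ph S51.ff
    linear_combination hx₁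
  have hff : S51.ff (short a b) x₁ ≠ 0 := by
    intro h0
    rw [h0, mul_zero] at hph
    exact S51.not_ff_ph hΔV x₁ h0 hph
  obtain ⟨Q₀, hQ₀, hxQ₀⟩ := S51.exists_point (V := short a b) h2 hΔV x₁
  have h2Q : 2 • Q₀ ≠ 0 := by
    rw [Ne, S51.two_nsmul_eq_zero_iff hQ₀, hxQ₀]
    exact hff
  have hxc : S51.xc (short a b) (2 • Q₀) = S51.xc (short a b) P := by
    have h := S51.xc_two_nsmul hQ₀ (by rw [hxQ₀]; exact hff)
    rw [hxQ₀, hph] at h
    exact mul_right_cancel₀ hff h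
  rcases S51.eq_or_eq_neg_of_xc_eq h2Q hP hxc with h | h
  · exact ⟨Q₀, h⟩
  · exact ⟨-Q₀, by rw [smul_neg, h, neg_neg]⟩

end Fermat.Agent.EL
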