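import Mathlib

/-!
# EL / DivK0 : auxiliary lemmas for the divisibility of the kernel of reduction
-/

set_option autoImplicit false

namespace Fermat.Agent.EL

open WeierstrassCurve IsLocalRing Polynomial

variable {K : Type*} [Field K] {A : ValuationSubring K}

/-- a monic polynomial whose second coefficient is not integral has a non-integral root
(`Polynomial.sum_roots_eq_nextCoeff_of_monic_of_split`, `IsAlgClosed.splits`; a sum of elements of `A`
is in `A`). -/
theorem exists_root_not_mem [IsAlgClosed K] (p : K[X]) (hp : p.Monic) (hc : p.nextCoeff ∉ A) :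
    ∃ r : K, p.IsRoot r ∧ r ∉ A := by
  by_contra hcon
  push Not at hcon
  apply hc
  rw [(IsAlgClosed.splits p).nextCoeff_eq_neg_sum_roots_of_monic hp]
  refine A.neg_mem _ (multiset_sum_mem _ fun r hr => ?_)
  exact hcon r ((Polynomial.mem_roots hp.ne_zero).1 hr)

/-- an integer which is nonzero in the residue field is a unit of `A`: division by it preserves
non-integrality -/
lemma natCast_mul_not_mem {n : ℕ} (hn : (n : ResidueField A) ≠ 0) {x : K} (hx : x ∉ A) :
    (n : K) * x ∉ A := by
  intro h
  apply hx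
  have hu : IsUnit (n : A) := by
    by_contra hnu
    apply hn
    have := (residue_eq_zero_iff (n : A)).2 ((mem_maximalIdeal _).2 hnu)
    rwa [map_natCast] at this
  obtain ⟨u, hu⟩ := hu
  have h1 : ((u : A) : K) = (n : K) := by rw [hu]; simp
  have h2 : x = (((u⁻¹ : Aˣ) : A) : K) * ((n : K) * x) := by
    rw [← h1, ← mul_assoc, ← A.coe_mul, Units.inv_mul, A.coe_one, one_mul]
  rw [h2]
  exact A.mul_mem _ _ (((u⁻¹ : Aˣ) : A)).2 h

/-- every abscissa carries a point -/
lemma exists_point_of_x [IsAlgClosed K] (E : WeierstrassCurve K) (hΔ : E.Δ ≠ 0) (r : K) :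
    ∃ s : K, E.toAffine.Nonsingular r s := by
  obtain ⟨s, hs⟩ := IsAlgClosed.exists_root
    (C (1 : K) * X ^ 2 + C (E.a₁ * r + E.a₃) * X + C (-(r ^ 3 + E.a₂ * r ^ 2 + E.a₄ * r + E.a₆)))
    (by rw [degree_quadratic one_ne_zero]; norm_num)
  refine ⟨s, (Affine.equation_iff_nonsingular_of_Δ_ne_zero hΔ).1 ?_⟩
  rw [Affine.equation_iff]
  simp only [IsRoot.def, eval_add, eval_mul, eval_C, eval_pow, eval_X] at hs
  linear_combination hs

end Fermat.Agent.EL
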