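import Fermat.Agent.EL.Kernel
import Fermat.Agent.EL.AuxPt
import Fermat.Agent.EL.Cusp
import Fermat.Agent.EL.VC

/-!
# EL / Inj : the kernel of reduction has no torsion prime to the residue characteristic

Rescaling trick: `(x, y) ↦ (π² x, π³ y)` with `π² x(D) = 1`; the rescaled equation reduces to the
cusp `y² = x³`, `D` reduces to a nonsingular affine point of it.
-/

set_option autoImplicit false

namespace Fermat.Agent.EL

open WeierstrassCurve IsLocalRing

variable {K : Type*} [Field K] {A : ValuationSubring K}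

/-- the rescaled curve `a_i ↦ π^i a_i` -/
def scale (W : WeierstrassCurve A) (π : A) : WeierstrassCurve A :=
  ⟨π * W.a₁, π ^ 2 * W.a₂, π ^ 3 * W.a₃, π ^ 4 * W.a₄, π ^ 6 * W.a₆⟩

lemma spe_scale (W : WeierstrassCurve A) {π : A} (hπ : residue A π = 0) :
    spe (scale W π) = cusp (ResidueField A) := by
  ext <;> simp [scale, cusp, hπ]

/-- the change of variables `u = π⁻¹` -/
def scaleVC (π : K) (hπ : π ≠ 0) : VariableChange K := ⟨(Units.mk0 π hπ)⁻¹, 0, 0, 0⟩

lemma gen_scale (W : WeierstrassCurve A) {π : A} (hπ : (π : K) ≠ 0) :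
    gen (scale W π) = scaleVC (π : K) hπ • gen W := by
  ext <;> simp [scale, scaleVC, variableChange_a₁, variableChange_a₂, variableChange_a₃,
    variableChange_a₄, variableChange_a₆]

variable [DecidableEq K] [DecidableEq (ResidueField A)]

/-- auxiliary: transport of `cusp_nsmul_ne_zero` along an equality of curves -/
lemma Inj_nsmul_ne_zero_of_eq_cusp {F : Type*} [Field F] [DecidableEq F] {V : WeierstrassCurve F}
    (hV : V = cusp F) {n : ℕ} (hn : (n : F) ≠ 0) {P : V.toAffine.Point} (hP : P ≠ 0) :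
    n • P ≠ 0 := by
  subst hV
  exact cusp_nsmul_ne_zero hn hP

/-- auxiliary: transport of `cusp_nonsingular_iff` along an equality of curves -/
lemma Inj_nonsingular_of_eq_cusp {F : Type*} [Field F] {V : WeierstrassCurve F}
    (hV : V = cusp F) {x y : F} (h : V.toAffine.Equation x y) (hx : x ≠ 0) :
    V.toAffine.Nonsingular x y := by
  subst hV
  rw [cusp_nonsingular_iff]
  refine ⟨?_, hx⟩
  rw [Affine.equation_iff] at h
  simpa [cusp] using h

/-- auxiliary: if the special fibre is the cusp, a point with integral `x`-coordinate which is a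
unit is not killed by `n`. -/
lemma Inj_nsmul_ne_zero [IsAlgClosed K] (h2 : (2 : ResidueField A) ≠ 0) (W' : WeierstrassCurve A)
    (hW' : spe W' = cusp (ResidueField A)) {n : ℕ} (hn : (n : ResidueField A) ≠ 0) {x y : K}
    (h : (gen W').toAffine.Nonsingular x y) (hx : x ∈ A) (hx' : residue A (⟨x, hx⟩ : A) ≠ 0) :
    n • (Affine.Point.some x y h : (gen W').toAffine.Point) ≠ 0 := by
  intro h0
  have hy : y ∈ A := y_mem_of_x_mem h.1 hx
  have heq : W'.toAffine.Equation (⟨x, hx⟩ : A) (⟨y, hy⟩ : A) := by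
    rw [← Affine.map_equation (W := W'.toAffine) (f := A.subtype) A.subtype_injective]
    exact h.1
  have heq' : (spe W').toAffine.Equation (residue A (⟨x, hx⟩ : A)) (residue A (⟨y, hy⟩ : A)) :=
    Affine.Equation.map (residue A) heq
  have hb := Inj_nonsingular_of_eq_cusp hW' heq' hx'
  have hr : RedTo W' (.some _ _ h) (.some _ _ hb) :=
    RedTo.some (a := ⟨x, hx⟩) (b := ⟨y, hy⟩) h hb
  have hr' := hr.nsmul (hasAux h2 W') n
  rw [h0] at hr'
  have h3 := hr'.unique RedTo.zero
  exact Inj_nsmul_ne_zero_of_eq_cusp hW' hn (by simp) h3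

/-- **The kernel of reduction has no `n`-torsion for `n` prime to the residue characteristic.** -/
theorem eq_zero_of_redTo_zero [IsAlgClosed K] (h2 : (2 : ResidueField A) ≠ 0)
    (W : WeierstrassCurve A) {n : ℕ} (hn : (n : ResidueField A) ≠ 0)
    {D : (gen W).toAffine.Point} (hD : RedTo W D 0) (hnD : n • D = 0) : D = 0 := by
  rcases D with _ | ⟨x, y, h⟩
  · rfl
  exfalso
  have hxA : x ∉ A := hD.not_mem_of_zero
  have hx0 : x ≠ 0 := by
    rintro rfl
    exact hxA A.zero_mem
  obtain ⟨π, hπ⟩ := IsAlgClosed.exists_pow_nat_eq x⁻¹ (n := 2) (by norm_num)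
  have hπ0 : π ≠ 0 := by
    rintro rfl
    rw [zero_pow two_ne_zero] at hπ
    exact inv_ne_zero hx0 hπ.symm
  have hxinv : x⁻¹ ∈ A := (A.mem_or_inv_mem x).resolve_left hxA
  have hπA : π ∈ A := by
    rcases A.mem_or_inv_mem π with h1 | h1
    · exact h1
    · exfalso
      apply hxA
      have : x = π⁻¹ ^ 2 := by rw [inv_pow, hπ, inv_inv]
      rw [this]
      exact pow_mem h1 2
  have hres : residue A (⟨π, hπA⟩ : A) = 0 := by
    rw [residue_eq_zero_iff, mem_maximalIdeal, mem_nonunits_iff]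
    rintro ⟨u, hu⟩
    apply hxA
    have h1 : π⁻¹ = (((u⁻¹ : Aˣ) : A) : K) := by
      have h2 : ((u : A) : K) * (((u⁻¹ : Aˣ) : A) : K) = 1 := by
        rw [← A.coe_mul, Units.mul_inv, A.coe_one]
      rw [hu] at h2
      exact inv_eq_of_mul_eq_one_right h2
    have : x = π⁻¹ ^ 2 := by rw [inv_pow, hπ, inv_inv]
    rw [this, h1]
    exact pow_mem (((u⁻¹ : Aˣ) : A)).2 2
  have hu : (((scaleVC π hπ0).u : Kˣ) : K) = π⁻¹ := by
    simp [scaleVC]
  have e1 : ((scaleVC π hπ0).u : K) ^ 2 * (π ^ 2 * x) + (scaleVC π hπ0).r = x := by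
    rw [hu]
    simp only [scaleVC, add_zero]
    field_simp
  have e2 : ((scaleVC π hπ0).u : K) ^ 3 * (π ^ 3 * y)
      + ((scaleVC π hπ0).u : K) ^ 2 * (scaleVC π hπ0).s * (π ^ 2 * x) + (scaleVC π hπ0).t = y := by
    rw [hu]
    simp only [scaleVC, add_zero, mul_zero, zero_mul]
    field_simp
  have h' : (scaleVC π hπ0 • gen W).toAffine.Nonsingular (π ^ 2 * x) (π ^ 3 * y) := by
    rw [← vc_nonsingular, e1, e2]
    exact h
  have hmap : vcMap (gen W) (scaleVC π hπ0) (.some _ _ h') = .some x y h := by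
    rw [vcMap_some]
    simp only [Affine.Point.some.injEq]
    exact ⟨e1, e2⟩
  have hn1 : n • (Affine.Point.some _ _ h' : (scaleVC π hπ0 • gen W).toAffine.Point) = 0 := by
    apply (vcMap (gen W) (scaleVC π hπ0)).injective
    rw [map_nsmul, hmap, hnD, map_zero]
  have hgs : gen (scale W ⟨π, hπA⟩) = scaleVC π hπ0 • gen W := gen_scale W (π := ⟨π, hπA⟩) hπ0
  have hn2 := congrArg (castPtEquiv hgs.symm) hn1
  rw [map_nsmul, map_zero, castPtEquiv_apply, castPt_some] at hn2
  have hx1 : π ^ 2 * x = 1 := by rw [hπ, inv_mul_cancel₀ hx0]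
  have hxm : π ^ 2 * x ∈ A := by
    rw [hx1]
    exact A.one_mem
  refine Inj_nsmul_ne_zero h2 (scale W ⟨π, hπA⟩) (spe_scale W hres) hn _ hxm ?_ hn2
  have : (⟨π ^ 2 * x, hxm⟩ : A) = 1 := Subtype.ext hx1
  rw [this, map_one]
  exact one_ne_zero

end Fermat.Agent.EL
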