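import Fermat.Agent.EL.XForm
import Fermat.Agent.EL.InjAll
import Fermat.Agent.EL.DivK0

/-!
# EL / DivK2 : the kernel of reduction is 2-divisible (residue characteristic `≠ 2`)
-/

set_option autoImplicit false

namespace Fermat.Agent.EL

open WeierstrassCurve IsLocalRing Polynomial

variable {K : Type*} [Field K] {A : ValuationSubring K}

variable [DecidableEq K] [DecidableEq (ResidueField A)]

omit [DecidableEq K] in
/-- `X^(n+1) + c X^n + (lower terms)` is monic with second coefficient `c`. -/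
lemma DivK2_monic_nextCoeff (n : ℕ) (c : K) (q : K[X]) (hq : q.natDegree < n) :
    (X ^ (n + 1) + (C c * X ^ n + q)).Monic ∧ (X ^ (n + 1) + (C c * X ^ n + q)).nextCoeff = c := by
  have h1 : (C c * X ^ n + q).natDegree ≤ n := by
    refine (natDegree_add_le _ _).trans (max_le ?_ hq.le)
    exact natDegree_C_mul_X_pow_le c n
  have h2 : (C c * X ^ n + q).degree < ((n + 1 : ℕ) : WithBot ℕ) :=
    lt_of_le_of_lt degree_le_natDegree (by exact_mod_cast Nat.lt_succ_of_le h1)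
  have hdeg : (X ^ (n + 1) + (C c * X ^ n + q)).natDegree = n + 1 := by
    have h3 : (C c * X ^ n + q).degree < ((X : K[X]) ^ (n + 1)).degree := by
      rw [degree_X_pow]
      exact h2
    rw [natDegree_add_eq_left_of_degree_lt h3, natDegree_X_pow]
  refine ⟨monic_X_pow_add h2, ?_⟩
  rw [nextCoeff_of_natDegree_pos (by rw [hdeg]; exact Nat.succ_pos n), hdeg, Nat.add_sub_cancel,
    coeff_add, coeff_add, coeff_X_pow, coeff_C_mul, coeff_X_pow, if_neg (by omega), if_pos rfl,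
    coeff_eq_zero_of_natDegree_lt hq]
  ring

/-- PROOF. `Q = 0`: `R = 0`.  `Q = (x_Q, y_Q)`, `x_Q ∉ A` (`RedTo.not_mem_of_zero`).
`p := X⁴ - b₄X² - 2b₆X - b₈ - x_Q (4X³ + b₂X² + 2b₄X + b₆)` is monic of degree 4 with `nextCoeff = -4 x_Q ∉ A`:
a root `r ∉ A`; `R = (r, s)`; `RedTo W R 0` (`RedTo.of_not_mem`).  `dupD r ≠ 0`: otherwise `2R = 0`
(`two_nsmul_eq_zero_iff`), so `R = 0` by `eq_zero_of_redTo_zero_all` (n = 2).  `x(2R) = dupN r/dupD r = x_Q`
(`x_two_nsmul`), so `2R = ±Q` (`eq_or_eq_neg_of_x_eq`); replace `R` by `-R` if necessary (`RedTo.neg`). -/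
theorem exists_two_nsmul_eq_of_redTo_zero [IsAlgClosed K] (W : WeierstrassCurve A)
    (hΔ : (gen W).Δ ≠ 0) (h2 : (2 : ResidueField A) ≠ 0) {Q : (gen W).toAffine.Point}
    (hQ : RedTo W Q 0) : ∃ R : (gen W).toAffine.Point, RedTo W R 0 ∧ 2 • R = Q := by
  rcases Q with _ | ⟨xQ, yQ, hQn⟩
  · exact ⟨0, RedTo.zero, smul_zero 2⟩
  have hxQ : xQ ∉ A := hQ.not_mem_of_zero
  have h4 : ((4 : ℕ) : ResidueField A) ≠ 0 := by
    have e : ((4 : ℕ) : ResidueField A) = 2 * 2 := by norm_num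
    rw [e]
    exact mul_ne_zero h2 h2
  obtain ⟨hmon, hnext⟩ := DivK2_monic_nextCoeff 3 (-(4 * xQ))
    (C (-(gen W).b₄ - xQ * (gen W).b₂) * X ^ 2 + C (-2 * (gen W).b₆ - 2 * xQ * (gen W).b₄) * X
      + C (-(gen W).b₈ - xQ * (gen W).b₆))
    (Nat.lt_of_le_of_lt (by compute_degree) (by norm_num : 2 < 3))
  have hnot : (X ^ (3 + 1) + (C (-(4 * xQ)) * X ^ 3 +
      (C (-(gen W).b₄ - xQ * (gen W).b₂) * X ^ 2 + C (-2 * (gen W).b₆ - 2 * xQ * (gen W).b₄) * X
      + C (-(gen W).b₈ - xQ * (gen W).b₆)))).nextCoeff ∉ A := by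
    rw [hnext]
    intro h
    apply natCast_mul_not_mem h4 hxQ
    have := neg_mem h
    rw [neg_neg] at this
    exact_mod_cast this
  obtain ⟨r, hr, hrA⟩ := exists_root_not_mem _ hmon hnot
  obtain ⟨s, hs⟩ := exists_point_of_x (gen W) hΔ r
  have hR : RedTo W (.some r s hs) 0 := RedTo.of_not_mem hs hrA
  have hrel : dupN (gen W) r = xQ * dupD (gen W) r := by
    have h0 := hr
    simp only [IsRoot.def, eval_add, eval_mul, eval_pow, eval_X, eval_C] at h0
    simp only [dupN, dupD]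
    linear_combination h0
  have hD : dupD (gen W) r ≠ 0 := by
    intro h0
    have h2R := (two_nsmul_eq_zero_iff hs).2 h0
    have h2' : ((2 : ℕ) : ResidueField A) ≠ 0 := by exact_mod_cast h2
    exact Affine.Point.some_ne_zero _ (eq_zero_of_redTo_zero_all W h2' hR h2R)
  obtain ⟨y', h', e⟩ := x_two_nsmul hs hD
  have hx : dupN (gen W) r / dupD (gen W) r = xQ := by
    rw [hrel, mul_div_assoc, div_self hD, mul_one]
  subst hx
  rcases eq_or_eq_neg_of_x_eq h' hQn with h | h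
  · exact ⟨.some r s hs, hR, e.trans h⟩
  · refine ⟨-.some r s hs, ?_, ?_⟩
    · have := hR.neg
      rwa [neg_zero] at this
    · rw [smul_neg, e, h, neg_neg]

end Fermat.Agent.EL
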