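import Fermat.Agent.EL.XFormC
import Fermat.Agent.EL.InjAll
import Fermat.Agent.EL.DivK0

/-!
# EL / DivK3 : the kernel of reduction is 3-divisible (residue characteristic `≠ 3`)
-/

set_option autoImplicit false

namespace Fermat.Agent.EL

open WeierstrassCurve IsLocalRing Polynomial

variable {K : Type*} [Field K] {A : ValuationSubring K}

variable [DecidableEq K] [DecidableEq (ResidueField A)]

omit [DecidableEq K] in
/-- `X^(n+1) + c X^n + (lower terms)` is monic with second coefficient `c`. -/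
lemma DivK3_monic_nextCoeff (n : ℕ) (c : K) (q : K[X]) (hq : q.natDegree < n) :
    (X ^ (n + 1) + (C c * X ^ n + q)).Monic ∧ (X ^ (n + 1) + (C c * X ^ n + q)).nextCoeff = c := by
  have h1 : (C c * X ^ n + q).natDegree ≤ n := by
    refine (natDegree_add_le _ _).trans (max_le ?_ hq.le)
    exact natDegree_C_mul_X_pow_le c n
  have h2 : (C c * X ^ n + q).degree < ((n + 1 : ℕ) : WithBot ℕ) :=
    lt_of_le_of_lt degree_le_natDegree (by exact_mod_cast Nat.lt_succ_of_le h1)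
  have hdeg : (X ^ (n + 1) + (C c * X ^ n + q)).natDegree = n + 1 := by
    have h3 : (C c * X ^ n + q).degree < ((X : K[X]) ^ (n + 1)).degree := by
      rw [degree_X_pow]
      exact h2
    rw [natDegree_add_eq_left_of_degree_lt h3, natDegree_X_pow]
  refine ⟨monic_X_pow_add h2, ?_⟩
  rw [nextCoeff_of_natDegree_pos (by rw [hdeg]; exact Nat.succ_pos n), hdeg, Nat.add_sub_cancel,
    coeff_add, coeff_add, coeff_X_pow, coeff_C_mul, coeff_X_pow, if_neg (by omega), if_pos rfl,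
    coeff_eq_zero_of_natDegree_lt hq]
  ring

/-- the terms of degree `≤ 7` of `T(X) - x_Q ψ₃(X)²`. -/
noncomputable def DivK3_low (E : WeierstrassCurve K) (xQ : K) : K[X] :=
  C (-6 * E.b₄ - xQ * (6 * E.b₂)) * X ^ 7
  + C (-(E.b₂ * E.b₄ + 24 * E.b₆) - xQ * (E.b₂ ^ 2 + 18 * E.b₄)) * X ^ 6
  + C (3 * E.b₄ ^ 2 - 9 * E.b₂ * E.b₆ - 18 * E.b₈ - xQ * (18 * E.b₆ + 6 * E.b₂ * E.b₄)) * X ^ 5
  + C (E.b₂ * E.b₄ ^ 2 - E.b₂ ^ 2 * E.b₆ - 8 * E.b₂ * E.b₈ - 3 * E.b₄ * E.b₆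
      - xQ * (6 * E.b₈ + 6 * E.b₂ * E.b₆ + 9 * E.b₄ ^ 2)) * X ^ 4
  + C (2 * E.b₄ ^ 3 - E.b₂ ^ 2 * E.b₈ - E.b₂ * E.b₄ * E.b₆ - 10 * E.b₄ * E.b₈ + 3 * E.b₆ ^ 2
      - xQ * (2 * E.b₂ * E.b₈ + 18 * E.b₄ * E.b₆)) * X ^ 3
  + C (3 * E.b₄ ^ 2 * E.b₆ - 3 * E.b₂ * E.b₄ * E.b₈ - xQ * (6 * E.b₄ * E.b₈ + 9 * E.b₆ ^ 2)) * X ^ 2
  + C (3 * E.b₄ * E.b₆ ^ 2 - E.b₂ * E.b₆ * E.b₈ - 2 * E.b₄ ^ 2 * E.b₈ + E.b₈ ^ 2
      - xQ * (6 * E.b₆ * E.b₈)) * X
  + C (E.b₆ ^ 3 - E.b₄ * E.b₆ * E.b₈ - xQ * E.b₈ ^ 2)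

omit [DecidableEq K] in
lemma DivK3_natDegree_low (E : WeierstrassCurve K) (xQ : K) : (DivK3_low E xQ).natDegree < 8 := by
  refine Nat.lt_of_le_of_lt (?_ : _ ≤ 7) (by norm_num)
  unfold DivK3_low
  compute_degree

omit [DecidableEq K] in
lemma DivK3_eval (E : WeierstrassCurve K) (xQ r : K) :
    (X ^ (8 + 1) + (C (-(9 * xQ)) * X ^ 8 + DivK3_low E xQ)).eval r =
      triN E r - xQ * psi3 E r ^ 2 := by
  simp only [DivK3_low, eval_add, eval_mul, eval_pow, eval_X, eval_C, triN, dupN, dupD, psi3]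
  ring

/-- PROOF. Same as `exists_two_nsmul_eq_of_redTo_zero` (`DivK2.lean`) with `p := T(X) - x_Q ψ₃(X)²`, `T` the polynomial with `T(x) = triN x`:
`T = X⁹ - 6b₄X⁷ - (b₂b₄ + 24b₆)X⁶ + (3b₄² - 9b₂b₆ - 18b₈)X⁵ + …` (expand `triN`; monic of degree 9, NO `X⁸` term),
`ψ₃² = 9X⁸ + …`: `p` monic of degree 9, `nextCoeff = -9 x_Q ∉ A`.  Root `r ∉ A`, `R = (r, s)`, `ψ₃(r) ≠ 0` (otherwise
`3R = 0`, `R = 0`), `x(3R) = x_Q` (`x_three_nsmul`). -/
theorem exists_three_nsmul_eq_of_redTo_zero [IsAlgClosed K] (W : WeierstrassCurve A)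
    (hΔ : (gen W).Δ ≠ 0) (h3 : (3 : ResidueField A) ≠ 0) {Q : (gen W).toAffine.Point}
    (hQ : RedTo W Q 0) : ∃ R : (gen W).toAffine.Point, RedTo W R 0 ∧ 3 • R = Q := by
  rcases Q with _ | ⟨xQ, yQ, hQn⟩
  · exact ⟨0, RedTo.zero, smul_zero 3⟩
  have hxQ : xQ ∉ A := hQ.not_mem_of_zero
  have h9 : ((9 : ℕ) : ResidueField A) ≠ 0 := by
    have e : ((9 : ℕ) : ResidueField A) = 3 * 3 := by norm_num
    rw [e]
    exact mul_ne_zero h3 h3
  obtain ⟨hmon, hnext⟩ := DivK3_monic_nextCoeff 8 (-(9 * xQ)) (DivK3_low (gen W) xQ)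
    (DivK3_natDegree_low (gen W) xQ)
  have hnot : (X ^ (8 + 1) + (C (-(9 * xQ)) * X ^ 8 + DivK3_low (gen W) xQ)).nextCoeff ∉ A := by
    rw [hnext]
    intro h
    apply natCast_mul_not_mem h9 hxQ
    have := neg_mem h
    rw [neg_neg] at this
    exact_mod_cast this
  obtain ⟨r, hr, hrA⟩ := exists_root_not_mem _ hmon hnot
  obtain ⟨s, hs⟩ := exists_point_of_x (gen W) hΔ r
  have hR : RedTo W (.some r s hs) 0 := RedTo.of_not_mem hs hrA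
  have hrel : triN (gen W) r = xQ * psi3 (gen W) r ^ 2 := by
    have h0 := hr
    rw [IsRoot.def, DivK3_eval] at h0
    exact sub_eq_zero.1 h0
  have hD : psi3 (gen W) r ≠ 0 := by
    intro h0
    have h3R := (three_nsmul_eq_zero_iff hΔ hs).2 h0
    have h3' : ((3 : ℕ) : ResidueField A) ≠ 0 := by exact_mod_cast h3
    exact Affine.Point.some_ne_zero _ (eq_zero_of_redTo_zero_all W h3' hR h3R)
  obtain ⟨y', h', e⟩ := x_three_nsmul hΔ hs hD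
  have hx : triN (gen W) r / psi3 (gen W) r ^ 2 = xQ := by
    rw [hrel, mul_div_assoc, div_self (pow_ne_zero 2 hD), mul_one]
  subst hx
  rcases eq_or_eq_neg_of_x_eq h' hQn with h | h
  · exact ⟨.some r s hs, hR, e.trans h⟩
  · refine ⟨-.some r s hs, ?_, ?_⟩
    · have := hR.neg
      rwa [neg_zero] at this
    · rw [smul_neg, e, h, neg_neg]

end Fermat.Agent.EL
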