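import Mathlib

/-!
# EL / MapPt : the map on points induced by a field homomorphism `f : F →+* F'`
between curves `V`, `V'` with `V.map f = V'`
-/

set_option autoImplicit false

namespace Fermat.Agent.EL

open WeierstrassCurve

variable {F F' F'' : Type*} [Field F] [Field F'] [Field F'']

lemma mapPt_nonsingular (f : F →+* F') {V : WeierstrassCurve F} {V' : WeierstrassCurve F'}
    (h : V.map f = V') {x y : F} (hxy : V.toAffine.Nonsingular x y) :
    V'.toAffine.Nonsingular (f x) (f y) := by
  subst h
  exact (WeierstrassCurve.Affine.map_nonsingular (W := V.toAffine) (f := f) f.injective x y).mpr hxy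

variable [DecidableEq F] [DecidableEq F'] [DecidableEq F'']

/-- A field homomorphism induces a group homomorphism on points. -/
noncomputable def mapPt (f : F →+* F') {V : WeierstrassCurve F} {V' : WeierstrassCurve F'}
    (h : V.map f = V') : V.toAffine.Point →+ V'.toAffine.Point where
  toFun P := match P with
    | 0 => 0
    | .some x y hxy => .some (f x) (f y) (mapPt_nonsingular f h hxy)
  map_zero' := rfl
  map_add' := by
    subst h
    rintro (_ | ⟨x₁, y₁, h₁⟩) (_ | ⟨x₂, y₂, h₂⟩)
    any_goals rfl
    have hneg : ∀ x y : F, (V.map f).toAffine.negY (f x) (f y) = f (V.toAffine.negY x y) := by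
      intro x y
      exact WeierstrassCurve.Affine.map_negY (W' := V.toAffine) f x y
    have hslope : (V.map f).toAffine.slope (f x₁) (f x₂) (f y₁) (f y₂)
        = f (V.toAffine.slope x₁ x₂ y₁ y₂) :=
      WeierstrassCurve.Affine.map_slope (W := V.toAffine) f x₁ x₂ y₁ y₂
    have haddX : ∀ ℓ : F, (V.map f).toAffine.addX (f x₁) (f x₂) (f ℓ)
        = f (V.toAffine.addX x₁ x₂ ℓ) := fun ℓ =>
      WeierstrassCurve.Affine.map_addX (W' := V.toAffine) f x₁ x₂ ℓ
    have haddY : ∀ ℓ : F, (V.map f).toAffine.addY (f x₁) (f x₂) (f y₁) (f ℓ)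
        = f (V.toAffine.addY x₁ x₂ y₁ ℓ) := fun ℓ =>
      WeierstrassCurve.Affine.map_addY (W' := V.toAffine) f x₁ y₁ x₂ ℓ
    by_cases hxy : x₁ = x₂ ∧ y₁ = V.toAffine.negY x₂ y₂
    · rw [WeierstrassCurve.Affine.Point.add_of_Y_eq hxy.left hxy.right]
      exact (WeierstrassCurve.Affine.Point.add_of_Y_eq (congr_arg f hxy.left)
        (by rw [hxy.right, hneg])).symm
    · rw [WeierstrassCurve.Affine.Point.add_some hxy]
      have hxy' : ¬(f x₁ = f x₂ ∧ f y₁ = (V.map f).toAffine.negY (f x₂) (f y₂)) := by
        rintro ⟨h1, h2⟩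
        exact hxy ⟨f.injective h1, f.injective (by rw [h2, hneg])⟩
      refine Eq.trans ?_ (WeierstrassCurve.Affine.Point.add_some hxy').symm
      simp only [hslope, haddX, haddY]

section
variable (f : F →+* F') {V : WeierstrassCurve F} {V' : WeierstrassCurve F'} (h : V.map f = V')

@[simp] lemma mapPt_zero : mapPt f h 0 = 0 := rfl

@[simp] lemma mapPt_some {x y : F} (hxy : V.toAffine.Nonsingular x y) :
    mapPt f h (.some x y hxy) = .some (f x) (f y) (mapPt_nonsingular f h hxy) := rfl

lemma mapPt_injective : Function.Injective (mapPt f h) := by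
  rintro (_ | ⟨x₁, y₁, h₁⟩) (_ | ⟨x₂, y₂, h₂⟩) e
  · rfl
  · exact absurd e (by simp [← WeierstrassCurve.Affine.Point.zero_def])
  · exact absurd e (by simp [← WeierstrassCurve.Affine.Point.zero_def])
  · simp only [mapPt_some, WeierstrassCurve.Affine.Point.some.injEq] at e
    simp only [WeierstrassCurve.Affine.Point.some.injEq]
    exact ⟨f.injective e.1, f.injective e.2⟩

lemma mapPt_comp (g : F' →+* F'') {V'' : WeierstrassCurve F''} (h' : V'.map g = V'')
    (h'' : V.map (g.comp f) = V'') (P : V.toAffine.Point) :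
    mapPt g h' (mapPt f h P) = mapPt (g.comp f) h'' P := by
  rcases P with _ | ⟨x, y, hxy⟩
  · rfl
  · rfl

/-- `mapPt` only depends on the underlying function -/
lemma mapPt_congr {g : F →+* F'} (hg : V.map g = V') (e : ∀ x, f x = g x) (P : V.toAffine.Point) :
    mapPt f h P = mapPt g hg P := by
  obtain rfl : f = g := RingHom.ext e
  rfl

end

lemma mapPt_id {V : WeierstrassCurve F} (h : V.map (RingHom.id F) = V) (P : V.toAffine.Point) :
    mapPt (RingHom.id F) h P = P := by
  rcases P with _ | ⟨x, y, hxy⟩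
  · rfl
  · rfl

/-- Mathlib's `Point.map` is an instance of `mapPt`. -/
lemma point_map_eq_mapPt {R S : Type*} [CommRing R] [CommRing S] [Algebra R S] [Algebra R F]
    [Algebra S F] [IsScalarTower R S F] [Algebra R F'] [Algebra S F'] [IsScalarTower R S F']
    (W' : WeierstrassCurve.Affine R) (f : F →ₐ[S] F')
    (h : (W'.map (algebraMap R F)).map f.toRingHom = W'.map (algebraMap R F'))
    (P : (W'.map (algebraMap R F)).toAffine.Point) :
    WeierstrassCurve.Affine.Point.map (W' := W') f P = mapPt f.toRingHom h P := by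
  rcases P with _ | ⟨x, y, hxy⟩
  · rfl
  · rfl

end Fermat.Agent.EL
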