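import Fermat.Agent.EL.TorsB
import Fermat.Agent.EL.VC

/-!
# EL / Tors : `#E[n] = n²` over an algebraically closed field of characteristic `0`
-/

set_option autoImplicit false

namespace Fermat.Agent.EL

open Fermat.Agent.S52 WeierstrassCurve

variable {k : Type*} [Field k] [DecidableEq k] [IsAlgClosed k] [CharZero k]

theorem card_torsion_short (A B : k) (hΔ : 4 * A ^ 3 + 27 * B ^ 2 ≠ 0) {n : ℕ} (hn : 0 < n) :
    Nat.card {T : (short A B).Point // n • T = 0} = n ^ 2 := by
  classical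
  let L := AlgebraicClosure (RatFunc k)
  have h2 : (2 : k) ≠ 0 := two_ne_zero
  obtain ⟨yy, hyy⟩ := IsAlgClosed.exists_pow_nat_eq
    ((algebraMap (RatFunc k) L RatFunc.X) ^ 3
      + algebraMap k L A * algebraMap (RatFunc k) L RatFunc.X
      + algebraMap k L B) (n := 2) (by norm_num)
  have hΔL : 4 * (algebraMap k L A) ^ 3 + 27 * (algebraMap k L B) ^ 2 ≠ 0 := by
    have : algebraMap k L (4 * A ^ 3 + 27 * B ^ 2) ≠ 0 := by
      rwa [Ne, map_eq_zero]
    rwa [map_add, map_mul, map_mul, map_pow, map_pow, map_ofNat, map_ofNat] at this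
  have h2L : (2 : L) ≠ 0 := two_ne_zero
  have hη : (EL L A B).Nonsingular (algebraMap (RatFunc k) L RatFunc.X) yy :=
    short_nonsingular_of_equation _ _ hΔL h2L hyy
  obtain ⟨hrat, hdeg⟩ := xdeg_nsmul_eta hΔ h2 hη n
  -- the rational function `r = x(n η)`
  obtain ⟨r, hr, hrd⟩ : ∃ r : RatFunc k,
      algebraMap (RatFunc k) L r = xco (n • (.some _ _ hη : (EL L A B).Point)) ∧
        rdeg r = n ^ 2 := by
    generalize n • (.some _ _ hη : (EL L A B).Point) = Q at hrat hdeg
    rcases Q with _ | ⟨x, y, h⟩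
    · exfalso
      have : xdeg (0 : (EL L A B).Point) = 0 := rfl
      have h0 : xdeg (0 : (EL L A B).Point) = n ^ 2 := hdeg
      rw [this] at h0
      have : 0 < n ^ 2 := by positivity
      omega
    · obtain ⟨r, hr⟩ := hrat
      exact ⟨r, hr, by rw [← hdeg, Count_xdeg_some h r hr]⟩
  have hbij := bijOn_torsion hΔ h2 hη hn r hr
  have h1 : ({T : (short A B).Point | n • T = 0}).ncard = (substSet L r).ncard :=
    Set.BijOn.ncard_eq hbij
  rw [ncard_substSet r (by rw [hrd]; positivity), hrd] at h1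
  rw [← h1]
  exact Nat.card_coe_set_eq _

/-- the change of variables to the short model `y² = x³ - 27 c₄ x - 54 c₆` (`6` invertible) -/
noncomputable def shortVC {F : Type*} [Field F] (W : WeierstrassCurve F) (h6 : (6 : F) ≠ 0) :
    VariableChange F :=
  ⟨(Units.mk0 6 h6)⁻¹, -W.b₂ / 12, -W.a₁ / 2, -W.a₃ / 2 + W.a₁ * W.b₂ / 24⟩

lemma shortVC_smul {F : Type*} [Field F] (W : WeierstrassCurve F) (h6 : (6 : F) ≠ 0) :
    shortVC W h6 • W = short (-27 * W.c₄) (-54 * W.c₆) := by
  have h2 : (2 : F) ≠ 0 := fun h => h6 (by linear_combination 3 * h)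
  have h3 : (3 : F) ≠ 0 := fun h => h6 (by linear_combination 2 * h)
  have h12 : (12 : F) ≠ 0 := by
    have : (12 : F) = 2 * 6 := by norm_num
    rw [this]; exact mul_ne_zero h2 h6
  have h24 : (24 : F) ≠ 0 := by
    have : (24 : F) = 2 * 12 := by norm_num
    rw [this]; exact mul_ne_zero h2 h12
  ext
  · simp only [variableChange_a₁, shortVC, short, inv_inv, Units.val_mk0]
    field_simp
    ring
  · simp only [variableChange_a₂, shortVC, short, inv_inv, Units.val_mk0, b₂]
    field_simp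
    ring
  · simp only [variableChange_a₃, shortVC, short, inv_inv, Units.val_mk0, b₂]
    field_simp
    ring
  · simp only [variableChange_a₄, shortVC, short, inv_inv, Units.val_mk0, b₂, b₄, c₄]
    field_simp
    ring
  · simp only [variableChange_a₆, shortVC, short, inv_inv, Units.val_mk0, b₂, b₄, b₆, c₆]
    field_simp
    ring

lemma short_disc_ne_zero {F : Type*} [Field F] (W : WeierstrassCurve F) (h6 : (6 : F) ≠ 0)
    (hΔ : W.Δ ≠ 0) : 4 * (-27 * W.c₄) ^ 3 + 27 * (-54 * W.c₆) ^ 2 ≠ 0 := by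
  have e : 4 * (-27 * W.c₄) ^ 3 + 27 * (-54 * W.c₆) ^ 2 = -(78732 * 1728 * W.Δ) := by
    linear_combination (78732 : F) * W.c_relation
  rw [e]
  have h78732 : (78732 * 1728 : F) = 6 ^ 8 * 81 := by norm_num
  have h3 : (3 : F) ≠ 0 := fun h => h6 (by linear_combination 2 * h)
  have h81 : (81 : F) ≠ 0 := by
    have : (81 : F) = 3 ^ 4 := by norm_num
    rw [this]; exact pow_ne_zero _ h3
  rw [neg_ne_zero]
  rw [h78732]
  exact mul_ne_zero (mul_ne_zero (pow_ne_zero _ h6) h81) hΔ

theorem card_torsion (W : WeierstrassCurve k) (hΔ : W.Δ ≠ 0) {n : ℕ} (hn : 0 < n) :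
    Nat.card {T : W.toAffine.Point // n • T = 0} = n ^ 2 := by
  have h6 : (6 : k) ≠ 0 := by norm_num
  rw [← card_torsion_short (-27 * W.c₄) (-54 * W.c₆) (short_disc_ne_zero W h6 hΔ) hn]
  let e : (short (-27 * W.c₄) (-54 * W.c₆)).Point ≃+ W.toAffine.Point :=
    (castPtEquiv (shortVC_smul W h6).symm).trans (vcMap W (shortVC W h6))
  refine Nat.card_congr (Equiv.subtypeEquiv e.symm.toEquiv fun T => ?_)
  constructor
  · intro h
    change n • e.symm T = 0
    rw [← map_nsmul, h, map_zero]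
  · intro h
    have h' : n • e.symm T = 0 := h
    rw [← map_nsmul] at h'
    exact e.symm.injective (h'.trans (map_zero _).symm)

end Fermat.Agent.EL
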