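import Fermat.Agent.S52.FB.Main
import Fermat.Agent.EL.Tors
import Fermat.Agent.EL.MapPt
import Fermat.Agent.EL.Div2

/-!
# EL / FrobK : the Frobenius equation `φ² - a φ + ℓ = 0` on `V(F)`, `V` any elliptic curve over
`𝔽_ℓ` (`ℓ ≥ 5`), `F` an algebraic closure of `𝔽_ℓ`
-/

set_option autoImplicit false

namespace Fermat.Agent.EL

open Fermat.Agent.S52 WeierstrassCurve

variable (ℓ : ℕ) [Fact ℓ.Prime]

lemma FrobK_six_ne_zero (hℓ : 5 ≤ ℓ) : (6 : ZMod ℓ) ≠ 0 := by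
  intro h
  have h1 : ((6 : ℕ) : ZMod ℓ) = 0 := by exact_mod_cast h
  rw [ZMod.natCast_eq_zero_iff] at h1
  have hp : ℓ.Prime := Fact.out
  have h2 : ℓ ∣ 2 * 3 := by simpa using h1
  rcases (Nat.Prime.dvd_mul hp).1 h2 with h3 | h3
  · have := Nat.le_of_dvd (by norm_num) h3
    omega
  · have := Nat.le_of_dvd (by norm_num) h3
    omega

/-- same number of points on the short model -/
theorem card_short_model (hℓ : 5 ≤ ℓ) (V : WeierstrassCurve (ZMod ℓ)) :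
    Nat.card V.toAffine.Point = Nat.card (short (-27 * V.c₄) (-54 * V.c₆)).Point := by
  have h6 : (6 : ZMod ℓ) ≠ 0 := FrobK_six_ne_zero ℓ hℓ
  let e : (short (-27 * V.c₄) (-54 * V.c₆)).Point ≃+ V.toAffine.Point :=
    (castPtEquiv (shortVC_smul V h6).symm).trans (vcMap V (shortVC V h6))
  exact Nat.card_congr e.symm.toEquiv

/-- a change of variables with Frobenius-fixed coefficients commutes with Frobenius. -/
lemma FrobK_comm {F : Type*} [Field F] [Algebra (ZMod ℓ) F] [DecidableEq F]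
    {W : WeierstrassCurve F} (hfr : W.map (frobHom ℓ) = W) (C : VariableChange F)
    (hu : frobHom ℓ (C.u : F) = C.u) (hr : frobHom ℓ C.r = C.r) (hs : frobHom ℓ C.s = C.s)
    (ht : frobHom ℓ C.t = C.t) (A B : ZMod ℓ)
    (hsm : short (algebraMap (ZMod ℓ) F A) (algebraMap (ZMod ℓ) F B) = C • W)
    (Q : (short (algebraMap (ZMod ℓ) F A) (algebraMap (ZMod ℓ) F B)).Point) :
    vcMap W C (castPt hsm (frobPt ℓ A B Q)) = mapPt (frobHom ℓ) hfr (vcMap W C (castPt hsm Q)) := by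
  rcases Q with _ | ⟨x, y, h⟩
  · change vcMap W C (castPt hsm (frobPt ℓ A B 0)) =
      mapPt (frobHom ℓ) hfr (vcMap W C (castPt hsm 0))
    rw [map_zero, castPt_zero, map_zero, map_zero]
  · rw [frobPt, mapShort'_some, castPt_some, castPt_some, vcMap_some, vcMap_some, mapPt_some]
    simp only [map_add, map_mul, map_pow, hu, hr, hs, ht]

theorem frobenius_equation_gen (hℓ : 5 ≤ ℓ) (V : WeierstrassCurve (ZMod ℓ)) (hΔ : V.Δ ≠ 0)
    {F : Type*} [Field F] [Algebra (ZMod ℓ) F] [IsAlgClosed F] [Algebra.IsAlgebraic (ZMod ℓ) F]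
    [DecidableEq F] {VF : WeierstrassCurve F} (hV : V.map (algebraMap (ZMod ℓ) F) = VF)
    (hfr : VF.map (frobHom ℓ) = VF) (P : VF.toAffine.Point) :
    mapPt (frobHom ℓ) hfr (mapPt (frobHom ℓ) hfr P)
      - ((ℓ : ℤ) + 1 - (Nat.card V.toAffine.Point : ℤ)) • mapPt (frobHom ℓ) hfr P
      + (ℓ : ℤ) • P = 0 := by
  have h6 : (6 : ZMod ℓ) ≠ 0 := FrobK_six_ne_zero ℓ hℓ
  have h6F : (6 : F) ≠ 0 := by
    have : algebraMap (ZMod ℓ) F 6 ≠ 0 := by rwa [Ne, map_eq_zero]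
    rwa [map_ofNat] at this
  have h2F : (2 : F) ≠ 0 := fun h => h6F (by linear_combination 3 * h)
  rw [card_short_model ℓ hℓ V]
  obtain ⟨A, hA⟩ : ∃ A : ZMod ℓ, A = -27 * V.c₄ := ⟨_, rfl⟩
  obtain ⟨B, hB⟩ : ∃ B : ZMod ℓ, B = -54 * V.c₆ := ⟨_, rfl⟩
  rw [← hA, ← hB]
  have hΔAB : 4 * A ^ 3 + 27 * B ^ 2 ≠ 0 := by
    rw [hA, hB]
    exact short_disc_ne_zero V h6 hΔ
  have hΔF : 4 * (algebraMap (ZMod ℓ) F A) ^ 3 + 27 * (algebraMap (ZMod ℓ) F B) ^ 2 ≠ 0 := by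
    have : algebraMap (ZMod ℓ) F (4 * A ^ 3 + 27 * B ^ 2) ≠ 0 := by rwa [Ne, map_eq_zero]
    rwa [map_add, map_mul, map_mul, map_pow, map_pow, map_ofNat, map_ofNat] at this
  have hsm : short (algebraMap (ZMod ℓ) F A) (algebraMap (ZMod ℓ) F B) = shortVC VF h6F • VF := by
    rw [shortVC_smul, ← hV, map_c₄, map_c₆, hA, hB, map_mul, map_mul, map_neg, map_neg, map_ofNat,
      map_ofNat]
  -- the coefficients are fixed by Frobenius
  have ha₁ : frobHom ℓ VF.a₁ = VF.a₁ := by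
    have := congrArg WeierstrassCurve.a₁ hfr
    rwa [map_a₁] at this
  have ha₃ : frobHom ℓ VF.a₃ = VF.a₃ := by
    have := congrArg WeierstrassCurve.a₃ hfr
    rwa [map_a₃] at this
  have hb₂ : frobHom ℓ VF.b₂ = VF.b₂ := by
    have := congrArg WeierstrassCurve.b₂ hfr
    rwa [map_b₂] at this
  have hcomm := FrobK_comm ℓ hfr (shortVC VF h6F)
    (by simp only [shortVC, Units.val_inv_eq_inv_val, Units.val_mk0, map_inv₀, map_ofNat])
    (by simp only [shortVC, map_div₀, map_neg, map_ofNat, hb₂])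
    (by simp only [shortVC, map_div₀, map_neg, map_ofNat, ha₁])
    (by simp only [shortVC, map_add, map_div₀, map_neg, map_mul, map_ofNat, ha₁, ha₃, hb₂])
    A B hsm
  let e : (short (algebraMap (ZMod ℓ) F A) (algebraMap (ZMod ℓ) F B)).Point ≃+ VF.toAffine.Point :=
    (castPtEquiv hsm).trans (vcMap VF (shortVC VF h6F))
  have hcomm' : ∀ Q, e (frobPt ℓ A B Q) = mapPt (frobHom ℓ) hfr (e Q) := hcomm
  obtain ⟨Q, hQ⟩ := exists_two_nsmul_eq h2F _ _ hΔF (e.symm P)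
  have hS := frobenius_equation ℓ hℓ A B hΔAB (F := F) Q
  have hP : P = e (2 • Q) := by rw [hQ, AddEquiv.apply_symm_apply]
  have key : ∀ (a : ℤ) (T : (short (algebraMap (ZMod ℓ) F A) (algebraMap (ZMod ℓ) F B)).Point),
      e (frobPt ℓ A B (frobPt ℓ A B T) - a • frobPt ℓ A B T + (ℓ : ℤ) • T) =
        mapPt (frobHom ℓ) hfr (mapPt (frobHom ℓ) hfr (e T)) - a • mapPt (frobHom ℓ) hfr (e T)
          + (ℓ : ℤ) • e T := by
    intro a T
    rw [map_add, map_sub, map_zsmul, map_zsmul, hcomm', hcomm']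
  rw [hP, ← key, EmbeddingLike.map_eq_zero_iff, ← hS]
  simp only [map_nsmul, smul_add, smul_sub]
  rw [smul_comm (2 : ℤ), smul_comm (2 : ℤ)]
  simp only [two_nsmul, two_zsmul]

end Fermat.Agent.EL
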