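import Fermat.Agent.EL.RedAdd
import Fermat.Agent.EL.MapPt

/-!
# EL / RedMap : the reduction relation commutes with automorphisms preserving `A`
-/

set_option autoImplicit false

namespace Fermat.Agent.EL

open WeierstrassCurve IsLocalRing

variable {K : Type*} [Field K] {A : ValuationSubring K}
  [DecidableEq K] [DecidableEq (ResidueField A)]

/-- `toAffine` commutes with field homomorphisms -/
lemma toAffine_map {F F' : Type*} [Field F] [Field F'] [DecidableEq F] [DecidableEq F']
    (f : F →+* F') (V : WeierstrassCurve F) {v : Fin 3 → F} (hv : V.toProjective.Nonsingular v) :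
    Projective.Point.toAffine (V.map f).toProjective (f ∘ v)
      = mapPt f rfl (Projective.Point.toAffine V.toProjective v) := by
  have hv' : (V.map f).toProjective.Nonsingular (f ∘ v) :=
    (Projective.map_nonsingular (W' := V.toProjective) (f := f) f.injective v).mpr hv
  by_cases hz : v 2 = 0
  · rw [Projective.Point.toAffine_of_Z_eq_zero hz,
      Projective.Point.toAffine_of_Z_eq_zero (by simp [hz]), map_zero]
  · have hz' : (f ∘ v) 2 ≠ 0 := by simpa using hz
    rw [Projective.Point.toAffine_of_Z_ne_zero hv hz,
      Projective.Point.toAffine_of_Z_ne_zero hv' hz', mapPt_some]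
    simp only [Function.comp, map_div₀]

lemma RedMap_nonsingular {F F' : Type*} [Field F] [Field F']
    (f : F →+* F') {V : WeierstrassCurve F} {V' : WeierstrassCurve F'} (h : V.map f = V')
    {v : Fin 3 → F} (hv : V.toProjective.Nonsingular v) : V'.toProjective.Nonsingular (f ∘ v) := by
  subst h
  exact (Projective.map_nonsingular (W' := V.toProjective) (f := f) f.injective v).mpr hv

lemma RedMap_toAffine {F F' : Type*} [Field F] [Field F'] [DecidableEq F] [DecidableEq F']
    (f : F →+* F') {V : WeierstrassCurve F} {V' : WeierstrassCurve F'} (h : V.map f = V')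
    {v : Fin 3 → F} (hv : V.toProjective.Nonsingular v) :
    Projective.Point.toAffine V'.toProjective (f ∘ v)
      = mapPt f h (Projective.Point.toAffine V.toProjective v) := by
  subst h
  exact toAffine_map f V hv

/-- compatibility of the reduction with a compatible triple of ring homomorphisms -/
theorem RedTo.map (W : WeierstrassCurve A) (σK : K →+* K) (σA : A →+* A)
    (σk : ResidueField A →+* ResidueField A)
    (h1 : ∀ a : A, σK (a : K) = (σA a : K)) (h2 : ∀ a : A, σk (residue A a) = residue A (σA a))
    (hW : W.map σA = W) (hK : (gen W).map σK = gen W) (hk : (spe W).map σk = spe W)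
    {P : (gen W).toAffine.Point} {Pb : (spe W).toAffine.Point} (h : RedTo W P Pb) :
    RedTo W (mapPt σK hK P) (mapPt σk hk Pb) := by
  obtain ⟨v, hE, hN, rfl, rfl⟩ := h
  have e1 : A.subtype ∘ σA ∘ v = σK ∘ (A.subtype ∘ v) := funext fun i => (h1 (v i)).symm
  have e2 : residue A ∘ σA ∘ v = σk ∘ (residue A ∘ v) := funext fun i => (h2 (v i)).symm
  refine ⟨σA ∘ v, ?_, ?_, ?_, ?_⟩
  · have h : (W.map σA).toProjective.Equation (σA ∘ v) := Projective.Equation.map σA hE
    rw [hW] at h
    exact h
  · rw [e2]
    exact RedMap_nonsingular σk hk hN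
  · rw [e1]
    exact RedMap_toAffine σK hK (nonsingular_gen hE hN)
  · rw [e2]
    exact RedMap_toAffine σk hk hN

end Fermat.Agent.EL
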