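import Fermat.Agent.EL.ValQ
import Fermat.Agent.EL.Inj
import Fermat.Agent.EL.RedMap
import Fermat.Agent.EL.FrobK

/-!
# EL / X23 : inertia and Frobenius at a prime of good reduction act on `E[n]` as expected
-/

set_option autoImplicit false
set_option linter.unusedSectionVars false
set_option linter.style.haveILetI false

namespace Fermat.Agent.EL

open WeierstrassCurve IsLocalRing
open scoped WeierstrassCurve.Affine

local notation "Qbar" => AlgebraicClosure ℚ

section core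

variable (W : WeierstrassCurve ℤ) (A : ValuationSubring Qbar)

/-- the model over `A` -/
noncomputable abbrev modelA : WeierstrassCurve A := W.map (Int.castRingHom A)

lemma map_int_eq {R S : Type*} [CommRing R] [CommRing S] (f : R →+* S) :
    (W.map (Int.castRingHom R)).map f = W.map (Int.castRingHom S) := by
  rw [WeierstrassCurve.map_map]
  congr 1
  exact Subsingleton.elim _ _

lemma gen_modelA : gen (modelA W A) = W.map (Int.castRingHom Qbar) := map_int_eq W _

lemma spe_modelA : spe (modelA W A) = W.map (Int.castRingHom (ResidueField A)) := map_int_eq W _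

variable {W A}

/-- the three ring homomorphisms attached to an element of the decomposition group -/
noncomputable def decK (g : A.decompositionSubgroup ℚ) : Qbar →+* Qbar :=
  ((g : Qbar ≃ₐ[ℚ] Qbar) : Qbar →+* Qbar)

noncomputable def decA (g : A.decompositionSubgroup ℚ) : A →+* A :=
  MulSemiringAction.toRingHom (A.decompositionSubgroup ℚ) A g

noncomputable def deck (g : A.decompositionSubgroup ℚ) : ResidueField A →+* ResidueField A :=
  MulSemiringAction.toRingHom (A.decompositionSubgroup ℚ) (ResidueField A) g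

lemma decK_coe (g : A.decompositionSubgroup ℚ) (a : A) : decK g (a : Qbar) = (decA g a : Qbar) :=
  rfl

lemma deck_residue (g : A.decompositionSubgroup ℚ) (a : A) :
    deck g (residue A a) = residue A (decA g a) :=
  (ResidueField.residue_smul (A.decompositionSubgroup ℚ) g a).symm

lemma deck_apply (g : A.decompositionSubgroup ℚ) (x : ResidueField A) : deck g x = g • x := rfl

variable [DecidableEq (ResidueField A)]

lemma gen_map_decK (g : A.decompositionSubgroup ℚ) :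
    (gen (modelA W A)).map (decK g) = gen (modelA W A) := by
  rw [gen_modelA, map_int_eq]

lemma spe_map (f : ResidueField A →+* ResidueField A) :
    (spe (modelA W A)).map f = spe (modelA W A) := by
  rw [spe_modelA, map_int_eq]

theorem redTo_dec (g : A.decompositionSubgroup ℚ) {P : (gen (modelA W A)).toAffine.Point}
    {Pb : (spe (modelA W A)).toAffine.Point} (h : RedTo (modelA W A) P Pb) :
    RedTo (modelA W A) (mapPt (decK g) (gen_map_decK g) P) (mapPt (deck g) (spe_map _) Pb) :=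
  RedTo.map (modelA W A) (decK g) (decA g) (deck g) (decK_coe g) (deck_residue g)
    (map_int_eq W _) _ _ h

variable {ℓ : ℕ} (hℓ : ℓ.Prime) (h5 : 5 ≤ ℓ) (hgood : ¬ (ℓ : ℤ) ∣ W.Δ) (hA : A.LiesOverPrime ℓ)

include hℓ h5 hA in
lemma two_ne_zero_residue : (2 : ResidueField A) ≠ 0 := by
  have := natCast_residue_ne_zero hℓ hA (n := 2) (fun h => by
    have := Nat.le_of_dvd (by norm_num) h
    omega)
  exact_mod_cast this

include hℓ hgood hA in
lemma isUnit_Δ_modelA : IsUnit (modelA W A).Δ := by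
  rw [WeierstrassCurve.map_Δ]
  exact isUnit_intCast hℓ hA hgood

include hℓ h5 hgood hA in
/-- a torsion point of order prime to `ℓ` with trivial reduction is trivial -/
lemma eq_zero_of_red {n : ℕ} (hn : ¬ ℓ ∣ n) {D : (gen (modelA W A)).toAffine.Point}
    (hD : RedTo (modelA W A) D 0) (hnD : n • D = 0) : D = 0 :=
  eq_zero_of_redTo_zero (two_ne_zero_residue hℓ h5 hA) _ (natCast_residue_ne_zero hℓ hA hn) hD hnD

include hℓ h5 hgood hA in
theorem inertia_core {n : ℕ} (hn : ¬ ℓ ∣ n) (g : A.decompositionSubgroup ℚ)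
    (hg : ∀ x : ResidueField A, g • x = x) (P : (gen (modelA W A)).toAffine.Point)
    (hP : n • P = 0) : mapPt (decK g) (gen_map_decK g) P = P := by
  have haux := hasAux (two_ne_zero_residue hℓ h5 hA) (modelA W A)
  obtain ⟨Pb, hPb⟩ := exists_redTo_of_isUnit_Δ (isUnit_Δ_modelA hℓ hgood hA) P
  have h1 := redTo_dec g hPb
  have e : mapPt (deck g) (spe_map _) Pb = Pb := by
    rw [mapPt_congr (deck g) (spe_map _) (g := RingHom.id _) (spe_map _) (fun x => hg x), mapPt_id]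
  rw [e] at h1
  have h2 := h1.sub haux hPb
  rw [sub_self] at h2
  have h3 := eq_zero_of_red hℓ h5 hgood hA hn h2 (by rw [nsmul_sub, ← map_nsmul, hP, map_zero, sub_zero])
  exact sub_eq_zero.1 h3

include hℓ h5 hgood hA in
theorem frobenius_core {n : ℕ} (hn : ¬ ℓ ∣ n) (g : A.decompositionSubgroup ℚ)
    (hg : ∀ x : ResidueField A, g • x = x ^ ℓ) (P : (gen (modelA W A)).toAffine.Point)
    (hP : n • P = 0) :
    mapPt (decK g) (gen_map_decK g) (mapPt (decK g) (gen_map_decK g) P)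
      - (W.apOfModel ℓ) • mapPt (decK g) (gen_map_decK g) P + (ℓ : ℤ) • P = 0 := by
  haveI : Fact ℓ.Prime := ⟨hℓ⟩
  haveI : CharP (ResidueField A) ℓ := charP_residueField hℓ hA
  letI : Algebra (ZMod ℓ) (ResidueField A) := ZMod.algebra _ ℓ
  haveI : IsAlgClosed (ResidueField A) := isAlgClosed_residueField
  haveI : Algebra.IsAlgebraic (ZMod ℓ) (ResidueField A) := isAlgebraic_residueField hA
  have haux := hasAux (two_ne_zero_residue hℓ h5 hA) (modelA W A)
  obtain ⟨Pb, hPb⟩ := exists_redTo_of_isUnit_Δ (isUnit_Δ_modelA hℓ hgood hA) P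
  have e : ∀ Q, mapPt (deck g) (spe_map _) Q
      = mapPt (Fermat.Agent.S52.frobHom ℓ) (spe_map (W := W) _) Q := fun Q =>
    mapPt_congr (deck g) (spe_map _) (g := Fermat.Agent.S52.frobHom ℓ) (spe_map _) (fun x => hg x) Q
  have h1 := redTo_dec g hPb
  have h2 := redTo_dec g h1
  rw [e, e] at h2
  rw [e] at h1
  have h3 := ((h2.sub haux (h1.zsmul haux (W.apOfModel ℓ))).add haux (hPb.zsmul haux (ℓ : ℤ)))
  have hV : (W.reductionMod ℓ).map (algebraMap (ZMod ℓ) (ResidueField A)) = spe (modelA W A) := by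
    rw [spe_modelA, WeierstrassCurve.reductionMod, map_int_eq]
  have hΔ : (W.reductionMod ℓ).Δ ≠ 0 := by
    rw [WeierstrassCurve.reductionMod, WeierstrassCurve.map_Δ]
    intro h0
    exact hgood ((ZMod.intCast_zmod_eq_zero_iff_dvd _ _).1 h0)
  have h4 := frobenius_equation_gen ℓ h5 (W.reductionMod ℓ) hΔ hV (spe_map _) Pb
  have hap : W.apOfModel ℓ = (ℓ : ℤ) + 1 - (Nat.card (W.reductionMod ℓ).toAffine.Point : ℤ) := by
    rw [WeierstrassCurve.apOfModel, WeierstrassCurve.traceOfFrobenius, WeierstrassCurve.card,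
      Nat.card_zmod]
  rw [hap, h4] at h3
  rw [hap]
  refine eq_zero_of_red hℓ h5 hgood hA hn h3 ?_
  have key : ∀ (a : ℤ) (Q : (gen (modelA W A)).toAffine.Point), n • Q = 0 → n • (a • Q) = 0 := by
    intro a Q h
    rw [← natCast_zsmul, smul_smul, mul_comm, mul_smul, natCast_zsmul, h, zsmul_zero]
  have hσP : n • mapPt (decK g) (gen_map_decK g) P = 0 := by rw [← map_nsmul, hP, map_zero]
  rw [nsmul_add, nsmul_sub, key _ _ hP, key _ _ hσP, ← map_nsmul, hσP, map_zero, sub_zero,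
    add_zero]

/-- versions for an arbitrary presentation of the generic fibre -/
theorem inertia_core' {ℓ : ℕ} (hℓ : ℓ.Prime) (h5 : 5 ≤ ℓ) (hgood : ¬ (ℓ : ℤ) ∣ W.Δ)
    (hA : A.LiesOverPrime ℓ) {n : ℕ} (hn : ¬ ℓ ∣ n) (g : A.decompositionSubgroup ℚ)
    (hg : ∀ x : ResidueField A, g • x = x) {EK : WeierstrassCurve Qbar}
    (hE : gen (modelA W A) = EK) (hEσ : EK.map (decK g) = EK) (P : EK.toAffine.Point)
    (hP : n • P = 0) : mapPt (decK g) hEσ P = P := by
  subst hE
  exact inertia_core hℓ h5 hgood hA hn g hg P hP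

theorem frobenius_core' {ℓ : ℕ} (hℓ : ℓ.Prime) (h5 : 5 ≤ ℓ) (hgood : ¬ (ℓ : ℤ) ∣ W.Δ)
    (hA : A.LiesOverPrime ℓ) {n : ℕ} (hn : ¬ ℓ ∣ n) (g : A.decompositionSubgroup ℚ)
    (hg : ∀ x : ResidueField A, g • x = x ^ ℓ) {EK : WeierstrassCurve Qbar}
    (hE : gen (modelA W A) = EK) (hEσ : EK.map (decK g) = EK) (P : EK.toAffine.Point)
    (hP : n • P = 0) :
    mapPt (decK g) hEσ (mapPt (decK g) hEσ P) - (W.apOfModel ℓ) • mapPt (decK g) hEσ P
      + (ℓ : ℤ) • P = 0 := by
  subst hE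
  exact frobenius_core hℓ h5 hgood hA hn g hg P hP

end core

lemma gen_modelA' (W : WeierstrassCurve ℤ) (A : ValuationSubring Qbar) :
    gen (modelA W A) = (W.map (Int.castRingHom ℚ)).map (algebraMap ℚ Qbar) := by
  rw [gen_modelA, map_int_eq]

lemma map_decK' (W : WeierstrassCurve ℤ) {A : ValuationSubring Qbar}
    (g : A.decompositionSubgroup ℚ) :
    ((W.map (Int.castRingHom ℚ)).map (algebraMap ℚ Qbar)).map (decK g)
      = (W.map (Int.castRingHom ℚ)).map (algebraMap ℚ Qbar) := by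
  rw [map_int_eq, map_int_eq]

/-- the Galois action of the Prelude in terms of `mapPt` -/
lemma smul_eq_mapPt (W : WeierstrassCurve ℤ) {A : ValuationSubring Qbar}
    (g : A.decompositionSubgroup ℚ) (P : ((W.map (Int.castRingHom ℚ))⁄Qbar).Point) :
    (g : Qbar ≃ₐ[ℚ] Qbar) • P = mapPt (decK g) (map_decK' W g) P := by
  rcases P with _ | ⟨x, y, hxy⟩
  · rfl
  · rfl

lemma nsmul_eq_zero_of_mem_torsionBy {M : Type*} [AddCommGroup M] {n : ℕ}
    (x : Submodule.torsionBy ℤ M (n : ℕ)) : n • (x : M) = 0 := by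
  have h := (Submodule.mem_torsionBy_iff _ _).1 x.2
  rwa [natCast_zsmul] at h

/-- (X2) good reduction at `ℓ ≥ 5`, `ℓ ∤ n`: inertia acts trivially on `E[n]` -/
theorem inertia_smul_eq (W : WeierstrassCurve ℤ) {ℓ : ℕ} (hℓ : ℓ.Prime) (h5 : 5 ≤ ℓ)
    (hgood : ¬ (ℓ : ℤ) ∣ W.Δ) {n : ℕ} (hn : ¬ ℓ ∣ n) {A : ValuationSubring Qbar}
    (hA : A.LiesOverPrime ℓ) {σ : Qbar ≃ₐ[ℚ] Qbar} (hσ : σ ∈ A.inertiaSubgroupIn ℚ)
    (x : Submodule.torsionBy ℤ ((W.map (Int.castRingHom ℚ))⁄Qbar).Point (n : ℕ)) :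
    σ • x = x := by
  classical
  obtain ⟨g, hg, rfl⟩ := hσ
  have hg' : ∀ z : ResidueField A, g • z = z := fun z => by
    have := RingEquiv.congr_fun (MonoidHom.mem_ker.1 hg) z
    exact this
  apply Subtype.ext
  change (g : Qbar ≃ₐ[ℚ] Qbar) • (x : ((W.map (Int.castRingHom ℚ))⁄Qbar).Point) = x
  rw [smul_eq_mapPt]
  exact inertia_core' hℓ h5 hgood hA hn g hg' (gen_modelA' W A) _ _
    (nsmul_eq_zero_of_mem_torsionBy x)

/-- (X3) good reduction at `ℓ ≥ 5`, `ℓ ∤ n`: the Frobenius equation on `E[n]` -/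
theorem frobenius_smul_eq (W : WeierstrassCurve ℤ) {ℓ : ℕ} (hℓ : ℓ.Prime) (h5 : 5 ≤ ℓ)
    (hgood : ¬ (ℓ : ℤ) ∣ W.Δ) {n : ℕ} (hn : ¬ ℓ ∣ n) {A : ValuationSubring Qbar}
    (hA : A.LiesOverPrime ℓ) {σ : Qbar ≃ₐ[ℚ] Qbar} (hσ : A.IsFrobeniusAt σ ℓ)
    (x : Submodule.torsionBy ℤ ((W.map (Int.castRingHom ℚ))⁄Qbar).Point (n : ℕ)) :
    σ • σ • x - (W.apOfModel ℓ) • σ • x + (ℓ : ℤ) • x = 0 := by
  classical
  obtain ⟨hσD, hfr⟩ := hσ
  set g : A.decompositionSubgroup ℚ := ⟨σ, hσD⟩ with hg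
  apply Subtype.ext
  change (g : Qbar ≃ₐ[ℚ] Qbar) • (g : Qbar ≃ₐ[ℚ] Qbar) •
      (x : ((W.map (Int.castRingHom ℚ))⁄Qbar).Point)
    - (W.apOfModel ℓ) • ((g : Qbar ≃ₐ[ℚ] Qbar) • (x : ((W.map (Int.castRingHom ℚ))⁄Qbar).Point))
    + (ℓ : ℤ) • (x : ((W.map (Int.castRingHom ℚ))⁄Qbar).Point) = 0
  rw [smul_eq_mapPt, smul_eq_mapPt]
  exact frobenius_core' hℓ h5 hgood hA hn g hfr (gen_modelA' W A) _ _
    (nsmul_eq_zero_of_mem_torsionBy x)

end Fermat.Agent.EL
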