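import Fermat.Prelude.Def_EllipticCurve_FrobeniusTrace
import Fermat.Agent.EL.VC
import Fermat.Agent.EL.MapPt

/-!
# EL / X4 : a change of variables over `ℚ` is Galois equivariant on `ℚ̄`-points
-/

set_option autoImplicit false

namespace Fermat.Agent.EL

open WeierstrassCurve IsLocalRing
open scoped WeierstrassCurve.Affine

local notation "Qbar" => AlgebraicClosure ℚ

/-- `vcMap` commutes with field endomorphisms fixing the curve and the change of variables -/
lemma vcMap_mapPt {F : Type*} [Field F] [DecidableEq F] (f : F →+* F) (V : WeierstrassCurve F)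
    (C : VariableChange F) (hV : V.map f = V) (hC : C.map f = C) (hCV : (C • V).map f = C • V)
    (Q : (C • V).toAffine.Point) :
    vcMap V C (mapPt f hCV Q) = mapPt f hV (vcMap V C Q) := by
  rcases Q with _ | ⟨x, y, hxy⟩
  · rfl
  · rw [mapPt_some, vcMap_some, vcMap_some, mapPt_some]
    have hu : f (C.u : F) = C.u := by
      have := congrArg (fun D : VariableChange F => (D.u : F)) hC
      simpa using this
    have hr : f C.r = C.r := congrArg VariableChange.r hC
    have hs : f C.s = C.s := congrArg VariableChange.s hC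
    have ht : f C.t = C.t := congrArg VariableChange.t hC
    simp only [map_add, map_mul, map_pow, hu, hr, hs, ht]

/-- version with an arbitrary presentation of the second curve -/
lemma exists_addEquiv_mapPt {F : Type*} [Field F] [DecidableEq F] (V V' : WeierstrassCurve F)
    (C : VariableChange F) (h : V' = C • V) :
    ∃ e : V'.toAffine.Point ≃+ V.toAffine.Point,
      ∀ (f : F →+* F) (hV : V.map f = V) (_ : C.map f = C) (hV' : V'.map f = V')
        (Q : V'.toAffine.Point), e (mapPt f hV' Q) = mapPt f hV (e Q) := by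
  subst h
  exact ⟨vcMap V C, fun f hV hC hV' Q => vcMap_mapPt f V C hV hC hV' Q⟩

lemma map_map_algEquiv (E : WeierstrassCurve ℚ) (σ : Qbar ≃ₐ[ℚ] Qbar) :
    (E.map (algebraMap ℚ Qbar)).map (σ : Qbar →+* Qbar) = E.map (algebraMap ℚ Qbar) := by
  rw [WeierstrassCurve.map_map]
  congr 1
  exact Subsingleton.elim _ _

/-- the Galois action of the Prelude in terms of `mapPt` -/
lemma smul_eq_mapPt' (E : WeierstrassCurve ℚ) (σ : Qbar ≃ₐ[ℚ] Qbar) (P : (E⁄Qbar).Point) :
    σ • P = mapPt (σ : Qbar →+* Qbar) (map_map_algEquiv E σ) P := by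
  rcases P with _ | ⟨x, y, hxy⟩
  · rfl
  · rfl

/-- (X4) a change of variables over `ℚ` is a Galois equivariant isomorphism on `ℚ̄`-points -/
theorem exists_equivariant_addEquiv (E E' : WeierstrassCurve ℚ) (C : VariableChange ℚ)
    (h : C • E = E') :
    ∃ e : (E⁄Qbar).Point ≃+ (E'⁄Qbar).Point,
      ∀ (σ : Qbar ≃ₐ[ℚ] Qbar) (P : (E⁄Qbar).Point), e (σ • P) = σ • e P := by
  subst h
  obtain ⟨e', he'⟩ := exists_addEquiv_mapPt (E.map (algebraMap ℚ Qbar))
    ((C • E).map (algebraMap ℚ Qbar)) (C.map (algebraMap ℚ Qbar))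
    (E.map_variableChange C (algebraMap ℚ Qbar)).symm
  have hCσ : ∀ σ : Qbar ≃ₐ[ℚ] Qbar, (C.map (algebraMap ℚ Qbar)).map (σ : Qbar →+* Qbar)
      = C.map (algebraMap ℚ Qbar) := by
    intro σ
    rw [VariableChange.map_map]
    congr 1
    exact Subsingleton.elim _ _
  let e : ((C • E)⁄Qbar).Point ≃+ (E⁄Qbar).Point := e'
  have key : ∀ (σ : Qbar ≃ₐ[ℚ] Qbar) (Q : ((C • E)⁄Qbar).Point), e (σ • Q) = σ • e Q :=
    fun σ Q => (congrArg e (smul_eq_mapPt' (C • E) σ Q)).trans
      ((he' (σ : Qbar →+* Qbar) (map_map_algEquiv E σ) (hCσ σ) (map_map_algEquiv (C • E) σ) Q).trans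
        (smul_eq_mapPt' E σ (e Q)).symm)
  refine ⟨e.symm, fun σ P => ?_⟩
  apply e.injective
  rw [key, AddEquiv.apply_symm_apply, AddEquiv.apply_symm_apply]

end Fermat.Agent.EL
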