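import Fermat.Agent.EL.X1
import Fermat.Agent.EL.X23
import Fermat.Agent.EL.X4

/-!
# EL / Export : umbrella file of the `E`-side library

* `EL.card_torsionBy`   (X1) : `#E[n](ℚbar) = n²`
* `EL.inertia_smul_eq`  (X2) : inertia at a good prime `ℓ ∤ n` acts trivially on `E[n]`
* `EL.frobenius_smul_eq`(X3) : `Frob² - a_ℓ Frob + ℓ = 0` on `E[n]`, `ℓ ≥ 5` good, `ℓ ∤ n`
* `EL.exists_equivariant_addEquiv` (X4) : a change of variables over `ℚ` is Galois equivariant
-/
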