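import Mathlib

/-!
# EL / XForm : `x`-coordinate formulas on a general Weierstrass curve over a field
(duplication, sum formula, triplication)
-/

set_option autoImplicit false

namespace Fermat.Agent.EL

open WeierstrassCurve

variable {F : Type*} [Field F] (W : WeierstrassCurve F)

/-- numerator of the duplication formula -/
def dupN (x : F) : F := x ^ 4 - W.b₄ * x ^ 2 - 2 * W.b₆ * x - W.b₈
/-- denominator of the duplication formula, `= (2y + a₁x + a₃)²` -/
def dupD (x : F) : F := 4 * x ^ 3 + W.b₂ * x ^ 2 + 2 * W.b₄ * x + W.b₆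
/-- the 3-division polynomial -/
def psi3 (x : F) : F := 3 * x ^ 4 + W.b₂ * x ^ 3 + 3 * W.b₄ * x ^ 2 + 3 * W.b₆ * x + W.b₈
/-- numerator of the triplication formula -/
def triN (x : F) : F :=
  2 * dupN W x * x * (dupN W x + x * dupD W x) + W.b₂ * dupN W x * x * dupD W x
    + W.b₄ * (dupN W x + x * dupD W x) * dupD W x + W.b₆ * dupD W x ^ 2 - x * psi3 W x ^ 2

variable {W}

lemma dupD_eq {x y : F} (h : W.toAffine.Equation x y) :
    dupD W x = (2 * y + W.a₁ * x + W.a₃) ^ 2 := by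
  rw [Affine.equation_iff] at h
  simp only [dupD, b₂, b₄, b₆]
  linear_combination (-4 : F) * h

lemma dupN_sub (x : F) : dupN W x - x * dupD W x = -psi3 W x := by
  simp only [dupN, dupD, psi3]; ring

/-- the resultant identity of `dupN` and `dupD`. -/
lemma XForm_resultant (x : F) :
    (-48 * x ^ 2 - 8 * W.b₂ * x + W.b₂ ^ 2 - 32 * W.b₄) * dupN W x +
      (12 * x ^ 3 - W.b₂ * x ^ 2 - 10 * W.b₄ * x + W.b₂ * W.b₄ - 27 * W.b₆) * dupD W x = W.Δ := by
  simp only [dupN, dupD, Δ]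
  linear_combination (12 * x ^ 2 + 2 * W.b₂ * x + 8 * W.b₄) * W.b_relation

/-- `dupN`, `dupD` have no common zero on an elliptic curve
(`WeierstrassCurve.addSubMap_ne_zero` at `![x², 2x, 1]`, or a direct resultant identity). -/
lemma dupN_ne_zero_of_dupD_eq_zero (hΔ : W.Δ ≠ 0) {x : F} (h : dupD W x = 0) : dupN W x ≠ 0 := by
  intro hN
  apply hΔ
  rw [← XForm_resultant x, h, hN, mul_zero, mul_zero, add_zero]

/-- `y = negY x y ↔ dupD x = 0`. -/
lemma XForm_Y_eq_negY_iff {x y : F} (h : W.toAffine.Equation x y) :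
    y = W.toAffine.negY x y ↔ dupD W x = 0 := by
  rw [dupD_eq h, sq_eq_zero_iff, Affine.negY]
  constructor
  · intro h1
    linear_combination h1
  · intro h1
    linear_combination h1

variable [DecidableEq F]

lemma eq_or_eq_neg_of_x_eq {x y y' : F} (h : W.toAffine.Nonsingular x y)
    (h' : W.toAffine.Nonsingular x y') :
    (Affine.Point.some x y h : W.toAffine.Point) = .some x y' h' ∨
      (Affine.Point.some x y h : W.toAffine.Point) = -.some x y' h' := by
  rcases Affine.Y_eq_of_X_eq h.1 h'.1 rfl with hy | hy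
  · left
    subst hy
    rfl
  · right
    subst hy
    rw [Affine.Point.neg_some]

lemma two_nsmul_eq_zero_iff {x y : F} (h : W.toAffine.Nonsingular x y) :
    2 • (Affine.Point.some x y h : W.toAffine.Point) = 0 ↔ dupD W x = 0 := by
  rw [two_nsmul, ← XForm_Y_eq_negY_iff h.1]
  constructor
  · intro h0
    by_contra hy
    rw [Affine.Point.add_self_of_Y_ne hy] at h0
    exact Affine.Point.some_ne_zero _ h0
  · intro hy
    exact Affine.Point.add_self_of_Y_eq hy

/-- duplication formula -/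
theorem x_two_nsmul {x y : F} (h : W.toAffine.Nonsingular x y) (hD : dupD W x ≠ 0) :
    ∃ (y' : F) (h' : W.toAffine.Nonsingular (dupN W x / dupD W x) y'),
      2 • (Affine.Point.some x y h : W.toAffine.Point) = .some _ y' h' := by
  have hy : y ≠ W.toAffine.negY x y := fun hy => hD ((XForm_Y_eq_negY_iff h.1).1 hy)
  have heq := (Affine.equation_iff _ _).1 h.1
  have hψ : 2 * y + W.a₁ * x + W.a₃ ≠ 0 := by
    intro h0
    apply hD
    rw [dupD_eq h.1, h0]
    ring
  have key : (3 * x ^ 2 + 2 * W.a₂ * x + W.a₄ - W.a₁ * y) ^ 2 +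
      W.a₁ * (3 * x ^ 2 + 2 * W.a₂ * x + W.a₄ - W.a₁ * y) * (2 * y + W.a₁ * x + W.a₃) -
      (W.a₂ + 2 * x) * (2 * y + W.a₁ * x + W.a₃) ^ 2 = dupN W x := by
    simp only [dupN, b₄, b₆, b₈]
    linear_combination (-(W.a₁ ^ 2 + 4 * W.a₂ + 8 * x)) * heq
  have hslope : W.toAffine.slope x x y y =
      (3 * x ^ 2 + 2 * W.a₂ * x + W.a₄ - W.a₁ * y) / (2 * y + W.a₁ * x + W.a₃) := by
    rw [Affine.slope_of_Y_ne rfl hy, Affine.negY]
    have h1 : y - (-y - W.toAffine.a₁ * x - W.toAffine.a₃) = 2 * y + W.a₁ * x + W.a₃ := by ring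
    rw [h1]
  have hx : W.toAffine.addX x x (W.toAffine.slope x x y y) = dupN W x / dupD W x := by
    rw [eq_div_iff hD, dupD_eq h.1, ← key, hslope]
    generalize 3 * x ^ 2 + 2 * W.a₂ * x + W.a₄ - W.a₁ * y = n
    generalize 2 * y + W.a₁ * x + W.a₃ = ψ at hψ
    show ((n / ψ) ^ 2 + W.a₁ * (n / ψ) - W.a₂ - x - x) * ψ ^ 2 = _
    field_simp
    ring
  rw [two_nsmul, Affine.Point.add_self_of_Y_ne hy, ← hx]
  exact ⟨_, _, rfl⟩

end Fermat.Agent.EL
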