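import Fermat.Agent.EL.RedAdd

/-!
# EL / Kernel : affine description of the reduction relation
-/

set_option autoImplicit false

namespace Fermat.Agent.EL

open WeierstrassCurve IsLocalRing
open scoped WeierstrassCurve.Projective

variable {K : Type*} [Field K] {A : ValuationSubring K}
variable {W : WeierstrassCurve A}

lemma Kernel_equation {x y : K} (h : (gen W).toAffine.Equation x y) :
    y ^ 2 + (W.a₁ : K) * x * y + (W.a₃ : K) * y =
      x ^ 3 + (W.a₂ : K) * x ^ 2 + (W.a₄ : K) * x + (W.a₆ : K) :=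
  (Affine.equation_iff _ _).1 h

/-- integrality of `y` -/
lemma y_mem_of_x_mem {x y : K} (h : (gen W).toAffine.Equation x y) (hx : x ∈ A) : y ∈ A := by
  have he := Kernel_equation h
  rcases A.mem_or_inv_mem y with hy | hy
  · exact hy
  · by_cases hy0 : y = 0
    · rw [hy0]; exact A.zero_mem
    have h1 : y = (x ^ 3 + (W.a₂ : K) * x ^ 2 + (W.a₄ : K) * x + (W.a₆ : K)) * y⁻¹
        - (W.a₁ : K) * x - (W.a₃ : K) := by
      rw [← he]
      field_simp
      ring
    rw [h1]
    refine sub_mem (sub_mem (mul_mem ?_ hy) (mul_mem W.a₁.2 hx)) W.a₃.2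
    exact add_mem (add_mem (add_mem (pow_mem hx 3) (mul_mem W.a₂.2 (pow_mem hx 2)))
      (mul_mem W.a₄.2 hx)) W.a₆.2

/-- size of `y` when `x` is not integral: `|y|² = |x|³` -/
lemma valuation_y_sq {x y : K} (h : (gen W).toAffine.Equation x y) (hx : x ∉ A) :
    A.valuation y ^ 2 = A.valuation x ^ 3 := by
  have he := Kernel_equation h
  set v := A.valuation with hv
  have hx1 : 1 < v x := by
    rw [← not_le, A.valuation_le_one_iff]; exact hx
  have hc : ∀ a : A, v (a : K) ≤ 1 := fun a => A.valuation_le_one a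
  have hx0 : 0 < v x := lt_trans zero_lt_one hx1
  have hx12 : v x < v x ^ 2 := by
    calc v x = v x * 1 := (mul_one _).symm
      _ < v x * v x := (mul_lt_mul_iff_right₀ hx0).2 hx1
      _ = v x ^ 2 := (sq _).symm
  have hx23 : v x ^ 2 < v x ^ 3 := by
    calc v x ^ 2 = v x ^ 2 * 1 := (mul_one _).symm
      _ < v x ^ 2 * v x := (mul_lt_mul_iff_right₀ (pow_pos hx0 2)).2 hx1
      _ = v x ^ 3 := (pow_succ _ 2).symm
  -- the right hand side
  have hR : v (x ^ 3 + (W.a₂ : K) * x ^ 2 + (W.a₄ : K) * x + (W.a₆ : K)) = v x ^ 3 := by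
    have h2 : v ((W.a₂ : K) * x ^ 2) < v (x ^ 3) := by
      rw [map_mul, map_pow, map_pow]
      exact lt_of_le_of_lt (mul_le_of_le_one_left' (hc _)) hx23
    have h4 : v ((W.a₄ : K) * x) < v (x ^ 3) := by
      rw [map_mul, map_pow]
      exact lt_of_le_of_lt (mul_le_of_le_one_left' (hc _)) (hx12.trans hx23)
    have h6 : v (W.a₆ : K) < v (x ^ 3) := by
      rw [map_pow]
      exact lt_of_le_of_lt (hc _) (hx1.trans (hx12.trans hx23))
    have e1 : v (x ^ 3 + (W.a₂ : K) * x ^ 2) = v (x ^ 3) := v.map_add_eq_of_lt_left h2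
    have e2 : v (x ^ 3 + (W.a₂ : K) * x ^ 2 + (W.a₄ : K) * x) = v (x ^ 3) := by
      rw [← e1]; exact v.map_add_eq_of_lt_left (by rw [e1]; exact h4)
    rw [← map_pow, ← e2]
    exact v.map_add_eq_of_lt_left (by rw [e2]; exact h6)
  rw [← he] at hR
  rcases le_or_gt (v y) (v x) with hyx | hyx
  · exfalso
    have b1 : v (y ^ 2) ≤ v x ^ 2 := by
      rw [map_pow]; exact pow_le_pow_left' hyx 2
    have b2 : v ((W.a₁ : K) * x * y) ≤ v x ^ 2 := by
      rw [map_mul, map_mul, sq]
      exact mul_le_mul' (mul_le_of_le_one_left' (hc _)) hyx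
    have b3 : v ((W.a₃ : K) * y) ≤ v x ^ 2 := by
      rw [map_mul]
      exact (mul_le_of_le_one_left' (hc _)).trans (hyx.trans hx12.le)
    have := v.map_add_le (v.map_add_le b1 b2) b3
    rw [hR] at this
    exact absurd this (not_le.2 hx23)
  · have hy0 : 0 < v y := hx0.trans hyx
    have c2 : v ((W.a₁ : K) * x * y) < v (y ^ 2) := by
      rw [map_mul, map_mul, map_pow, sq]
      refine lt_of_le_of_lt (mul_le_mul_left (mul_le_of_le_one_left' (hc _)) _) ?_
      exact (mul_lt_mul_iff_left₀ hy0).2 hyx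
    have c3 : v ((W.a₃ : K) * y) < v (y ^ 2) := by
      rw [map_mul, map_pow, sq]
      refine lt_of_le_of_lt (mul_le_of_le_one_left' (hc _)) ?_
      calc v y = 1 * v y := (one_mul _).symm
        _ < v y * v y := (mul_lt_mul_iff_left₀ hy0).2 (hx1.trans hyx)
    have e1 : v (y ^ 2 + (W.a₁ : K) * x * y) = v (y ^ 2) := v.map_add_eq_of_lt_left c2
    have e2 : v (y ^ 2 + (W.a₁ : K) * x * y + (W.a₃ : K) * y) = v (y ^ 2) := by
      rw [← e1]; exact v.map_add_eq_of_lt_left (by rw [e1]; exact c3)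
    rw [← map_pow, ← e2, hR]

lemma Kernel_some_congr {V : WeierstrassCurve.Affine K} {x x' y y' : K} (hx : x = x')
    (hy : y = y') (h : V.Nonsingular x y) :
    ∃ h' : V.Nonsingular x' y', Affine.Point.some x y h = Affine.Point.some x' y' h' := by
  subst hx hy
  exact ⟨h, rfl⟩

/-- points with non-integral `x` reduce to `0` -/
theorem RedTo.of_not_mem {x y : K} (h : (gen W).toAffine.Nonsingular x y) (hx : x ∉ A) :
    RedTo W (.some x y h) 0 := by
  have hsq := valuation_y_sq h.1 hx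
  set v := A.valuation with hv
  have hx1 : 1 < v x := by
    rw [← not_le, A.valuation_le_one_iff]; exact hx
  have hx0 : 0 < v x := lt_trans zero_lt_one hx1
  have hy1 : 1 < v y := by
    by_contra hcon
    have h1 : v y ^ 2 ≤ 1 := pow_le_one' (not_lt.1 hcon) 2
    rw [hsq] at h1
    exact absurd h1 (not_le.2 (one_lt_pow' hx1 (by norm_num)))
  have hy0 : y ≠ 0 := by
    intro h0
    rw [h0, map_zero] at hy1
    exact absurd hy1 (not_lt.2 zero_le_one)
  have hxy : v x < v y := by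
    by_contra hcon
    have h1 : v y ^ 2 ≤ v x ^ 2 := pow_le_pow_left' (not_lt.1 hcon) 2
    rw [hsq] at h1
    have h2 : v x ^ 2 < v x ^ 3 := by
      calc v x ^ 2 = v x ^ 2 * 1 := (mul_one _).symm
        _ < v x ^ 2 * v x := (mul_lt_mul_iff_right₀ (pow_pos hx0 2)).2 hx1
        _ = v x ^ 3 := (pow_succ _ 2).symm
    exact absurd h1 (not_le.2 h2)
  have hvy0 : 0 < v y := lt_trans zero_lt_one hy1
  have ha : v (x / y) < 1 := by
    rw [map_div₀]
    exact (div_lt_one₀ hvy0).2 hxy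
  have hb : v (y⁻¹) < 1 := by
    rw [map_inv₀]
    exact inv_lt_one_of_one_lt₀ hy1
  have haA : x / y ∈ A := (A.valuation_le_one_iff _).1 ha.le
  have hbA : y⁻¹ ∈ A := (A.valuation_le_one_iff _).1 hb.le
  have hra : residue A (⟨x / y, haA⟩ : A) = 0 := by
    rw [residue_eq_zero_iff, A.valuation_lt_one_iff]; exact ha
  have hrb : residue A (⟨y⁻¹, hbA⟩ : A) = 0 := by
    rw [residue_eq_zero_iff, A.valuation_lt_one_iff]; exact hb
  have hK : (gen W).toProjective.Nonsingular ![x, y, 1] := (Projective.nonsingular_some ..).2 h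
  have hu : IsUnit (y⁻¹ : K) := (isUnit_iff_ne_zero.2 (inv_ne_zero hy0))
  have e1 : A.subtype ∘ ![(⟨x / y, haA⟩ : A), 1, ⟨y⁻¹, hbA⟩] = y⁻¹ • ![x, y, 1] := by
    rw [Projective.comp_fin3, Projective.smul_fin3, map_one]
    simp only [Projective.fin3_def_ext]
    rw [inv_mul_cancel₀ hy0, mul_one, inv_mul_eq_div]
    rfl
  have e2 : residue A ∘ ![(⟨x / y, haA⟩ : A), 1, ⟨y⁻¹, hbA⟩] = ![0, 1, 0] := by
    rw [Projective.comp_fin3, map_one, hra, hrb]
  refine ⟨![⟨x / y, haA⟩, 1, ⟨y⁻¹, hbA⟩], ?_, ?_, ?_, ?_⟩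
  · rw [← Projective.map_equation (W' := W.toProjective) (f := A.subtype) A.subtype_injective, e1,
      Projective.equation_smul _ hu]
    exact hK.1
  · rw [e2]; exact Projective.nonsingular_zero
  · rw [e1, Projective.Point.toAffine_smul _ hu]; exact Projective.Point.toAffine_some hK
  · rw [e2]; exact Projective.Point.toAffine_zero

/-- the kernel of reduction -/
theorem RedTo.not_mem_of_zero {x y : K} {h : (gen W).toAffine.Nonsingular x y}
    (hr : RedTo W (.some x y h) 0) : x ∉ A := by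
  obtain ⟨v, hv, hvs, hP, h0⟩ := hr
  have hvK := nonsingular_gen hv hvs
  -- the residue has `z = 0`
  have hz : (residue A ∘ v) 2 = 0 := by
    by_contra hne
    rw [Projective.Point.toAffine_of_Z_ne_zero hvs hne] at h0
    exact Affine.Point.some_ne_zero _ h0
  have hzK : (A.subtype ∘ v) 2 ≠ 0 := by
    intro h2
    rw [Projective.Point.toAffine_of_Z_eq_zero h2] at hP
    exact Affine.Point.some_ne_zero _ hP.symm
  rw [Projective.Point.toAffine_of_Z_ne_zero hvK hzK, Affine.Point.some.injEq] at hP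
  have hyu : IsUnit ((residue A ∘ v) 1) := Projective.isUnit_Y_of_Z_eq_zero hvs hz
  have hv1 : IsUnit (v 1) := by
    by_contra hcon
    have : residue A (v 1) = 0 := (residue_eq_zero_iff _).2 ((mem_maximalIdeal _).2 hcon)
    exact hyu.ne_zero this
  have hv2 : v 2 ∈ maximalIdeal A := (residue_eq_zero_iff _).1 hz
  intro hx
  have hy : y ∈ A := y_mem_of_x_mem h.1 hx
  -- `v 1 = y * v 2`
  have h1 : v 1 = ⟨y, hy⟩ * v 2 := by
    ext
    have h2 : (v 1 : K) / (v 2 : K) = y := hP.2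
    have h3 : (v 2 : K) ≠ 0 := hzK
    rw [A.coe_mul]
    show (v 1 : K) = y * (v 2 : K)
    rw [← h2, div_mul_cancel₀ _ h3]
  have h4 : v 1 ∈ maximalIdeal A := by
    rw [h1]; exact Ideal.mul_mem_left _ _ hv2
  exact (mem_maximalIdeal _).1 h4 hv1

/-- reduction to an affine point -/
theorem RedTo.exists_of_some {P : (gen W).toAffine.Point} {xb yb : ResidueField A}
    {hb : (spe W).toAffine.Nonsingular xb yb} (hr : RedTo W P (.some xb yb hb)) :
    ∃ (a b : A) (h : (gen W).toAffine.Nonsingular (a : K) (b : K)),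
      P = .some _ _ h ∧ residue A a = xb ∧ residue A b = yb := by
  obtain ⟨v, hv, hvs, rfl, h0⟩ := hr
  have hvK := nonsingular_gen hv hvs
  have hz : (residue A ∘ v) 2 ≠ 0 := by
    intro h2
    rw [Projective.Point.toAffine_of_Z_eq_zero h2] at h0
    exact Affine.Point.some_ne_zero _ h0.symm
  rw [Projective.Point.toAffine_of_Z_ne_zero hvs hz, Affine.Point.some.injEq] at h0
  have hv2 : IsUnit (v 2) := by
    by_contra hcon
    exact hz ((residue_eq_zero_iff _).2 ((mem_maximalIdeal _).2 hcon))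
  obtain ⟨u, hu⟩ := hv2
  have hzK : (A.subtype ∘ v) 2 ≠ 0 := by
    intro h2
    apply hz
    have : v 2 = 0 := Subtype.ext h2
    show residue A (v 2) = 0
    rw [this, map_zero]
  have hu1 : (v 2 : K) * (((u⁻¹ : Aˣ) : A) : K) = 1 := by
    rw [← hu, ← A.coe_mul, Units.mul_inv, A.coe_one]
  have hinv : (((u⁻¹ : Aˣ) : A) : K) = (v 2 : K)⁻¹ := eq_inv_of_mul_eq_one_right hu1
  have hru : residue A (v 2) * residue A ((u⁻¹ : Aˣ) : A) = 1 := by
    rw [← map_mul, ← hu, Units.mul_inv, map_one]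
  have hrinv : residue A ((u⁻¹ : Aˣ) : A) = (residue A (v 2))⁻¹ := eq_inv_of_mul_eq_one_right hru
  have ea : (A.subtype ∘ v) 0 / (A.subtype ∘ v) 2 = ((v 0 * ((u⁻¹ : Aˣ) : A) : A) : K) := by
    rw [A.coe_mul, hinv, div_eq_mul_inv]; rfl
  have eb : (A.subtype ∘ v) 1 / (A.subtype ∘ v) 2 = ((v 1 * ((u⁻¹ : Aˣ) : A) : A) : K) := by
    rw [A.coe_mul, hinv, div_eq_mul_inv]; rfl
  obtain ⟨h', he⟩ := Kernel_some_congr ea eb
    ((Projective.nonsingular_of_Z_ne_zero hzK).mp hvK)
  refine ⟨v 0 * ((u⁻¹ : Aˣ) : A), v 1 * ((u⁻¹ : Aˣ) : A), h', ?_, ?_, ?_⟩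
  · rw [Projective.Point.toAffine_of_Z_ne_zero hvK hzK]; exact he
  · rw [map_mul, hrinv, ← div_eq_mul_inv]; exact h0.1
  · rw [map_mul, hrinv, ← div_eq_mul_inv]; exact h0.2

/-- good reduction: every point reduces to some point -/
theorem exists_redTo_of_isUnit_Δ (hΔ : IsUnit W.Δ) (P : (gen W).toAffine.Point) :
    ∃ Pb, RedTo W P Pb := by
  rcases P with _ | ⟨x, y, h⟩
  · exact ⟨0, RedTo.zero⟩
  · by_cases hx : x ∈ A
    · have hy : y ∈ A := y_mem_of_x_mem h.1 hx
      have heq : W.toAffine.Equation (⟨x, hx⟩ : A) (⟨y, hy⟩ : A) :=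
        (Affine.map_equation (W := W.toAffine) (f := A.subtype) A.subtype_injective _ _).1 h.1
      have heq' : (spe W).toAffine.Equation (residue A ⟨x, hx⟩) (residue A ⟨y, hy⟩) :=
        Affine.Equation.map (residue A) heq
      have hΔ' : (spe W).Δ ≠ 0 := by
        rw [WeierstrassCurve.map_Δ]
        exact (hΔ.map (residue A)).ne_zero
      have hns := (Affine.equation_iff_nonsingular_of_Δ_ne_zero (W := (spe W).toAffine) hΔ').1 heq'
      exact ⟨_, RedTo.some (a := ⟨x, hx⟩) (b := ⟨y, hy⟩) h hns⟩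
    · exact ⟨0, RedTo.of_not_mem h hx⟩

end Fermat.Agent.EL
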