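import Fermat.Agent.EL.DivK2
import Fermat.Agent.EL.DivK3

/-!
# EL / Lift : lifting torsion points of `λ`-power order (`λ = 2, 3`) from the nonsingular locus of
the special fibre
-/

set_option autoImplicit false

namespace Fermat.Agent.EL

open WeierstrassCurve IsLocalRing

variable {K : Type*} [Field K] {A : ValuationSubring K}
variable [DecidableEq K] [DecidableEq (ResidueField A)]

/-- the kernel of reduction is `λ`-divisible -/
theorem Lift_exists_nsmul_eq [IsAlgClosed K] (W : WeierstrassCurve A)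
    (hΔ : (gen W).Δ ≠ 0) {lam : ℕ} (hlam : lam = 2 ∨ lam = 3) (hl : (lam : ResidueField A) ≠ 0)
    {Q : (gen W).toAffine.Point} (hQ : RedTo W Q 0) :
    ∃ R : (gen W).toAffine.Point, RedTo W R 0 ∧ lam • R = Q := by
  rcases hlam with rfl | rfl
  · exact exists_two_nsmul_eq_of_redTo_zero W hΔ (by exact_mod_cast hl) hQ
  · exact exists_three_nsmul_eq_of_redTo_zero W hΔ (by exact_mod_cast hl) hQ

/-- the kernel of reduction is `λ^n`-divisible (induction on `n`) -/
theorem exists_pow_nsmul_eq_of_redTo_zero [IsAlgClosed K] (W : WeierstrassCurve A)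
    (hΔ : (gen W).Δ ≠ 0) {lam : ℕ} (hlam : lam = 2 ∨ lam = 3) (hl : (lam : ResidueField A) ≠ 0)
    (n : ℕ) {Q : (gen W).toAffine.Point} (hQ : RedTo W Q 0) :
    ∃ R : (gen W).toAffine.Point, RedTo W R 0 ∧ lam ^ n • R = Q := by
  induction n with
  | zero => exact ⟨Q, hQ, by rw [pow_zero, one_nsmul]⟩
  | succ n ih =>
    obtain ⟨R, hR, hRQ⟩ := ih
    obtain ⟨R', hR', hRR'⟩ := Lift_exists_nsmul_eq W hΔ hlam hl hR
    exact ⟨R', hR', by rw [pow_succ, mul_nsmul', hRR', hRQ]⟩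

/-- every point of the special fibre lifts (`exists_redTo_some`, `RedTo.zero`) -/
theorem exists_redTo [IsAlgClosed K] (W : WeierstrassCurve A) (Pb : (spe W).toAffine.Point) :
    ∃ P, RedTo W P Pb := by
  cases Pb with
  | zero => exact ⟨0, RedTo.zero⟩
  | some xb yb hb => exact exists_redTo_some W hb

/-- PROOF. `P` a lift of `Pb`; `λ^n P ↦ λ^n Pb = 0` (`nsmul_all`); `R` in the kernel with `λ^n R = λ^n P`;
`T := P - R ↦ Pb - 0` (`sub_all`), `λ^n T = 0`.  If `m T = 0` then `m Pb = 0` (`nsmul_all`, `RedTo.unique`,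
`RedTo.zero`), so `addOrderOf Pb ∣ addOrderOf T ∣ λ^n`. -/
theorem exists_torsion_lift [IsAlgClosed K] (W : WeierstrassCurve A) (hΔ : (gen W).Δ ≠ 0)
    {lam : ℕ} (hlam : lam = 2 ∨ lam = 3) (hl : (lam : ResidueField A) ≠ 0) (n : ℕ)
    {Pb : (spe W).toAffine.Point} (hPb : addOrderOf Pb = lam ^ n) :
    ∃ T : (gen W).toAffine.Point, RedTo W T Pb ∧ addOrderOf T = lam ^ n := by
  obtain ⟨P, hP⟩ := exists_redTo W Pb
  have h0 : lam ^ n • Pb = 0 := by rw [← hPb]; exact addOrderOf_nsmul_eq_zero Pb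
  have h1 : RedTo W (lam ^ n • P) 0 := by
    have := hP.nsmul_all (lam ^ n)
    rwa [h0] at this
  obtain ⟨R, hR, hRP⟩ := exists_pow_nsmul_eq_of_redTo_zero W hΔ hlam hl n h1
  have hT : RedTo W (P - R) Pb := by
    have := hP.sub_all hR
    rwa [sub_zero] at this
  refine ⟨P - R, hT, ?_⟩
  have hT0 : lam ^ n • (P - R) = 0 := by rw [nsmul_sub, hRP, sub_self]
  have hd1 : addOrderOf (P - R) ∣ lam ^ n := addOrderOf_dvd_of_nsmul_eq_zero hT0
  have hd2 : addOrderOf Pb ∣ addOrderOf (P - R) := by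
    apply addOrderOf_dvd_of_nsmul_eq_zero
    have := hT.nsmul_all (addOrderOf (P - R))
    rw [addOrderOf_nsmul_eq_zero] at this
    exact this.unique RedTo.zero
  rw [hPb] at hd2
  exact Nat.dvd_antisymm hd1 hd2

end Fermat.Agent.EL
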