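import Mathlib

/-!
# EL / Node : the nodal cubic `(y - αx)(y - βx) = x³` contains `𝔾_m`
-/

set_option autoImplicit false

namespace Fermat.Agent.EL

open WeierstrassCurve

variable {F : Type*} [Field F]

/-- the nodal cubic `y² - (α+β) x y = x³ - αβ x²`, i.e. `(y - αx)(y - βx) = x³` -/
def nodeC (α β : F) : WeierstrassCurve F := ⟨-(α + β), -(α * β), 0, 0, 0⟩

/-- abscissa of the point of parameter `t` -/
def nodeX (α β t : F) : F := (β - α) ^ 2 * t / (t - 1) ^ 2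
/-- ordinate of the point of parameter `t` : `y - βx = δ³ t/(t-1)³`, `y - αx = δ³ t²/(t-1)³` -/
def nodeY (α β t : F) : F := (β - α) ^ 3 * t / (t - 1) ^ 3 + β * nodeX α β t

lemma node_nonsingular {α β : F} (h : α ≠ β) {t : F} (ht0 : t ≠ 0) (ht1 : t ≠ 1) :
    (nodeC α β).toAffine.Nonsingular (nodeX α β t) (nodeY α β t) := by
  have hu : t - 1 ≠ 0 := sub_ne_zero.mpr ht1
  have hd : β - α ≠ 0 := sub_ne_zero.mpr (Ne.symm h)
  have E1 : nodeX α β t * (t - 1) ^ 2 = (β - α) ^ 2 * t := by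
    unfold nodeX
    field_simp
  have E2 : (nodeY α β t - β * nodeX α β t) * (t - 1) ^ 3 = (β - α) ^ 3 * t := by
    unfold nodeY
    field_simp
    ring
  obtain ⟨x, hx⟩ : ∃ x, x = nodeX α β t := ⟨_, rfl⟩
  obtain ⟨y, hy⟩ : ∃ y, y = nodeY α β t := ⟨_, rfl⟩
  rw [← hx] at E1 E2 ⊢
  rw [← hy] at E2 ⊢
  rw [Affine.nonsingular_iff, Affine.equation_iff]
  simp only [nodeC]
  constructor
  · apply mul_right_cancel₀ (pow_ne_zero 6 hu)
    linear_combination ((y - β * x) * (t - 1) ^ 3 + (β - α) ^ 3 * t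
      + (β - α) * (t - 1) * (x * (t - 1) ^ 2)) * E2
      + ((β - α) * (t - 1) * ((β - α) ^ 3 * t)
        - ((x * (t - 1) ^ 2) ^ 2 + (x * (t - 1) ^ 2) * ((β - α) ^ 2 * t)
          + ((β - α) ^ 2 * t) ^ 2)) * E1
  · by_contra hcon
    push Not at hcon
    obtain ⟨P1, P2⟩ := hcon
    have G1 : (β - α) ^ 4 * t ^ 2 * (t + 2) = 0 := by
      linear_combination (-((t - 1) ^ 4)) * P1 - α * (t - 1) ^ 4 * P2 - (β - α) * (t - 1) * E2
        - ((β - α) ^ 2 * (t - 1) ^ 2 + 3 * (x * (t - 1) ^ 2 + (β - α) ^ 2 * t)) * E1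
    have G2 : (β - α) ^ 4 * t * (2 * t + 1) = 0 := by
      linear_combination (-((t - 1) ^ 4)) * P1 - β * (t - 1) ^ 4 * P2 + (β - α) * (t - 1) * E2
        - 3 * (x * (t - 1) ^ 2 + (β - α) ^ 2 * t) * E1
    have h1 : t + 2 = 0 :=
      (mul_eq_zero.mp G1).resolve_left (mul_ne_zero (pow_ne_zero 4 hd) (pow_ne_zero 2 ht0))
    have h2 : 2 * t + 1 = 0 :=
      (mul_eq_zero.mp G2).resolve_left (mul_ne_zero (pow_ne_zero 4 hd) ht0)
    exact ht1 (by linear_combination -h1 + h2)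

open Classical in
/-- the point of parameter `t` (`t = 1 ↦ 0`) -/
noncomputable def nodePt {α β : F} (h : α ≠ β) (t : Fˣ) : (nodeC α β).toAffine.Point :=
  if ht : (t : F) = 1 then 0 else .some _ _ (node_nonsingular h t.ne_zero ht)

lemma nodePt_eq_zero_iff {α β : F} (h : α ≠ β) (t : Fˣ) : nodePt h t = 0 ↔ t = 1 := by
  unfold nodePt
  split_ifs with ht
  · exact ⟨fun _ => Units.ext ht, fun _ => rfl⟩
  · constructor
    · intro h0
      exact absurd h0 (by simp)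
    · intro h1
      exact absurd (by rw [h1]; rfl) ht

/-- `x(s) = x(t) ↔ s = t ∨ s t = 1` : `s (t-1)² - t (s-1)² = (s - t)(1 - s t)`. -/
lemma nodeX_eq_iff {α β : F} (h : α ≠ β) {s t : F} (hs : s ≠ 1) (ht : t ≠ 1) :
    nodeX α β s = nodeX α β t ↔ s = t ∨ s * t = 1 := by
  have hs' : s - 1 ≠ 0 := sub_ne_zero.mpr hs
  have ht' : t - 1 ≠ 0 := sub_ne_zero.mpr ht
  have hd : β - α ≠ 0 := sub_ne_zero.mpr (Ne.symm h)
  unfold nodeX
  rw [div_eq_div_iff (pow_ne_zero 2 hs') (pow_ne_zero 2 ht')]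
  constructor
  · intro e
    have e1 : (β - α) ^ 2 * ((s - t) * (1 - s * t)) = 0 := by linear_combination e
    rcases mul_eq_zero.mp ((mul_eq_zero.mp e1).resolve_left (pow_ne_zero 2 hd)) with h1 | h1
    · exact Or.inl (sub_eq_zero.mp h1)
    · exact Or.inr (sub_eq_zero.mp h1).symm
  · rintro (rfl | h1)
    · rfl
    · linear_combination (-(β - α) ^ 2 * (s - t)) * h1

variable [DecidableEq F]

lemma nodePt_inv {α β : F} (h : α ≠ β) (t : Fˣ) : nodePt h t⁻¹ = -nodePt h t := by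
  unfold nodePt
  by_cases ht : (t : F) = 1
  · have ht' : ((t⁻¹ : Fˣ) : F) = 1 := by rw [Units.val_inv_eq_inv_val, ht, inv_one]
    rw [dif_pos ht, dif_pos ht', neg_zero]
  · have ht' : ((t⁻¹ : Fˣ) : F) ≠ 1 := by
      rw [Units.val_inv_eq_inv_val]
      intro h1
      exact ht (by rw [← inv_inv (t : F), h1, inv_one])
    rw [dif_neg ht, dif_neg ht', Affine.Point.neg_some]
    have ht0 : (t : F) ≠ 0 := t.ne_zero
    have hu : (t : F) - 1 ≠ 0 := sub_ne_zero.mpr ht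
    have hu' : (t : F)⁻¹ - 1 ≠ 0 := by
      rw [← Units.val_inv_eq_inv_val]
      exact sub_ne_zero.mpr ht'
    have hu'' : 1 - (t : F) ≠ 0 := fun h0 => hu (by linear_combination -h0)
    have ex : nodeX α β ((t⁻¹ : Fˣ) : F) = nodeX α β (t : F) := by
      rw [nodeX_eq_iff h ht' ht]
      right
      rw [Units.val_inv_eq_inv_val, inv_mul_cancel₀ ht0]
    have ey : nodeY α β ((t⁻¹ : Fˣ) : F) =
        (nodeC α β).toAffine.negY (nodeX α β (t : F)) (nodeY α β (t : F)) := by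
      rw [Affine.negY]
      simp only [nodeC]
      unfold nodeY
      rw [ex]
      unfold nodeX
      rw [Units.val_inv_eq_inv_val]
      field_simp
      ring
    simp only [ex, ey]

end Fermat.Agent.EL
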