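import Fermat.Agent.EL.Node

/-!
# EL / NodeMul : `t ↦ P(t)` is an injective homomorphism `𝔾_m → ` nodal cubic
-/

set_option autoImplicit false

namespace Fermat.Agent.EL

open WeierstrassCurve

variable {F : Type*} [Field F] [DecidableEq F]

omit [DecidableEq F] in
/-- the chord slope -/
lemma NodeMul_slope_chord {α β s t : F} (hδ : β - α ≠ 0) (hs : s - 1 ≠ 0) (ht : t - 1 ≠ 0)
    (hst : s * t - 1 ≠ 0) (hd : s - t ≠ 0) :
    (nodeY α β s - nodeY α β t) / (nodeX α β s - nodeX α β t) =
      β + (β - α) * (s * t * (s + t) - 3 * s * t + 1) / ((s - 1) * (t - 1) * (s * t - 1)) := by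
  have hx : nodeX α β s - nodeX α β t =
      (β - α) ^ 2 * ((s - t) * (1 - s * t)) / ((s - 1) ^ 2 * (t - 1) ^ 2) := by
    unfold nodeX
    field_simp
    ring
  have h1 : 1 - s * t ≠ 0 := by
    intro h
    apply hst
    linear_combination -h
  rw [hx]
  unfold nodeY nodeX
  field_simp
  ring

omit [DecidableEq F] in
/-- the abscissa of the sum, from the slope -/
lemma NodeMul_X_chord {α β s t : F} (hs : s - 1 ≠ 0) (ht : t - 1 ≠ 0)
    (hst : s * t - 1 ≠ 0) :
    (β + (β - α) * (s * t * (s + t) - 3 * s * t + 1) / ((s - 1) * (t - 1) * (s * t - 1))) ^ 2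
      + -(α + β) * (β + (β - α) * (s * t * (s + t) - 3 * s * t + 1) /
        ((s - 1) * (t - 1) * (s * t - 1))) - -(α * β) - nodeX α β s - nodeX α β t =
      nodeX α β (s * t) := by
  unfold nodeX
  field_simp
  ring

omit [DecidableEq F] in
/-- the ordinate of the sum, from the slope -/
lemma NodeMul_Y_chord {α β s t : F} (hs : s - 1 ≠ 0) (ht : t - 1 ≠ 0)
    (hst : s * t - 1 ≠ 0) :
    -((β + (β - α) * (s * t * (s + t) - 3 * s * t + 1) / ((s - 1) * (t - 1) * (s * t - 1))) *
        (nodeX α β (s * t) - nodeX α β s) + nodeY α β s) - -(α + β) * nodeX α β (s * t) - 0 =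
      nodeY α β (s * t) := by
  unfold nodeY nodeX
  field_simp
  ring

omit [DecidableEq F] in
/-- the tangent slope -/
lemma NodeMul_slope_tangent {α β s : F} (hδ : β - α ≠ 0) (hs0 : s ≠ 0) (hs : s - 1 ≠ 0)
    (hs1 : s + 1 ≠ 0) :
    (3 * nodeX α β s ^ 2 + 2 * -(α * β) * nodeX α β s + 0 - -(α + β) * nodeY α β s) /
        (nodeY α β s - (-nodeY α β s - -(α + β) * nodeX α β s - 0)) =
      β + (β - α) * (s * s * (s + s) - 3 * s * s + 1) / ((s - 1) * (s - 1) * (s * s - 1)) := by
  have hy : nodeY α β s - (-nodeY α β s - -(α + β) * nodeX α β s - 0) =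
      (β - α) ^ 3 * (s * (s + 1)) / (s - 1) ^ 3 := by
    unfold nodeY nodeX
    field_simp
    ring
  have h2 : s * s - 1 = (s - 1) * (s + 1) := by ring
  rw [hy, h2]
  unfold nodeY nodeX
  field_simp
  ring

/-- **`t ↦ P(t)` is a homomorphism.**  Cases: `s = 1`, `t = 1`, `s t = 1` (`nodePt_inv`), `s = t`
(tangent: `Affine.Point.add_self_of_Y_ne` / `Affine.slope_of_Y_ne`), generic (`Affine.Point.add_of_X_ne`,
`Affine.slope_of_X_ne`).  In each case both coordinates are explicit rational functions of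
`s, t, α, β`: `field_simp; ring` (denominators `s - 1`, `t - 1`, `s t - 1`, `s - t`, `β - α`, and `s + 1` in the
tangent case: `s = t`, `s² ≠ 1`). -/
theorem nodePt_mul {α β : F} (h : α ≠ β) (s t : Fˣ) :
    nodePt h (s * t) = nodePt h s + nodePt h t := by
  by_cases hs : s = 1
  · subst hs
    rw [one_mul, (nodePt_eq_zero_iff h 1).2 rfl, zero_add]
  by_cases ht : t = 1
  · subst ht
    rw [mul_one, (nodePt_eq_zero_iff h 1).2 rfl, add_zero]
  by_cases hst : s * t = 1
  · have : t = s⁻¹ := (eq_inv_of_mul_eq_one_right hst)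
    subst this
    rw [hst, (nodePt_eq_zero_iff h 1).2 rfl, nodePt_inv, add_neg_cancel]
  have hs' : (s : F) ≠ 1 := fun e => hs (Units.ext e)
  have ht' : (t : F) ≠ 1 := fun e => ht (Units.ext e)
  have hst' : ((s * t : Fˣ) : F) ≠ 1 := fun e => hst (Units.ext e)
  have hst'' : (s : F) * (t : F) ≠ 1 := by rwa [Units.val_mul] at hst'
  have hδ : β - α ≠ 0 := sub_ne_zero.2 h.symm
  have hs1 : (s : F) - 1 ≠ 0 := sub_ne_zero.2 hs'
  have ht1 : (t : F) - 1 ≠ 0 := sub_ne_zero.2 ht'
  have hst1 : (s : F) * (t : F) - 1 ≠ 0 := sub_ne_zero.2 hst''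
  unfold nodePt
  rw [dif_neg hs', dif_neg ht', dif_neg hst']
  by_cases hd : s = t
  · subst hd
    have hp1 : (s : F) + 1 ≠ 0 := by
      intro e
      apply hst1
      linear_combination ((s : F) - 1) * e
    have hy : nodeY α β (s : F) ≠ (nodeC α β).toAffine.negY (nodeX α β s) (nodeY α β s) := by
      intro e
      have hy : nodeY α β (s : F) - (-nodeY α β s - -(α + β) * nodeX α β s - 0) =
          (β - α) ^ 3 * (s * (s + 1)) / ((s : F) - 1) ^ 3 := by
        unfold nodeY nodeX
        field_simp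
        ring
      have e' : nodeY α β (s : F) - (-nodeY α β s - -(α + β) * nodeX α β s - 0) = 0 :=
        sub_eq_zero.2 e
      rw [hy] at e'
      exact (div_ne_zero (mul_ne_zero (pow_ne_zero 3 hδ) (mul_ne_zero s.ne_zero hp1))
        (pow_ne_zero 3 hs1)) e'
    rw [Affine.Point.add_self_of_Y_ne hy]
    have hsl : (nodeC α β).toAffine.slope (nodeX α β s) (nodeX α β s) (nodeY α β s) (nodeY α β s) =
        β + (β - α) * ((s : F) * s * (s + s) - 3 * s * s + 1) /
          (((s : F) - 1) * (s - 1) * (s * s - 1)) := by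
      rw [Affine.slope_of_Y_ne rfl hy]
      exact NodeMul_slope_tangent hδ s.ne_zero hs1 hp1
    have hX : (nodeC α β).toAffine.addX (nodeX α β s) (nodeX α β s)
        ((nodeC α β).toAffine.slope (nodeX α β s) (nodeX α β s) (nodeY α β s) (nodeY α β s)) =
        nodeX α β ((s * s : Fˣ) : F) := by
      rw [hsl, Units.val_mul]
      exact NodeMul_X_chord hs1 hs1 hst1
    have hY : (nodeC α β).toAffine.addY (nodeX α β s) (nodeX α β s) (nodeY α β s)
        ((nodeC α β).toAffine.slope (nodeX α β s) (nodeX α β s) (nodeY α β s) (nodeY α β s)) =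
        nodeY α β ((s * s : Fˣ) : F) := by
      unfold Affine.addY Affine.negAddY
      rw [hX, hsl, Units.val_mul]
      exact NodeMul_Y_chord hs1 hs1 hst1
    simp only [Affine.Point.some.injEq]
    exact ⟨hX.symm, hY.symm⟩
  · have hd' : (s : F) ≠ t := fun e => hd (Units.ext e)
    have hd1 : (s : F) - t ≠ 0 := sub_ne_zero.2 hd'
    have hx : nodeX α β (s : F) ≠ nodeX α β t := by
      intro e
      rcases (nodeX_eq_iff h hs' ht').1 e with e | e
      · exact hd' e
      · exact hst'' e
    rw [Affine.Point.add_of_X_ne hx]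
    have hsl : (nodeC α β).toAffine.slope (nodeX α β s) (nodeX α β t) (nodeY α β s) (nodeY α β t) =
        β + (β - α) * ((s : F) * t * (s + t) - 3 * s * t + 1) /
          (((s : F) - 1) * (t - 1) * (s * t - 1)) := by
      rw [Affine.slope_of_X_ne hx]
      exact NodeMul_slope_chord hδ hs1 ht1 hst1 hd1
    have hX : (nodeC α β).toAffine.addX (nodeX α β s) (nodeX α β t)
        ((nodeC α β).toAffine.slope (nodeX α β s) (nodeX α β t) (nodeY α β s) (nodeY α β t)) =
        nodeX α β ((s * t : Fˣ) : F) := by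
      rw [hsl, Units.val_mul]
      exact NodeMul_X_chord hs1 ht1 hst1
    have hY : (nodeC α β).toAffine.addY (nodeX α β s) (nodeX α β t) (nodeY α β s)
        ((nodeC α β).toAffine.slope (nodeX α β s) (nodeX α β t) (nodeY α β s) (nodeY α β t)) =
        nodeY α β ((s * t : Fˣ) : F) := by
      unfold Affine.addY Affine.negAddY
      rw [hX, hsl, Units.val_mul]
      exact NodeMul_Y_chord hs1 ht1 hst1
    simp only [Affine.Point.some.injEq]
    exact ⟨hX.symm, hY.symm⟩

/-- `t ↦ P(t)` as an additive homomorphism -/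
noncomputable def nodePtHom {α β : F} (h : α ≠ β) :
    Additive Fˣ →+ (nodeC α β).toAffine.Point where
  toFun t := nodePt h t.toMul
  map_zero' := (nodePt_eq_zero_iff h 1).2 rfl
  map_add' s t := nodePt_mul h s.toMul t.toMul

lemma nodePtHom_injective {α β : F} (h : α ≠ β) : Function.Injective (nodePtHom h) := by
  rw [injective_iff_map_eq_zero]
  intro t ht
  exact (nodePt_eq_zero_iff h t.toMul).1 ht

theorem addOrderOf_nodePt {α β : F} (h : α ≠ β) (t : Fˣ) :
    addOrderOf (nodePt h t) = orderOf t := by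
  have := addOrderOf_injective (nodePtHom h) (nodePtHom_injective h) (Additive.ofMul t)
  rw [addOrderOf_ofMul_eq_orderOf] at this
  exact this

end Fermat.Agent.EL
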