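import Mathlib

/-!
# EL / NodeVC : moving the singular point of a curve with `Δ = 0`, `c₄ ≠ 0` to the origin
-/

set_option autoImplicit false

namespace Fermat.Agent.EL

open WeierstrassCurve

variable {F : Type*} [Field F]

/-- the singular point (Connell): `x₀ = (18 b₆ - b₂ b₄)/c₄`, `y₀ = (b₂ b₅ + 3 b₇)/c₄` with
`b₅ = a₁a₄ - 2a₂a₃`, `b₇ = a₁(a₃² - 12a₆) + 8a₃a₄`.  With `X₀ = 18b₆ - b₂b₄`, `Y₀ = b₂b₅ + 3b₇` one has the polynomial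
identities (checked by computer)
`2Y₀ + a₁X₀ + a₃c₄ = 0`,
`a₁Y₀c₄ - 3X₀² - 2a₂X₀c₄ - a₄c₄² = 36 Δ`,
`Y₀²c₄ + a₁X₀Y₀c₄ + a₃Y₀c₄² - X₀³ - a₂X₀²c₄ - a₄X₀c₄² - a₆c₄³ = (b₂³ - 36 b₂b₄ + 216 b₆) Δ`.
Translate by `C = ⟨1, x₀, 0, y₀⟩` (`variableChange_a₃` etc.). -/
theorem exists_vc_node (W : WeierstrassCurve F) (hΔ : W.Δ = 0) (hc : W.c₄ ≠ 0) :
    ∃ C : VariableChange F, (C • W).a₃ = 0 ∧ (C • W).a₄ = 0 ∧ (C • W).a₆ = 0 ∧ (C • W).b₂ ≠ 0 := by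
  obtain ⟨X₀, hX⟩ : ∃ X₀ : F, X₀ = 18 * W.b₆ - W.b₂ * W.b₄ := ⟨_, rfl⟩
  obtain ⟨Y₀, hY⟩ : ∃ Y₀ : F, Y₀ = W.b₂ * (W.a₁ * W.a₄ - 2 * W.a₂ * W.a₃)
      + 3 * (W.a₁ * (W.a₃ ^ 2 - 12 * W.a₆) + 8 * W.a₃ * W.a₄) := ⟨_, rfl⟩
  have I1 : 2 * Y₀ + W.a₁ * X₀ + W.a₃ * W.c₄ = 0 := by
    simp only [hX, hY, c₄, b₂, b₄, b₆]
    ring
  have I2 : W.a₁ * Y₀ * W.c₄ - 3 * X₀ ^ 2 - 2 * W.a₂ * X₀ * W.c₄ - W.a₄ * W.c₄ ^ 2 = 36 * W.Δ := by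
    simp only [hX, hY, Δ, c₄, b₂, b₄, b₆, b₈]
    ring
  have I3 : Y₀ ^ 2 * W.c₄ + W.a₁ * X₀ * Y₀ * W.c₄ + W.a₃ * Y₀ * W.c₄ ^ 2 - X₀ ^ 3
      - W.a₂ * X₀ ^ 2 * W.c₄ - W.a₄ * X₀ * W.c₄ ^ 2 - W.a₆ * W.c₄ ^ 3
      = (W.b₂ ^ 3 - 36 * W.b₂ * W.b₄ + 216 * W.b₆) * W.Δ := by
    simp only [hX, hY, Δ, c₄, b₂, b₄, b₆, b₈]
    ring
  rw [hΔ, mul_zero] at I2 I3
  have e3 : ((⟨1, X₀ / W.c₄, 0, Y₀ / W.c₄⟩ : VariableChange F) • W).a₃ = 0 := by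
    rw [variableChange_a₃]
    simp only [inv_one, Units.val_one, one_pow, one_mul]
    field_simp
    linear_combination I1
  have e4 : ((⟨1, X₀ / W.c₄, 0, Y₀ / W.c₄⟩ : VariableChange F) • W).a₄ = 0 := by
    rw [variableChange_a₄]
    simp only [inv_one, Units.val_one, one_pow, one_mul]
    field_simp
    linear_combination -I2
  have e6 : ((⟨1, X₀ / W.c₄, 0, Y₀ / W.c₄⟩ : VariableChange F) • W).a₆ = 0 := by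
    rw [variableChange_a₆]
    simp only [inv_one, Units.val_one, one_pow, one_mul]
    field_simp
    linear_combination -I3
  refine ⟨⟨1, X₀ / W.c₄, 0, Y₀ / W.c₄⟩, e3, e4, e6, ?_⟩
  intro hb
  apply hc
  have h1 := variableChange_c₄ W (⟨1, X₀ / W.c₄, 0, Y₀ / W.c₄⟩ : VariableChange F)
  simp only [inv_one, Units.val_one, one_pow, one_mul] at h1
  rw [← h1, c₄, hb, b₄, e3, e4]
  ring

end Fermat.Agent.EL
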