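import Fermat.Agent.EL.NodeMul
import Fermat.Agent.EL.NodeVC
import Fermat.Agent.EL.VC

/-!
# EL / NodeOrd : a Weierstrass curve with `Δ = 0`, `c₄ ≠ 0` over an algebraically closed field has
nonsingular points of every exact order prime to the characteristic
-/

set_option autoImplicit false

namespace Fermat.Agent.EL

open WeierstrassCurve

variable {F : Type*} [Field F]

/-- PROOF. `α, β` := the roots of `T² + a₁T - a₂` (`IsAlgClosed`); `(α - β)² = a₁² + 4a₂ = b₂ ≠ 0`. -/
theorem exists_eq_nodeC [IsAlgClosed F] (W : WeierstrassCurve F) (h3 : W.a₃ = 0) (h4 : W.a₄ = 0)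
    (h6 : W.a₆ = 0) (hb : W.b₂ ≠ 0) : ∃ α β : F, α ≠ β ∧ W = nodeC α β := by
  obtain ⟨α, hα⟩ : ∃ α : F, α * α + W.a₁ * α - W.a₂ = 0 := by
    obtain ⟨α, hα⟩ := IsAlgClosed.exists_root
      (Polynomial.X ^ 2 + Polynomial.C W.a₁ * Polynomial.X - Polynomial.C W.a₂ : Polynomial F)
      (by
        have hd : (Polynomial.X ^ 2 + Polynomial.C W.a₁ * Polynomial.X - Polynomial.C W.a₂ :
            Polynomial F).degree = 2 := by
          compute_degree!
        rw [hd]
        norm_num)
    refine ⟨α, ?_⟩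
    have := hα
    simp only [Polynomial.IsRoot.def, Polynomial.eval_sub, Polynomial.eval_add,
      Polynomial.eval_pow, Polynomial.eval_X, Polynomial.eval_mul, Polynomial.eval_C] at this
    linear_combination this
  refine ⟨α, -W.a₁ - α, ?_, ?_⟩
  · intro h
    apply hb
    have h1 : W.a₁ = -2 * α := by linear_combination h
    unfold WeierstrassCurve.b₂
    linear_combination (-4 : F) * hα + (W.a₁ + 2 * α) * h1
  · unfold nodeC
    ext
    · simp
    · simp only
      linear_combination -hα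
    · exact h3
    · exact h4
    · exact h6

/-- PROOF. `ζ` a primitive `n`-th root of unity of `F` (`n ≠ 0` in `F`, `F` algebraically closed),
`P := vcMap W C (castPt _ (nodePt h ζ))`; `vcMap`, `castPtEquiv` are additive equivalences
(`addOrderOf_injective` / `AddEquiv.addOrderOf_eq`), `addOrderOf_nodePt`. -/
theorem exists_addOrderOf_eq [IsAlgClosed F] [DecidableEq F] (W : WeierstrassCurve F)
    (hΔ : W.Δ = 0) (hc : W.c₄ ≠ 0) {n : ℕ} (hn : (n : F) ≠ 0) :
    ∃ P : W.toAffine.Point, addOrderOf P = n := by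
  obtain ⟨C, h3, h4, h6, hb⟩ := exists_vc_node W hΔ hc
  obtain ⟨α, β, hαβ, hW⟩ := exists_eq_nodeC (C • W) h3 h4 h6 hb
  have : NeZero (n : F) := ⟨hn⟩
  obtain ⟨ζ, hζ⟩ := HasEnoughRootsOfUnity.exists_primitiveRoot F n
  have hn0 : n ≠ 0 := by
    rintro rfl
    simp at hn
  have hζ0 : ζ ≠ 0 := hζ.ne_zero hn0
  let z : Fˣ := Units.mk0 ζ hζ0
  have hz : orderOf z = n := by
    have h1 : orderOf (z : F) = n := hζ.eq_orderOf.symm
    rw [← h1, orderOf_units]
  refine ⟨vcMap W C (castPtEquiv hW.symm (nodePt hαβ z)), ?_⟩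
  rw [AddEquiv.addOrderOf_eq, AddEquiv.addOrderOf_eq, addOrderOf_nodePt, hz]

end Fermat.Agent.EL
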