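import Fermat.Agent.EL.Tors

/-!
# EL / Order : points of exact prime power order (characteristic 0)
-/

set_option autoImplicit false

namespace Fermat.Agent.EL

open WeierstrassCurve

/-- PROOF. `n = 0`: `T = 0`.  `n = m + 1`: `#E[p^(m+1)] = p^(2m+2) > p^(2m) = #E[p^m]` (`card_torsion`; both sets are
finite since their `Nat.card` is nonzero), so there is `T` with `p^(m+1) T = 0`, `p^m T ≠ 0`:
`addOrderOf_eq_prime_pow`. -/
theorem exists_addOrderOf_pow {k : Type*} [Field k] [IsAlgClosed k] [CharZero k] [DecidableEq k]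
    (E : WeierstrassCurve k) (hΔ : E.Δ ≠ 0) {p : ℕ} (hp : p.Prime) (n : ℕ) :
    ∃ T : E.toAffine.Point, addOrderOf T = p ^ n := by
  classical
  cases n with
  | zero => exact ⟨0, by simp⟩
  | succ m =>
    have : Fact p.Prime := ⟨hp⟩
    have hc1 : Nat.card {T : E.toAffine.Point // p ^ (m + 1) • T = 0} = (p ^ (m + 1)) ^ 2 :=
      card_torsion E hΔ (pow_pos hp.pos _)
    have hc0 : Nat.card {T : E.toAffine.Point // p ^ m • T = 0} = (p ^ m) ^ 2 :=
      card_torsion E hΔ (pow_pos hp.pos _)
    by_contra hcon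
    have hall : ∀ T : E.toAffine.Point, p ^ (m + 1) • T = 0 → p ^ m • T = 0 := by
      intro T hT
      by_contra hne
      exact hcon ⟨T, addOrderOf_eq_prime_pow hne hT⟩
    have : Finite {T : E.toAffine.Point // p ^ m • T = 0} := by
      apply Nat.finite_of_card_ne_zero
      rw [hc0]
      exact pow_ne_zero _ (pow_ne_zero _ hp.ne_zero)
    have hle : Nat.card {T : E.toAffine.Point // p ^ (m + 1) • T = 0}
        ≤ Nat.card {T : E.toAffine.Point // p ^ m • T = 0} :=
      Nat.card_le_card_of_injective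
        (fun T => (⟨T.1, hall T.1 T.2⟩ : {T : E.toAffine.Point // p ^ m • T = 0}))
        (fun a b hab => Subtype.ext (by simpa using hab))
    rw [hc1, hc0] at hle
    have hlt : p ^ m < p ^ (m + 1) := Nat.pow_lt_pow_right hp.one_lt (Nat.lt_succ_self m)
    have : (p ^ m) ^ 2 < (p ^ (m + 1)) ^ 2 := Nat.pow_lt_pow_left hlt (by norm_num)
    omega

end Fermat.Agent.EL
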