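import Mathlib

/-!
# EL / Red : reduction of points of a Weierstrass curve modulo a valuation ring

`A` a valuation subring of a field `K`, `W` a Weierstrass curve over `A` (any discriminant).
`RedTo W P Pb` : the point `P` of `W(K)` reduces to the **nonsingular** point `Pb` of the reduced
curve.  Main result of this file: `RedTo.add_of_ne` (additivity when the reductions are distinct),
`RedTo.neg`, `RedTo.unique`, and the affine descriptions.
-/

set_option autoImplicit false

namespace Fermat.Agent.EL

open WeierstrassCurve IsLocalRing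
open scoped WeierstrassCurve.Projective

variable {K : Type*} [Field K] {A : ValuationSubring K}
variable (W : WeierstrassCurve A)

/-- the generic fibre -/
abbrev gen : WeierstrassCurve K := W.map A.subtype
/-- the special fibre -/
abbrev spe : WeierstrassCurve (ResidueField A) := W.map (residue A)

/-- `P` reduces to the nonsingular point `Pb`. -/
def RedTo (P : (gen W).toAffine.Point) (Pb : (spe W).toAffine.Point) : Prop :=
  ∃ v : Fin 3 → A, W.toProjective.Equation v ∧
    (spe W).toProjective.Nonsingular (residue A ∘ v) ∧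
    Projective.Point.toAffine (gen W).toProjective (A.subtype ∘ v) = P ∧
    Projective.Point.toAffine (spe W).toProjective (residue A ∘ v) = Pb

variable {W}

lemma nonsingular_gen {v : Fin 3 → A} (h : W.toProjective.Equation v)
    (hs : (spe W).toProjective.Nonsingular (residue A ∘ v)) :
    (gen W).toProjective.Nonsingular (A.subtype ∘ v) := by
  rw [Projective.map_nonsingular (W' := W.toProjective) (f := A.subtype) A.subtype_injective]
  refine ⟨h, ?_⟩
  have h2 := hs.2
  simp only [Projective.map_polynomialX, Projective.map_polynomialY, Projective.map_polynomialZ,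
    MvPolynomial.eval_map, ← MvPolynomial.eval₂_comp] at h2
  rcases h2 with h2 | h2 | h2
  · exact Or.inl fun h0 => h2 (by rw [h0, map_zero])
  · exact Or.inr (Or.inl fun h0 => h2 (by rw [h0, map_zero]))
  · exact Or.inr (Or.inr fun h0 => h2 (by rw [h0, map_zero]))

/-- a vector with nonzero reduction has a unit coordinate -/
lemma exists_isUnit_of_residue_ne {v : Fin 3 → A} (h : residue A ∘ v ≠ 0) : ∃ i, IsUnit (v i) := by
  by_contra hcon
  push Not at hcon
  apply h
  funext i
  simpa using (residue_eq_zero_iff _).2 ((mem_maximalIdeal _).2 (hcon i))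

lemma residue_comp_ne_zero {v : Fin 3 → A}
    (hs : (spe W).toProjective.Nonsingular (residue A ∘ v)) : residue A ∘ v ≠ 0 := by
  intro h0
  have h2 := ((Projective.nonsingular_iff _).1 hs).2
  rw [h0] at h2
  simp at h2

/-- proportional primitive vectors are proportional by a unit of `A` -/
lemma equiv_residue_of_equiv {v w : Fin 3 → A} (hv : residue A ∘ v ≠ 0) (hw : residue A ∘ w ≠ 0)
    (h : (A.subtype ∘ v) ≈ (A.subtype ∘ w)) : (residue A ∘ v) ≈ (residue A ∘ w) := by
  obtain ⟨c, hc⟩ := h
  -- `c • w = v`
  have hc' : ∀ i, (c : K) * (w i : K) = (v i : K) := fun i => by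
    have := congrFun hc i
    simpa [Units.smul_def] using this
  obtain ⟨i, hi⟩ := exists_isUnit_of_residue_ne hw
  obtain ⟨j, hj⟩ := exists_isUnit_of_residue_ne hv
  obtain ⟨wi, hwi⟩ := hi
  obtain ⟨vj, hvj⟩ := hj
  -- `c ∈ A`
  have hcA : (c : K) ∈ A := by
    have : (c : K) = (v i : K) * ((wi⁻¹ : Aˣ) : A) := by
      rw [← hc' i, ← hwi, mul_assoc, ← A.coe_mul, Units.mul_inv, A.coe_one, mul_one]
    rw [this]
    exact mul_mem (v i).2 (((wi⁻¹ : Aˣ) : A)).2
  have hcA' : ((c⁻¹ : Kˣ) : K) ∈ A := by
    have h1 : (w j : K) = ((c⁻¹ : Kˣ) : K) * (v j : K) := by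
      rw [← hc' j, ← mul_assoc, Units.inv_mul, one_mul]
    have : ((c⁻¹ : Kˣ) : K) = (w j : K) * ((vj⁻¹ : Aˣ) : A) := by
      rw [h1, ← hvj, mul_assoc, ← A.coe_mul, Units.mul_inv, A.coe_one, mul_one]
    rw [this]
    exact mul_mem (w j).2 (((vj⁻¹ : Aˣ) : A)).2
  let cA : Aˣ := ⟨⟨c, hcA⟩, ⟨_, hcA'⟩, by ext; simp, by ext; simp⟩
  refine ⟨Units.map (residue A).toMonoidHom cA, ?_⟩
  funext i
  have : (⟨c, hcA⟩ : A) * w i = v i := by ext; exact hc' i
  simp only [Units.smul_def, Pi.smul_apply, Function.comp_apply, smul_eq_mul]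
  change residue A ⟨c, hcA⟩ * _ = _
  rw [← map_mul, this]

lemma toAffine_injective {F : Type*} [Field F] {V : WeierstrassCurve.Projective F}
    {P Q : Fin 3 → F} (hP : V.Nonsingular P) (hQ : V.Nonsingular Q)
    (h : Projective.Point.toAffine V P = Projective.Point.toAffine V Q) : P ≈ Q := by
  classical
  have h1 : (Projective.Point.toAffineAddEquiv V)
      ⟨(Projective.nonsingularLift_iff P).2 hP⟩ =
      (Projective.Point.toAffineAddEquiv V) ⟨(Projective.nonsingularLift_iff Q).2 hQ⟩ := h
  have h2 := (Projective.Point.toAffineAddEquiv V).injective h1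
  have h3 := congrArg Projective.Point.point h2
  exact Quotient.exact h3

namespace RedTo

variable {P Q : (gen W).toAffine.Point} {Pb Qb Pb' : (spe W).toAffine.Point}

theorem unique (h : RedTo W P Pb) (h' : RedTo W P Pb') : Pb = Pb' := by
  obtain ⟨v, hv, hvs, rfl, rfl⟩ := h
  obtain ⟨w, hw, hws, hP, rfl⟩ := h'
  apply Projective.Point.toAffine_of_equiv
  apply equiv_residue_of_equiv (residue_comp_ne_zero hvs) (residue_comp_ne_zero hws)
  exact toAffine_injective (nonsingular_gen hv hvs) (nonsingular_gen hw hws) hP.symm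

theorem zero : RedTo W 0 0 := by
  refine ⟨![0, 1, 0], Projective.equation_zero, ?_, ?_, ?_⟩
  · rw [Projective.comp_fin3, map_zero, map_one]; exact Projective.nonsingular_zero
  · rw [Projective.comp_fin3, map_zero, map_one]; exact Projective.Point.toAffine_zero
  · rw [Projective.comp_fin3, map_zero, map_one]; exact Projective.Point.toAffine_zero

theorem neg (h : RedTo W P Pb) : RedTo W (-P) (-Pb) := by
  obtain ⟨v, hv, hvs, rfl, rfl⟩ := h
  have e1 : A.subtype ∘ W.toProjective.neg v = (gen W).toProjective.neg (A.subtype ∘ v) :=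
    (Projective.map_neg (W' := W.toProjective) A.subtype v).symm
  have e2 : residue A ∘ W.toProjective.neg v = (spe W).toProjective.neg (residue A ∘ v) :=
    (Projective.map_neg (W' := W.toProjective) (residue A) v).symm
  refine ⟨W.toProjective.neg v, ?_, ?_, ?_, ?_⟩
  · rw [← Projective.map_equation (W' := W.toProjective) (f := A.subtype) A.subtype_injective, e1]
    exact (Projective.nonsingular_neg (nonsingular_gen hv hvs)).1
  · rw [e2]; exact Projective.nonsingular_neg hvs
  · rw [e1]; exact Projective.Point.toAffine_neg (nonsingular_gen hv hvs)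
  · rw [e2]; exact Projective.Point.toAffine_neg hvs

variable [DecidableEq K] [DecidableEq (ResidueField A)]

/-- additivity of the reduction when the reductions are distinct -/
theorem add_of_ne (h : RedTo W P Pb) (h' : RedTo W Q Qb) (hne : Pb ≠ Qb) :
    RedTo W (P + Q) (Pb + Qb) := by
  obtain ⟨v, hv, hvs, rfl, rfl⟩ := h
  obtain ⟨w, hw, hws, rfl, rfl⟩ := h'
  have hne1 : ¬ (residue A ∘ v) ≈ (residue A ∘ w) := fun h =>
    hne (Projective.Point.toAffine_of_equiv h)
  have hne2 : ¬ (A.subtype ∘ v) ≈ (A.subtype ∘ w) := fun h =>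
    hne1 (equiv_residue_of_equiv (residue_comp_ne_zero hvs) (residue_comp_ne_zero hws) h)
  have e1 : A.subtype ∘ W.toProjective.addXYZ v w
      = (gen W).toProjective.add (A.subtype ∘ v) (A.subtype ∘ w) := by
    rw [Projective.add_of_not_equiv hne2]
    exact (Projective.map_addXYZ (W' := W.toProjective) A.subtype v w).symm
  have e2 : residue A ∘ W.toProjective.addXYZ v w
      = (spe W).toProjective.add (residue A ∘ v) (residue A ∘ w) := by
    rw [Projective.add_of_not_equiv hne1]
    exact (Projective.map_addXYZ (W' := W.toProjective) (residue A) v w).symm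
  have hvK := nonsingular_gen hv hvs
  have hwK := nonsingular_gen hw hws
  refine ⟨W.toProjective.addXYZ v w, ?_, ?_, ?_, ?_⟩
  · rw [← Projective.map_equation (W' := W.toProjective) (f := A.subtype) A.subtype_injective, e1]
    exact (Projective.nonsingular_add hvK hwK).1
  · rw [e2]; exact Projective.nonsingular_add hvs hws
  · rw [e1]; exact Projective.Point.toAffine_add hvK hwK
  · rw [e2]; exact Projective.Point.toAffine_add hvs hws

end RedTo

end Fermat.Agent.EL
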