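import Fermat.Agent.EL.Red

/-!
# EL / RedAdd : the reduction relation is additive; affine descriptions
-/

set_option autoImplicit false

namespace Fermat.Agent.EL

open WeierstrassCurve IsLocalRing
open scoped WeierstrassCurve.Projective

variable {K : Type*} [Field K] {A : ValuationSubring K}
variable {W : WeierstrassCurve A}

/-- There are enough auxiliary points with nonsingular reduction. -/
def HasAux (W : WeierstrassCurve A) : Prop :=
  ∀ T : (spe W).toAffine.Point, ∃ (S : (gen W).toAffine.Point) (Sb : (spe W).toAffine.Point),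
    RedTo W S Sb ∧ Sb ≠ T ∧ Sb ≠ -T ∧ Sb ≠ -Sb

namespace RedTo

variable {P Q : (gen W).toAffine.Point} {Pb Qb : (spe W).toAffine.Point}

/-- integral affine points -/
theorem some {a b : A} (h : (gen W).toAffine.Nonsingular (a : K) (b : K))
    (hb : (spe W).toAffine.Nonsingular (residue A a) (residue A b)) :
    RedTo W (.some _ _ h) (.some _ _ hb) := by
  have hK : (gen W).toProjective.Nonsingular ![(a : K), (b : K), 1] :=
    (Projective.nonsingular_some ..).2 h
  have hk : (spe W).toProjective.Nonsingular ![residue A a, residue A b, 1] :=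
    (Projective.nonsingular_some ..).2 hb
  have e1 : A.subtype ∘ ![a, b, 1] = ![(a : K), (b : K), 1] := by
    rw [Projective.comp_fin3, map_one]; rfl
  have e2 : residue A ∘ ![a, b, 1] = ![residue A a, residue A b, 1] := by
    rw [Projective.comp_fin3, map_one]
  refine ⟨![a, b, 1], ?_, ?_, ?_, ?_⟩
  · rw [← Projective.map_equation (W' := W.toProjective) (f := A.subtype) A.subtype_injective, e1]
    exact hK.1
  · rw [e2]; exact hk
  · rw [e1]; exact Projective.Point.toAffine_some hK
  · rw [e2]; exact Projective.Point.toAffine_some hk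

variable [DecidableEq K] [DecidableEq (ResidueField A)]

/-- **The reduction is additive** (on points with nonsingular reduction). -/
theorem add (haux : HasAux W) (h : RedTo W P Pb) (h' : RedTo W Q Qb) :
    RedTo W (P + Q) (Pb + Qb) := by
  by_cases hne : Pb = Qb
  · subst hne
    obtain ⟨S, Sb, hS, h1, h2, h3⟩ := haux Pb
    have k1 := h.add_of_ne hS (Ne.symm h1)
    have k2 := h'.add_of_ne hS.neg (fun e => h2 (by rw [e, neg_neg]))
    have k3 := k1.add_of_ne k2 (fun e => h3 (add_left_cancel e))
    have e1 : P + S + (Q + -S) = P + Q := by abel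
    have e2 : Pb + Sb + (Pb + -Sb) = Pb + Pb := by abel
    rwa [e1, e2] at k3
  · exact h.add_of_ne h' hne

theorem nsmul (haux : HasAux W) (h : RedTo W P Pb) (n : ℕ) : RedTo W (n • P) (n • Pb) := by
  induction n with
  | zero => simpa using RedTo.zero
  | succ n ih => rw [succ_nsmul, succ_nsmul]; exact ih.add haux h

theorem sub (haux : HasAux W) (h : RedTo W P Pb) (h' : RedTo W Q Qb) :
    RedTo W (P - Q) (Pb - Qb) := by
  rw [sub_eq_add_neg, sub_eq_add_neg]; exact h.add haux h'.neg

theorem zsmul (haux : HasAux W) (h : RedTo W P Pb) (n : ℤ) : RedTo W (n • P) (n • Pb) := by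
  obtain ⟨m, rfl | rfl⟩ := n.eq_nat_or_neg
  · simpa using h.nsmul haux m
  · simpa using (h.nsmul haux m).neg

end RedTo

end Fermat.Agent.EL
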