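import Fermat.Agent.EL.Kernel

/-!
# EL / RedB : two points with the same affine 2-torsion reduction have a sum reducing to `0`

This is the only case of the additivity of the reduction which cannot be reached from
`RedTo.add_of_ne` when the group of the special fibre has exponent `2` (cusp in characteristic 2).
-/

set_option autoImplicit false

namespace Fermat.Agent.EL

open WeierstrassCurve IsLocalRing

variable {K : Type*} [Field K] {A : ValuationSubring K}
variable {W : WeierstrassCurve A}
variable [DecidableEq K] [DecidableEq (ResidueField A)]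

omit [DecidableEq K] [DecidableEq (ResidueField A)] in
/-- `L ∉ A`, `α s ∈ A` ⟹ `L² + α L - s ∉ A`. -/
lemma RedB_not_mem {L α s : K} (hL : L ∉ A) (hα : α ∈ A) (hs : s ∈ A) :
    L ^ 2 + α * L - s ∉ A := by
  intro h
  apply hL
  have hinv : L⁻¹ ∈ A := (A.mem_or_inv_mem L).resolve_left hL
  have hL0 : L ≠ 0 := by
    rintro rfl
    exact hL A.zero_mem
  have : L = (L ^ 2 + α * L - s + s) * L⁻¹ - α := by
    field_simp
    ring
  rw [this]
  exact A.sub_mem (A.mul_mem _ _ (A.add_mem _ _ h hs) hinv) hα

omit [DecidableEq K] [DecidableEq (ResidueField A)] in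
/-- `L e = n`, `e ∈ 𝔪`, `n` a unit ⟹ `L ∉ A`. -/
lemma RedB_slope_not_mem {L : K} {e n : A} (he : residue A e = 0) (hn : residue A n ≠ 0)
    (h : L * (e : K) = (n : K)) : L ∉ A := by
  intro hL
  apply hn
  have : n = (⟨L, hL⟩ : A) * e := Subtype.ext h.symm
  rw [this, map_mul, he, mul_zero]

/-- PROOF. By `RedTo.exists_of_some`, `P = (a, b)`, `Q = (c, d)` with `a b c d ∈ A`, residues
`(xb, yb)` twice.  `hT` means `2 yb + a₁ xb + a₃ = 0` (`Affine.Point.neg_some`, `Affine.negY`), so by
nonsingularity `u := 3 xb² + 2 a₂ xb + a₄ - a₁ yb ≠ 0`.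
If `P + Q = 0`: `RedTo.zero`.  Otherwise `P + Q = (x₃, _)` with `x₃ = L² + a₁ L - a₂ - a - c`, `L` the
slope, and it suffices to show `L ∉ A` (then `v(x₃) = v(L)² > 1`, `RedTo.of_not_mem`).
* `a ≠ c`: `L = (d - b)/(c - a)`; subtracting the two equations:
  `(d - b) (d + b + a₁ c + a₃) = (c - a) (c² + c a + a² + a₂ (c + a) + a₄ - a₁ b)`, i.e.
  `L * e = n` with `e := d + b + a₁ c + a₃ ∈ 𝔪` and `n` a unit (residue `u`): `L ∈ A` is impossible.
* `a = c`, `d = b` (`P = Q`, `2 b + a₁ a + a₃ ≠ 0` since `P + Q ≠ 0`):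
  `L = (3 a² + 2 a₂ a + a₄ - a₁ b)/(2 b + a₁ a + a₃)` = unit / nonunit.
* `a = c`, `d ≠ b`: then `d = -b - a₁ a - a₃`, `P + Q = 0`. -/
theorem RedTo.add_of_eq_neg_self {P Q : (gen W).toAffine.Point} {xb yb : ResidueField A}
    {hb : (spe W).toAffine.Nonsingular xb yb}
    (hT : (Affine.Point.some xb yb hb : (spe W).toAffine.Point) = -Affine.Point.some xb yb hb)
    (h : RedTo W P (.some xb yb hb)) (h' : RedTo W Q (.some xb yb hb)) :
    RedTo W (P + Q) 0 := by
  obtain ⟨a, b, hP, rfl, ha, hb'⟩ := h.exists_of_some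
  obtain ⟨c, d, hQ, rfl, hc, hd⟩ := h'.exists_of_some
  subst ha hb'
  -- consequences of `hT` and of nonsingularity
  have hY : residue A b = -residue A b - residue A W.a₁ * residue A a - residue A W.a₃ := by
    rw [Affine.Point.neg_some] at hT
    simp only [Affine.Point.some.injEq, true_and] at hT
    exact hT
  have hu : residue A W.a₁ * residue A b ≠
      3 * residue A a ^ 2 + 2 * residue A W.a₂ * residue A a + residue A W.a₄ := by
    rcases ((Affine.nonsingular_iff _ _).1 hb).2 with h1 | h1
    · exact h1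
    · exact absurd hY h1
  have c2 : ((2 : A) : K) = 2 := map_ofNat A.subtype 2
  have c3 : ((3 : A) : K) = 3 := map_ofNat A.subtype 3
  have eP := Kernel_equation hP.1
  have eQ := Kernel_equation hQ.1
  by_cases hxy : (a : K) = (c : K) ∧ (b : K) = (gen W).toAffine.negY (c : K) (d : K)
  · rw [Affine.Point.add_of_Y_eq hxy.1 hxy.2]
    exact RedTo.zero
  rw [Affine.Point.add_some hxy]
  apply RedTo.of_not_mem
  have hslope : (gen W).toAffine.slope (a : K) (c : K) (b : K) (d : K) ∉ A := by
    by_cases hac : (a : K) = (c : K)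
    · have hbd : (b : K) ≠ (gen W).toAffine.negY (c : K) (d : K) := fun h1 => hxy ⟨hac, h1⟩
      have hbd' : (b : K) = (d : K) := Affine.Y_eq_of_Y_ne hP.1 hQ.1 hac hbd
      rw [Affine.slope_of_Y_ne hac hbd]
      have hne : (b : K) - (gen W).toAffine.negY (a : K) (b : K) ≠ 0 := by
        rw [sub_ne_zero, hac]
        nth_rewrite 2 [hbd']
        exact hbd
      refine RedB_slope_not_mem (e := 2 * b + W.a₁ * a + W.a₃)
        (n := 3 * a ^ 2 + 2 * W.a₂ * a + W.a₄ - W.a₁ * b) ?_ ?_ ?_
      · simp only [map_add, map_mul, map_ofNat]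
        linear_combination hY
      · simp only [map_add, map_mul, map_sub, map_pow, map_ofNat]
        exact fun h0 => hu (sub_eq_zero.1 h0).symm
      · have e1 : (((2 * b + W.a₁ * a + W.a₃ : A)) : K) =
            (b : K) - (gen W).toAffine.negY (a : K) (b : K) := by
          simp only [Affine.negY, map_a₁, map_a₃]
          push_cast
          simp only [ValuationSubring.subtype_apply, c2]
          ring
        rw [e1, div_mul_cancel₀ _ hne]
        simp only [map_a₁, map_a₂, map_a₄]
        push_cast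
        simp only [ValuationSubring.subtype_apply, c2, c3]
    · rw [Affine.slope_of_X_ne hac]
      have hne : (a : K) - (c : K) ≠ 0 := sub_ne_zero.2 hac
      refine RedB_slope_not_mem (e := b + d + W.a₁ * c + W.a₃)
        (n := a ^ 2 + a * c + c ^ 2 + W.a₂ * (a + c) + W.a₄ - W.a₁ * b) ?_ ?_ ?_
      · simp only [map_add, map_mul, hc, hd]
        linear_combination hY
      · simp only [map_add, map_mul, map_sub, map_pow, hc]
        intro h0
        apply hu
        linear_combination -h0
      · push_cast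
        rw [div_mul_eq_mul_div, div_eq_iff hne]
        linear_combination eP - eQ
  have e2 : (gen W).toAffine.addX (a : K) (c : K)
      ((gen W).toAffine.slope (a : K) (c : K) (b : K) (d : K)) =
      (gen W).toAffine.slope (a : K) (c : K) (b : K) (d : K) ^ 2 +
        (W.a₁ : K) * (gen W).toAffine.slope (a : K) (c : K) (b : K) (d : K) -
          ((W.a₂ : K) + a + c) := by
    simp only [Affine.addX, map_a₁, map_a₂, ValuationSubring.subtype_apply]
    ring
  rw [e2]
  exact RedB_not_mem hslope W.a₁.2 (A.add_mem _ _ (A.add_mem _ _ W.a₂.2 a.2) c.2)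

end Fermat.Agent.EL
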