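import Fermat.Agent.S52.FB.MainSubst
import Fermat.Agent.S52.FB.Parallelogram

/-!
# EL / TorsA : the generic point `η = (X, yy)` of `y² = x³ + A x + B` over `k(X)`

`xdeg (n • η) = n²`, substitution homomorphisms, torsion points are constant.
-/

set_option autoImplicit false
set_option linter.unusedSectionVars false

namespace Fermat.Agent.EL

open Fermat.Agent.S52 Polynomial WeierstrassCurve.Affine

/-- the inclusion `E(k) → E(L)` -/
noncomputable abbrev constPt {k : Type*} [Field k] [DecidableEq k] (L : Type*) [Field L]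
    [Algebra k L] [DecidableEq L] (A B : k) : (short A B).Point →+ (EL L A B).Point :=
  mapShort A B (algebraMap k L)

variable {k : Type*} [Field k] {L : Type*} [Field L] [Algebra k L] [Algebra (RatFunc k) L]
  [IsScalarTower k (RatFunc k) L] {A B : k}

/-- the action of a `k`-algebra endomorphism of `L` on `E(L)` -/
noncomputable abbrev actPt [DecidableEq L] (A B : k) (τ : L →ₐ[k] L) :
    (EL L A B).Point →+ (EL L A B).Point :=
  mapShort' τ.toRingHom (τ.commutes A) (τ.commutes B)

/-- the `x`-coordinate (junk value `0` at the origin) -/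
def xco : (EL L A B).Point → L
  | 0 => 0
  | .some x _ _ => x

variable [DecidableEq L]

/-- `deg x(n η) = n²` -/
theorem xdeg_nsmul_eta (hΔ : 4 * A ^ 3 + 27 * B ^ 2 ≠ 0) (h2 : (2 : k) ≠ 0) {yy : L}
    (hη : (EL L A B).Nonsingular (algebraMap (RatFunc k) L RatFunc.X) yy) (n : ℕ) :
    HasRatX (n • (.some _ _ hη : (EL L A B).Point)) ∧
      xdeg (n • (.some _ _ hη : (EL L A B).Point)) = n ^ 2 := by
  have hyy : yy ^ 2 = algebraMap (RatFunc k) L (Main_f A B) := by
    rw [Main_map_f]
    exact (short_equation _ _ _ _).1 hη.1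
  have hηodd : IsOddPt yy (.some _ _ hη : (EL L A B).Point) :=
    ⟨RatFunc.X, 1, rfl, by rw [map_one, mul_one]⟩
  set η : (EL L A B).Point := .some _ _ hη with hηdef
  have hodd : ∀ m : ℕ, IsOddPt yy (m • η) := fun m =>
    (Main_oddSub A B yy hyy).nsmul_mem hηodd m
  have hrat : ∀ m : ℕ, HasRatX (m • η) := fun m => Main_hasRatX_of_isOddPt (hodd m)
  refine ⟨hrat n, ?_⟩
  have h1 : xdeg η = 1 := by
    rw [hηdef, Count_xdeg_some hη RatFunc.X rfl, rdeg_X]
  have key : ∀ m : ℕ, xdeg (m • η) = m ^ 2 ∧ xdeg ((m + 1) • η) = (m + 1) ^ 2 := by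
    intro m
    induction m with
    | zero =>
      refine ⟨by rw [zero_smul]; rfl, by rw [zero_add, one_smul, h1]; rfl⟩
    | succ m ih =>
      refine ⟨ih.2, ?_⟩
      have hp := xdeg_parallelogram hΔ h2 ((m + 1) • η) η (hrat _) (by simpa using hrat 1)
        (by rw [← succ_nsmul]; exact hrat _)
        (by rw [succ_nsmul, add_sub_cancel_right]; exact hrat _)
      rw [← succ_nsmul, succ_nsmul η m, add_sub_cancel_right, ← succ_nsmul, ih.1, ih.2, h1] at hp
      have : xdeg ((m + 1 + 1) • η) = 2 * (m + 1) ^ 2 + 2 * 1 - m ^ 2 := by omega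
      rw [this]
      have e : 2 * (m + 1) ^ 2 + 2 * 1 = (m + 1 + 1) ^ 2 + m ^ 2 := by ring
      omega
  exact (key n).1

omit [DecidableEq L] [Algebra (RatFunc k) L] [IsScalarTower k (RatFunc k) L] in
lemma exists_algebraMap_eq_of_isAlgebraic [IsAlgClosed k] {x : L} (hx : IsAlgebraic k x) :
    ∃ c : k, algebraMap k L c = x := by
  have : Algebra.IsAlgebraic k (IntermediateField.adjoin k {x}) :=
    IntermediateField.isAlgebraic_adjoin_simple hx.isIntegral
  have := IsAlgClosed.algebraMap_bijective_of_isIntegral (k := k)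
    (K := (IntermediateField.adjoin k {x}))
  obtain ⟨c, hc⟩ := this.2 ⟨x, IntermediateField.mem_adjoin_simple_self k x⟩
  exact ⟨c, by simpa using congrArg Subtype.val hc⟩

/-- a point with algebraic `x`-coordinate is constant -/
theorem exists_const_of_isAlgebraic [IsAlgClosed k] [DecidableEq k] {x y : L}
    (h : (EL L A B).Nonsingular x y) (hx : IsAlgebraic k x) :
    ∃ T : (short A B).Point, constPt L A B T = .some x y h := by
  have hy : IsAlgebraic k y := by
    refine IsAlgebraic.of_pow (n := 2) (by norm_num) ?_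
    rw [(short_equation _ _ _ _).1 h.1]
    exact ((hx.pow 3).add ((isAlgebraic_algebraMap A).mul hx)).add (isAlgebraic_algebraMap B)
  obtain ⟨c, rfl⟩ := exists_algebraMap_eq_of_isAlgebraic hx
  obtain ⟨d, rfl⟩ := exists_algebraMap_eq_of_isAlgebraic hy
  have hns : (short A B).Nonsingular c d := by
    have h' := h
    rw [EL, ← short_map] at h'
    exact (WeierstrassCurve.Affine.map_nonsingular (short A B) (algebraMap k L).injective c d).1 h'
  exact ⟨.some c d hns, rfl⟩

/-- constant points have degree `0` -/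
theorem xdeg_constPt [DecidableEq k] (T : (short A B).Point) : xdeg (constPt L A B T) = 0 := by
  rcases T with _ | ⟨c, d, h⟩
  · rfl
  · rw [constPt, mapShort_some, Count_xdeg_some _ (RatFunc.C c) (Main_map_C c), rdeg_eq_zero_iff]
    exact ⟨c, rfl⟩

/-- substitution `X ↦ x` for transcendental `x` -/
theorem exists_subst [IsAlgClosed L] [Algebra.IsAlgebraic (RatFunc k) L] {x : L}
    (hx : Transcendental k x) :
    ∃ τ : L →ₐ[k] L, τ (algebraMap (RatFunc k) L RatFunc.X) = x := by
  obtain ⟨τ, hτ⟩ := Main_exists_extend (L := L) (Main_phi x hx).toRingHom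
  refine ⟨{ τ with commutes' := fun c => ?_ }, ?_⟩
  · change τ (algebraMap k L c) = algebraMap k L c
    rw [IsScalarTower.algebraMap_apply k (RatFunc k) L, hτ,
      ← IsScalarTower.algebraMap_apply k (RatFunc k) L]
    exact (Main_phi x hx).commutes c
  · change τ _ = x
    rw [hτ]
    exact Main_phi_X x hx

/-- `τ η = ± ξ` if `τ X = x(ξ)` -/
theorem actPt_eta (τ : L →ₐ[k] L) {xx yy x y : L} (hη : (EL L A B).Nonsingular xx yy)
    (h : (EL L A B).Nonsingular x y) (hτ : τ xx = x) :
    actPt A B τ (.some xx yy hη) = .some x y h ∨ actPt A B τ (.some xx yy hη) = -.some x y h := by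
  rw [actPt, mapShort'_some]
  exact Point.X_eq_iff.1 hτ

lemma actPt_constPt [DecidableEq k] (τ : L →ₐ[k] L) (T : (short A B).Point) :
    actPt A B τ (constPt L A B T) = constPt L A B T := by
  rcases T with _ | ⟨c, d, h⟩
  · exact map_zero _
  · rw [constPt, mapShort_some, actPt, mapShort'_some]
    simp only [AlgHom.toRingHom_eq_coe, RingHom.coe_coe, AlgHom.commutes]

lemma xco_actPt (τ : L →ₐ[k] L) (P : (EL L A B).Point) : xco (actPt A B τ P) = τ (xco P) := by
  rcases P with _ | ⟨x, y, h⟩
  · change xco (actPt A B τ 0) = τ 0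
    rw [map_zero, map_zero]
    rfl
  · rw [actPt, mapShort'_some]
    rfl

/-- torsion points of `E(L)` are constant -/
theorem exists_const_of_nsmul_eq_zero [IsAlgClosed k] [DecidableEq k] [IsAlgClosed L]
    [Algebra.IsAlgebraic (RatFunc k) L]
    (hΔ : 4 * A ^ 3 + 27 * B ^ 2 ≠ 0) (h2 : (2 : k) ≠ 0) {yy : L}
    (hη : (EL L A B).Nonsingular (algebraMap (RatFunc k) L RatFunc.X) yy)
    {n : ℕ} (hn : 0 < n) {T : (EL L A B).Point} (hT : n • T = 0) :
    ∃ T₀ : (short A B).Point, constPt L A B T₀ = T := by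
  rcases T with _ | ⟨x, y, h⟩
  · exact ⟨0, map_zero _⟩
  by_cases hx : IsAlgebraic k x
  · exact exists_const_of_isAlgebraic h hx
  exfalso
  obtain ⟨τ, hτ⟩ := exists_subst (k := k) (L := L) hx
  have h0 : actPt A B τ (n • (.some _ _ hη : (EL L A B).Point)) = 0 := by
    rw [map_nsmul]
    rcases actPt_eta τ hη h hτ with e | e
    · rw [e, hT]
    · rw [e, smul_neg, hT, neg_zero]
  have h1 : n • (.some _ _ hη : (EL L A B).Point) = 0 :=
    mapShort'_injective τ.toRingHom (τ.commutes A) (τ.commutes B) (h0.trans (map_zero _).symm)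
  have h3 := (xdeg_nsmul_eta hΔ h2 hη n).2
  rw [h1] at h3
  have : xdeg (0 : (EL L A B).Point) = 0 := rfl
  rw [this] at h3
  have : 0 < n ^ 2 := by positivity
  omega

end Fermat.Agent.EL
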