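import Fermat.Agent.S52.FB.MainSubst

/-!
# EL / TorsC : a rational function `r` of degree `d` in characteristic `0` has exactly `d`
"generic preimages": `#{z = τ X | τ : L →ₐ[k] L, τ r = r} = d`
-/

set_option autoImplicit false
set_option linter.unusedSectionVars false

namespace Fermat.Agent.EL

open Fermat.Agent.S52 Polynomial

variable {k : Type*} [Field k] {L : Type*} [Field L] [Algebra k L] [Algebra (RatFunc k) L]
  [IsScalarTower k (RatFunc k) L]

/-- the set of generic preimages of `r(X)` under `r` -/
def substSet (L : Type*) [Field L] [Algebra k L] [Algebra (RatFunc k) L] (r : RatFunc k) : Set L :=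
  {z : L | ∃ τ : L →ₐ[k] L, τ (algebraMap (RatFunc k) L RatFunc.X) = z ∧
    τ (algebraMap (RatFunc k) L r) = algebraMap (RatFunc k) L r}

omit [Algebra (RatFunc k) L] [IsScalarTower k (RatFunc k) L] in
/-- a `k`-algebra homomorphism out of `k(X)` is determined by the image of `X` -/
lemma ratFunc_algHom_ext {φ ψ : RatFunc k →ₐ[k] L} (h : φ RatFunc.X = ψ RatFunc.X) : φ = ψ := by
  have h1 : (φ.comp (IsScalarTower.toAlgHom k k[X] (RatFunc k)))
      = (ψ.comp (IsScalarTower.toAlgHom k k[X] (RatFunc k))) := by
    apply Polynomial.algHom_ext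
    simpa [RatFunc.algebraMap_X] using h
  have h2 : ∀ p : k[X], φ (algebraMap k[X] (RatFunc k) p) = ψ (algebraMap k[X] (RatFunc k) p) :=
    fun p => AlgHom.congr_fun h1 p
  ext g
  rw [← RatFunc.num_div_denom g, map_div₀, map_div₀, h2, h2]

theorem ncard_substSet [CharZero k] [IsAlgClosed L] [Algebra.IsAlgebraic (RatFunc k) L]
    (r : RatFunc k) (hr : rdeg r ≠ 0) : (substSet L r).ncard = rdeg r := by
  set F := IntermediateField.adjoin k ({r} : Set (RatFunc k)) with hF
  have hfr : Module.finrank F (RatFunc k) = rdeg r := (rdeg_eq_finrank r).symm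
  have : FiniteDimensional F (RatFunc k) :=
    Module.finite_of_finrank_pos (by rw [hfr]; exact Nat.pos_of_ne_zero hr)
  have : CharZero F := charZero_of_injective_algebraMap (algebraMap k F).injective
  have hcard : Nat.card (RatFunc k →ₐ[F] L) = rdeg r := by
    rw [← hfr]
    exact AlgHom.natCard_of_splits F (RatFunc k) L (fun _ => IsAlgClosed.splits _)
  let Φ : (RatFunc k →ₐ[F] L) → L := fun ψ => ψ RatFunc.X
  have hinj : Function.Injective Φ := by
    intro ψ₁ ψ₂ h
    have := ratFunc_algHom_ext (φ := ψ₁.restrictScalars k) (ψ := ψ₂.restrictScalars k) h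
    ext g
    exact AlgHom.congr_fun this g
  have hrange : Set.range Φ = substSet L r := by
    ext z
    constructor
    · rintro ⟨ψ, rfl⟩
      obtain ⟨τ, hτ⟩ := Main_exists_extend (L := L) ψ.toRingHom
      refine ⟨{ τ with commutes' := fun c => ?_ }, ?_, ?_⟩
      · change τ (algebraMap k L c) = algebraMap k L c
        rw [IsScalarTower.algebraMap_apply k (RatFunc k) L, hτ,
          ← IsScalarTower.algebraMap_apply k (RatFunc k) L]
        exact (ψ.restrictScalars k).commutes c
      · change τ _ = _
        rw [hτ]
        rfl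
      · change τ _ = _
        rw [hτ]
        exact ψ.commutes ⟨r, IntermediateField.mem_adjoin_simple_self k r⟩
    · rintro ⟨τ, hτz, hτr⟩
      have hfix : ∀ f ∈ F, τ (algebraMap (RatFunc k) L f) = algebraMap (RatFunc k) L f := by
        intro f hf
        induction hf using IntermediateField.adjoin_induction with
        | mem x hx =>
          rw [Set.mem_singleton_iff] at hx
          rw [hx, hτr]
        | algebraMap c =>
          rw [← IsScalarTower.algebraMap_apply k (RatFunc k) L, τ.commutes]
        | add x y _ _ hx hy => rw [map_add, map_add, hx, hy]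
        | inv x _ hx => rw [map_inv₀, map_inv₀, hx]
        | mul x y _ _ hx hy => rw [map_mul, map_mul, hx, hy]
      refine ⟨{ (τ.toRingHom.comp (algebraMap (RatFunc k) L)) with
        commutes' := fun f => hfix f f.2 }, hτz⟩
  rw [← hrange, Set.ncard_range_of_injective hinj, hcard]

end Fermat.Agent.EL
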