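import Fermat.Agent.EL.TorsA
import Fermat.Agent.EL.TorsC

/-!
# EL / TorsB : `T ↦ x(η + T)` is a bijection from `E[n](k)` onto the generic preimages of `x(n η)`
-/

set_option autoImplicit false
set_option linter.unusedSectionVars false

namespace Fermat.Agent.EL

open Fermat.Agent.S52 Polynomial WeierstrassCurve.Affine

variable {k : Type*} [Field k] [DecidableEq k] {L : Type*} [Field L] [Algebra k L]
  [Algebra (RatFunc k) L] [IsScalarTower k (RatFunc k) L] [DecidableEq L] {A B : k}

lemma xco_neg (P : (EL L A B).Point) : xco (-P) = xco P := by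
  rcases P with _ | ⟨x, y, h⟩
  · rfl
  · rfl

/-- two nonzero points with the same `x`-coordinate are equal up to sign -/
lemma eq_or_eq_neg_of_xco_eq {P Q : (EL L A B).Point} (hP : P ≠ 0) (hQ : Q ≠ 0)
    (h : xco P = xco Q) : P = Q ∨ P = -Q := by
  rcases P with _ | ⟨x, y, h1⟩
  · exact absurd rfl hP
  rcases Q with _ | ⟨x', y', h2⟩
  · exact absurd rfl hQ
  exact Point.X_eq_iff.1 h

section
variable (hΔ : 4 * A ^ 3 + 27 * B ^ 2 ≠ 0) (h2 : (2 : k) ≠ 0) {yy : L}
    (hη : (EL L A B).Nonsingular (algebraMap (RatFunc k) L RatFunc.X) yy)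

include hΔ h2 in
/-- a nonzero multiple of `η` is not constant -/
lemma nsmul_eta_ne_const {m : ℕ} (hm : 0 < m) (T : (short A B).Point) :
    m • (.some _ _ hη : (EL L A B).Point) ≠ constPt L A B T := by
  intro h
  have h1 := (xdeg_nsmul_eta hΔ h2 hη m).2
  rw [h, xdeg_constPt] at h1
  have : 0 < m ^ 2 := by positivity
  omega

include hΔ h2 in
lemma eta_add_const_ne_const (T T' : (short A B).Point) :
    (.some _ _ hη : (EL L A B).Point) + constPt L A B T ≠ constPt L A B T' := by
  intro h
  apply nsmul_eta_ne_const hΔ h2 hη one_pos (T' - T)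
  rw [one_smul, map_sub, ← h, add_sub_cancel_right]

include hΔ h2 in
/-- `η + T` is a nonzero point with transcendental `x`-coordinate -/
lemma exists_eta_add_const [IsAlgClosed k] (T : (short A B).Point) :
    ∃ (x y : L) (h : (EL L A B).Nonsingular x y), Transcendental k x ∧
      (.some _ _ hη : (EL L A B).Point) + constPt L A B T = .some x y h := by
  have hne := eta_add_const_ne_const hΔ h2 hη T
  generalize (.some _ _ hη : (EL L A B).Point) + constPt L A B T = ξ at hne
  rcases ξ with _ | ⟨x, y, h⟩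
  · exact absurd (map_zero _).symm (hne 0)
  · refine ⟨x, y, h, fun hx => ?_, rfl⟩
    obtain ⟨T', hT'⟩ := exists_const_of_isAlgebraic h hx
    exact hne T' hT'.symm

end

theorem bijOn_torsion [IsAlgClosed k] [IsAlgClosed L] [Algebra.IsAlgebraic (RatFunc k) L]
    (hΔ : 4 * A ^ 3 + 27 * B ^ 2 ≠ 0) (h2 : (2 : k) ≠ 0) {yy : L}
    (hη : (EL L A B).Nonsingular (algebraMap (RatFunc k) L RatFunc.X) yy)
    {n : ℕ} (hn : 0 < n) (r : RatFunc k)
    (hr : algebraMap (RatFunc k) L r = xco (n • (.some _ _ hη : (EL L A B).Point))) :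
    Set.BijOn (fun T : (short A B).Point => xco ((.some _ _ hη : (EL L A B).Point) + constPt L A B T))
      {T | n • T = 0} (substSet L r) := by
  set η : (EL L A B).Point := .some _ _ hη with hηdef
  have hnη : n • η ≠ 0 := by
    have := nsmul_eta_ne_const hΔ h2 hη hn 0
    rwa [map_zero] at this
  refine ⟨?_, ?_, ?_⟩
  · -- MapsTo
    intro T hT
    obtain ⟨x, y, h, hx, e⟩ := exists_eta_add_const hΔ h2 hη T
    obtain ⟨τ, hτ⟩ := exists_subst (k := k) (L := L) hx
    refine ⟨τ, ?_, ?_⟩
    · rw [hτ]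
      change x = xco (η + constPt L A B T)
      rw [e]
      rfl
    · rw [hr, ← xco_actPt, map_nsmul]
      have hnξ : n • (.some x y h : (EL L A B).Point) = n • η := by
        rw [← e, nsmul_add, ← map_nsmul, (hT : n • T = 0), map_zero, add_zero]
      rcases actPt_eta τ hη h hτ with e' | e'
      · rw [e', hnξ]
      · rw [e', smul_neg, hnξ, xco_neg]
  · -- InjOn
    intro T _ T' _ hTT
    obtain ⟨x, y, h, hx, e⟩ := exists_eta_add_const hΔ h2 hη T
    obtain ⟨x', y', h', hx', e'⟩ := exists_eta_add_const hΔ h2 hη T'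
    have hTT' : xco (η + constPt L A B T) = xco (η + constPt L A B T') := hTT
    rcases eq_or_eq_neg_of_xco_eq (by rw [e]; exact Point.some_ne_zero _)
      (by rw [e']; exact Point.some_ne_zero _) hTT' with h1 | h1
    · exact mapShort_injective A B _ (add_left_cancel h1)
    · exfalso
      apply nsmul_eta_ne_const hΔ h2 hη two_pos (-(T + T'))
      rw [map_neg, map_add, two_nsmul]
      have : η + η = (η + constPt L A B T) + η - constPt L A B T := by abel
      rw [← hηdef, this, h1]
      abel
  · -- SurjOn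
    rintro z ⟨τ, hτz, hτr⟩
    set ξ : (EL L A B).Point := actPt A B τ η with hξ
    have hxξ : xco ξ = z := by rw [hξ, xco_actPt]; exact hτz
    have hnξ : xco (n • ξ) = xco (n • η) := by
      rw [hξ, ← map_nsmul, xco_actPt, ← hr, hτr]
    have hnξ0 : n • ξ ≠ 0 := by
      rw [hξ, ← map_nsmul]
      intro h0
      exact hnη (mapShort'_injective τ.toRingHom (τ.commutes A) (τ.commutes B)
        (h0.trans (map_zero _).symm))
    rcases eq_or_eq_neg_of_xco_eq hnξ0 hnη hnξ with h1 | h1
    · obtain ⟨T₀, hT₀⟩ := exists_const_of_nsmul_eq_zero hΔ h2 hη hn (T := ξ - η)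
        (by rw [nsmul_sub, h1, sub_self])
      refine ⟨T₀, ?_, ?_⟩
      · apply mapShort_injective A B (algebraMap k L)
        change constPt L A B (n • T₀) = constPt L A B 0
        rw [map_nsmul, hT₀, map_zero, nsmul_sub, h1, sub_self]
      · change xco (η + constPt L A B T₀) = z
        rw [hT₀, add_sub_cancel, hxξ]
    · obtain ⟨T₀, hT₀⟩ := exists_const_of_nsmul_eq_zero hΔ h2 hη hn (T := -ξ - η)
        (by rw [nsmul_sub, smul_neg, h1, neg_neg, sub_self])
      refine ⟨T₀, ?_, ?_⟩
      · apply mapShort_injective A B (algebraMap k L)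
        change constPt L A B (n • T₀) = constPt L A B 0
        rw [map_nsmul, hT₀, map_zero, nsmul_sub, smul_neg, h1, neg_neg, sub_self]
      · change xco (η + constPt L A B T₀) = z
        rw [hT₀, add_sub_cancel, xco_neg, hxξ]

end Fermat.Agent.EL
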