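import Fermat.Prelude.Def_EllipticCurve_FrobeniusTrace
import Fermat.Prelude.Def_FLTPrelim_Modularity

/-!
# EL / ValQ : valuation subrings of `ℚ̄` lying over a prime `ℓ`
-/

set_option autoImplicit false

namespace Fermat.Agent.EL

open IsLocalRing

variable {A : ValuationSubring (AlgebraicClosure ℚ)} {ℓ : ℕ}

theorem charP_residueField (hℓ : ℓ.Prime) (hA : A.LiesOverPrime ℓ) : CharP (ResidueField A) ℓ := by
  have h0 : ((ℓ : ℕ) : ResidueField A) = 0 := by
    have h1 : ((ℓ : A) : AlgebraicClosure ℚ) ∈ A.nonunits := by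
      have : ((ℓ : A) : AlgebraicClosure ℚ) = (ℓ : AlgebraicClosure ℚ) := by simp
      rw [this]
      exact hA
    rw [ValuationSubring.coe_mem_nonunits_iff, ← residue_eq_zero_iff, map_natCast] at h1
    exact h1
  exact (CharP.charP_iff_prime_eq_zero hℓ).mpr h0

/-- integers prime to `ℓ` are units of `A` -/
theorem isUnit_intCast (hℓ : ℓ.Prime) (hA : A.LiesOverPrime ℓ) {m : ℤ} (hm : ¬ (ℓ : ℤ) ∣ m) :
    IsUnit (m : A) := by
  have := charP_residueField hℓ hA
  rw [← residue_ne_zero_iff_isUnit, map_intCast]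
  intro h
  exact hm ((CharP.intCast_eq_zero_iff (ResidueField A) ℓ m).1 h)

theorem natCast_residue_ne_zero (hℓ : ℓ.Prime) (hA : A.LiesOverPrime ℓ) {n : ℕ} (hn : ¬ ℓ ∣ n) :
    (n : ResidueField A) ≠ 0 := by
  have := charP_residueField hℓ hA
  intro h
  exact hn ((CharP.cast_eq_zero_iff (ResidueField A) ℓ n).1 h)

/-- the reduction modulo `ℓ` of a primitive integer polynomial is nonzero -/
theorem ValQ_map_ne_zero (hℓ : ℓ.Prime) {P : Polynomial ℤ} (hP : P.IsPrimitive) :
    P.map (Int.castRingHom (ZMod ℓ)) ≠ 0 := by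
  intro h
  have hd : Polynomial.C (ℓ : ℤ) ∣ P := by
    rw [Polynomial.C_dvd_iff_dvd_coeff]
    intro i
    have h1 := congrArg (fun q => Polynomial.coeff q i) h
    simp only [Polynomial.coeff_map, Polynomial.coeff_zero, eq_intCast] at h1
    exact (ZMod.intCast_zmod_eq_zero_iff_dvd _ _).1 h1
  have hu := hP _ hd
  rw [Int.isUnit_iff] at hu
  have := hℓ.two_le
  omega

/-- the residue field is algebraic over the prime field -/
theorem isAlgebraic_residueField [Fact ℓ.Prime] (hA : A.LiesOverPrime ℓ)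
    [Algebra (ZMod ℓ) (ResidueField A)] : Algebra.IsAlgebraic (ZMod ℓ) (ResidueField A) := by
  have hℓ : ℓ.Prime := Fact.out
  refine ⟨fun x => ?_⟩
  obtain ⟨a, rfl⟩ := residue_surjective x
  have halg : IsAlgebraic ℚ (a : AlgebraicClosure ℚ) := by
    have e : (DivisionRing.toRatAlgebra : Algebra ℚ (AlgebraicClosure ℚ)) =
      AlgebraicClosure.instAlgebra ℚ := Subsingleton.elim _ _
    rw! [e]
    exact Algebra.IsAlgebraic.isAlgebraic _
  have halgZ : IsAlgebraic ℤ (a : AlgebraicClosure ℚ) :=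
    (IsFractionRing.isAlgebraic_iff ℤ ℚ (AlgebraicClosure ℚ)).2 halg
  obtain ⟨p, hp0, hp⟩ := halgZ
  have hP := Polynomial.aeval_primPart_eq_zero hp0 hp
  have hprim := p.isPrimitive_primPart
  set P := p.primPart with hPdef
  refine ⟨P.map (Int.castRingHom (ZMod ℓ)), ValQ_map_ne_zero hℓ hprim, ?_⟩
  have h1 : P.eval₂ (Int.castRingHom A) a = 0 := by
    apply Subtype.val_injective
    have h2 := Polynomial.hom_eval₂ P (Int.castRingHom A) A.subtype a
    have h3 : (A.subtype).comp (Int.castRingHom A) = algebraMap ℤ (AlgebraicClosure ℚ) :=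
      RingHom.ext_int _ _
    rw [h3] at h2
    show A.subtype (P.eval₂ (Int.castRingHom A) a) = _
    rw [h2]
    exact hP
  have h4 := Polynomial.hom_eval₂ P (Int.castRingHom A) (residue A) a
  rw [h1, map_zero] at h4
  rw [Polynomial.aeval_def, Polynomial.eval₂_map]
  have h5 : (algebraMap (ZMod ℓ) (ResidueField A)).comp (Int.castRingHom (ZMod ℓ)) =
      (residue A).comp (Int.castRingHom A) := RingHom.ext_int _ _
  rw [h5]
  exact h4.symm

end Fermat.Agent.EL
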