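import Fermat.Prelude.Def_EllipticCurve_FrobeniusTrace
import Fermat.Agent.EL.Tors

/-!
# EL / X1 : `#E[n] = n²` in the language of the Prelude
-/

set_option autoImplicit false

namespace Fermat.Agent.EL

open WeierstrassCurve IsLocalRing
open scoped WeierstrassCurve.Affine

local notation "Qbar" => AlgebraicClosure ℚ

/-- (X1) -/
theorem card_torsionBy (W : WeierstrassCurve ℤ) (hΔ : W.Δ ≠ 0) {n : ℕ} (hn : 0 < n) :
    Nat.card (Submodule.torsionBy ℤ ((W.map (Int.castRingHom ℚ))⁄Qbar).Point (n : ℕ)) = n ^ 2 := by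
  have hΔ' : ((W.map (Int.castRingHom ℚ)).map (algebraMap ℚ Qbar)).Δ ≠ 0 := by
    rw [WeierstrassCurve.map_Δ, WeierstrassCurve.map_Δ]
    simpa using hΔ
  rw [← card_torsion ((W.map (Int.castRingHom ℚ)).map (algebraMap ℚ Qbar)) hΔ' hn]
  refine Nat.card_congr (Equiv.subtypeEquiv (Equiv.refl _) fun T => ?_)
  rw [Submodule.mem_torsionBy_iff, natCast_zsmul]
  rfl

end Fermat.Agent.EL
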