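import Fermat.Agent.EL.X23
import Fermat.Agent.EL.InjAll
import Fermat.Agent.EL.FG.Main

/-!
# EL / X23All : inertia and Frobenius on `E[n]`, at ALL primes `ℓ ∤ n`
-/

set_option autoImplicit false
set_option linter.unusedSectionVars false
set_option linter.style.haveILetI false

namespace Fermat.Agent.EL

open WeierstrassCurve IsLocalRing
open scoped WeierstrassCurve.Affine

local notation "Qbar" => AlgebraicClosure ℚ

section core

variable {W : WeierstrassCurve ℤ} {A : ValuationSubring Qbar} [DecidableEq (ResidueField A)]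
variable {ℓ : ℕ} (hℓ : ℓ.Prime) (hA : A.LiesOverPrime ℓ)

include hℓ hA in
/-- a torsion point of order prime to `ℓ` with a nonsingular reduction is fixed by inertia
(any reduction type) -/
theorem fixed_of_redTo {n : ℕ} (hn : ¬ ℓ ∣ n) (g : A.decompositionSubgroup ℚ)
    (hg : ∀ x : ResidueField A, g • x = x) (P : (gen (modelA W A)).toAffine.Point)
    (hP : n • P = 0) {Pb : (spe (modelA W A)).toAffine.Point} (hPb : RedTo (modelA W A) P Pb) :
    mapPt (decK g) (gen_map_decK g) P = P := by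
  have h1 := redTo_dec g hPb
  have e : mapPt (deck g) (spe_map _) Pb = Pb := by
    rw [mapPt_congr (deck g) (spe_map _) (g := RingHom.id _) (spe_map _) (fun x => hg x), mapPt_id]
  rw [e] at h1
  have h2 := h1.sub_all hPb
  rw [sub_self] at h2
  have h3 := eq_zero_of_redTo_zero_all _ (natCast_residue_ne_zero hℓ hA hn) h2
    (by rw [nsmul_sub, ← map_nsmul, hP, map_zero, sub_zero])
  exact sub_eq_zero.1 h3

include hℓ hA in
theorem frobenius_core_all (hgood : ¬ (ℓ : ℤ) ∣ W.Δ) {n : ℕ} (hn : ¬ ℓ ∣ n)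
    (g : A.decompositionSubgroup ℚ)
    (hg : ∀ x : ResidueField A, g • x = x ^ ℓ) (P : (gen (modelA W A)).toAffine.Point)
    (hP : n • P = 0) :
    mapPt (decK g) (gen_map_decK g) (mapPt (decK g) (gen_map_decK g) P)
      - (W.apOfModel ℓ) • mapPt (decK g) (gen_map_decK g) P + (ℓ : ℤ) • P = 0 := by
  haveI : Fact ℓ.Prime := ⟨hℓ⟩
  haveI : CharP (ResidueField A) ℓ := charP_residueField hℓ hA
  letI : Algebra (ZMod ℓ) (ResidueField A) := ZMod.algebra _ ℓ
  haveI : IsAlgClosed (ResidueField A) := isAlgClosed_residueField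
  haveI : Algebra.IsAlgebraic (ZMod ℓ) (ResidueField A) := isAlgebraic_residueField hA
  obtain ⟨Pb, hPb⟩ := exists_redTo_of_isUnit_Δ (isUnit_Δ_modelA hℓ hgood hA) P
  have e : ∀ Q, mapPt (deck g) (spe_map _) Q
      = mapPt (Fermat.Agent.S52.frobHom ℓ) (spe_map (W := W) _) Q := fun Q =>
    mapPt_congr (deck g) (spe_map _) (g := Fermat.Agent.S52.frobHom ℓ) (spe_map _) (fun x => hg x) Q
  have h1 := redTo_dec g hPb
  have h2 := redTo_dec g h1
  rw [e, e] at h2
  rw [e] at h1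
  have h3 := ((h2.sub_all (h1.zsmul_all (W.apOfModel ℓ))).add_all (hPb.zsmul_all (ℓ : ℤ)))
  have hV : (W.reductionMod ℓ).map (algebraMap (ZMod ℓ) (ResidueField A)) = spe (modelA W A) := by
    rw [spe_modelA, WeierstrassCurve.reductionMod, map_int_eq]
  have hΔ : (W.reductionMod ℓ).Δ ≠ 0 := by
    rw [WeierstrassCurve.reductionMod, WeierstrassCurve.map_Δ]
    intro h0
    exact hgood ((ZMod.intCast_zmod_eq_zero_iff_dvd _ _).1 h0)
  have h4 := frobenius_equation_all ℓ (W.reductionMod ℓ) hΔ hV (spe_map _) Pb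
  have hap : W.apOfModel ℓ = (ℓ : ℤ) + 1 - (Nat.card (W.reductionMod ℓ).toAffine.Point : ℤ) := by
    rw [WeierstrassCurve.apOfModel, WeierstrassCurve.traceOfFrobenius, WeierstrassCurve.card,
      Nat.card_zmod]
  rw [hap, h4] at h3
  rw [hap]
  refine eq_zero_of_redTo_zero_all _ (natCast_residue_ne_zero hℓ hA hn) h3 ?_
  have key : ∀ (a : ℤ) (Q : (gen (modelA W A)).toAffine.Point), n • Q = 0 → n • (a • Q) = 0 := by
    intro a Q h
    rw [← natCast_zsmul, smul_smul, mul_comm, mul_smul, natCast_zsmul, h, zsmul_zero]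
  have hσP : n • mapPt (decK g) (gen_map_decK g) P = 0 := by rw [← map_nsmul, hP, map_zero]
  rw [nsmul_add, nsmul_sub, key _ _ hP, key _ _ hσP, ← map_nsmul, hσP, map_zero, sub_zero,
    add_zero]

theorem frobenius_core_all' {ℓ : ℕ} (hℓ : ℓ.Prime) (hgood : ¬ (ℓ : ℤ) ∣ W.Δ)
    (hA : A.LiesOverPrime ℓ) {n : ℕ} (hn : ¬ ℓ ∣ n) (g : A.decompositionSubgroup ℚ)
    (hg : ∀ x : ResidueField A, g • x = x ^ ℓ) {EK : WeierstrassCurve Qbar}
    (hE : gen (modelA W A) = EK) (hEσ : EK.map (decK g) = EK) (P : EK.toAffine.Point)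
    (hP : n • P = 0) :
    mapPt (decK g) hEσ (mapPt (decK g) hEσ P) - (W.apOfModel ℓ) • mapPt (decK g) hEσ P
      + (ℓ : ℤ) • P = 0 := by
  subst hE
  exact frobenius_core_all hℓ hA hgood hn g hg P hP

/-- existence of a fixed point of exact order `m`, for an arbitrary presentation of the generic
fibre -/
theorem exists_fixed_of_redTo' {ℓ : ℕ} (hℓ : ℓ.Prime) (hA : A.LiesOverPrime ℓ) {m : ℕ}
    (hm : ¬ ℓ ∣ m) (g : A.decompositionSubgroup ℚ) (hg : ∀ x : ResidueField A, g • x = x)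
    {EK : WeierstrassCurve Qbar} (hE : gen (modelA W A) = EK) (hEσ : EK.map (decK g) = EK)
    (hex : ∃ (T : (gen (modelA W A)).toAffine.Point) (Pb : (spe (modelA W A)).toAffine.Point),
      RedTo (modelA W A) T Pb ∧ addOrderOf T = m) :
    ∃ T : EK.toAffine.Point, addOrderOf T = m ∧ mapPt (decK g) hEσ T = T := by
  subst hE
  obtain ⟨T, Pb, hT, ho⟩ := hex
  exact ⟨T, ho, fixed_of_redTo hℓ hA hm g hg T (by rw [← ho]; exact addOrderOf_nsmul_eq_zero T) hT⟩

end core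

/-- (X3) for all primes of good reduction -/
theorem frobenius_smul_eq_all (W : WeierstrassCurve ℤ) {ℓ : ℕ} (hℓ : ℓ.Prime)
    (hgood : ¬ (ℓ : ℤ) ∣ W.Δ) {n : ℕ} (hn : ¬ ℓ ∣ n) {A : ValuationSubring Qbar}
    (hA : A.LiesOverPrime ℓ) {σ : Qbar ≃ₐ[ℚ] Qbar} (hσ : A.IsFrobeniusAt σ ℓ)
    (x : Submodule.torsionBy ℤ ((W.map (Int.castRingHom ℚ))⁄Qbar).Point (n : ℕ)) :
    σ • σ • x - (W.apOfModel ℓ) • σ • x + (ℓ : ℤ) • x = 0 := by
  classical
  obtain ⟨hσD, hfr⟩ := hσ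
  set g : A.decompositionSubgroup ℚ := ⟨σ, hσD⟩ with hg
  apply Subtype.ext
  change (g : Qbar ≃ₐ[ℚ] Qbar) • (g : Qbar ≃ₐ[ℚ] Qbar) •
      (x : ((W.map (Int.castRingHom ℚ))⁄Qbar).Point)
    - (W.apOfModel ℓ) • ((g : Qbar ≃ₐ[ℚ] Qbar) • (x : ((W.map (Int.castRingHom ℚ))⁄Qbar).Point))
    + (ℓ : ℤ) • (x : ((W.map (Int.castRingHom ℚ))⁄Qbar).Point) = 0
  rw [smul_eq_mapPt, smul_eq_mapPt]
  exact frobenius_core_all' hℓ hgood hA hn g hfr (gen_modelA' W A) _ _
    (nsmul_eq_zero_of_mem_torsionBy x)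

end Fermat.Agent.EL
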