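import Fermat.Agent.EL.XForm

/-!
# EL / XFormB : the sum formula `x(P+Q) + x(P-Q)` on a general Weierstrass curve
-/

set_option autoImplicit false

namespace Fermat.Agent.EL

open WeierstrassCurve

variable {F : Type*} [Field F] {W : WeierstrassCurve F} [DecidableEq F]

/-- sum formula -/
theorem x_add_x_sub {x₁ y₁ x₂ y₂ : F} (h₁ : W.toAffine.Nonsingular x₁ y₁)
    (h₂ : W.toAffine.Nonsingular x₂ y₂) (hne : x₁ ≠ x₂) :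
    ∃ (x₃ y₃ x₄ y₄ : F) (h₃ : W.toAffine.Nonsingular x₃ y₃) (h₄ : W.toAffine.Nonsingular x₄ y₄),
      (Affine.Point.some x₁ y₁ h₁ : W.toAffine.Point) + .some x₂ y₂ h₂ = .some x₃ y₃ h₃ ∧
      (Affine.Point.some x₁ y₁ h₁ : W.toAffine.Point) - .some x₂ y₂ h₂ = .some x₄ y₄ h₄ ∧
      (x₃ + x₄) * (x₁ - x₂) ^ 2 =
        2 * (x₁ + x₂) * (x₁ * x₂) + W.b₂ * (x₁ * x₂) + W.b₄ * (x₁ + x₂) + W.b₆ := by
  have heq₁ : y₁ ^ 2 + W.a₁ * x₁ * y₁ + W.a₃ * y₁ = x₁ ^ 3 + W.a₂ * x₁ ^ 2 + W.a₄ * x₁ + W.a₆ :=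
    (Affine.equation_iff _ _).1 h₁.1
  have heq₂ : y₂ ^ 2 + W.a₁ * x₂ * y₂ + W.a₃ * y₂ = x₂ ^ 3 + W.a₂ * x₂ ^ 2 + W.a₄ * x₂ + W.a₆ :=
    (Affine.equation_iff _ _).1 h₂.1
  have hd : x₁ - x₂ ≠ 0 := sub_ne_zero.2 hne
  refine ⟨_, _, W.toAffine.addX x₁ x₂ (W.toAffine.slope x₁ x₂ y₁ (W.toAffine.negY x₂ y₂)),
    W.toAffine.addY x₁ x₂ y₁ (W.toAffine.slope x₁ x₂ y₁ (W.toAffine.negY x₂ y₂)), _,
    Affine.nonsingular_add h₁ ((Affine.nonsingular_neg ..).mpr h₂) fun hxy => hne hxy.left,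
    Affine.Point.add_of_X_ne hne, ?_, ?_⟩
  · rw [sub_eq_add_neg, Affine.Point.neg_some, Affine.Point.add_of_X_ne hne]
  · rw [Affine.slope_of_X_ne hne, Affine.slope_of_X_ne hne]
    have key : (y₁ - y₂) ^ 2 + W.a₁ * (y₁ - y₂) * (x₁ - x₂)
        + (y₁ - (-y₂ - W.a₁ * x₂ - W.a₃)) ^ 2 + W.a₁ * (y₁ - (-y₂ - W.a₁ * x₂ - W.a₃)) * (x₁ - x₂)
        - 2 * (W.a₂ + x₁ + x₂) * (x₁ - x₂) ^ 2 =
        2 * (x₁ + x₂) * (x₁ * x₂) + W.b₂ * (x₁ * x₂) + W.b₄ * (x₁ + x₂) + W.b₆ := by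
      simp only [b₂, b₄, b₆]
      linear_combination 2 * heq₁ + 2 * heq₂
    rw [← key]
    show ((((y₁ - y₂) / (x₁ - x₂)) ^ 2 + W.a₁ * ((y₁ - y₂) / (x₁ - x₂)) - W.a₂ - x₁ - x₂) +
      (((y₁ - (-y₂ - W.a₁ * x₂ - W.a₃)) / (x₁ - x₂)) ^ 2 +
        W.a₁ * ((y₁ - (-y₂ - W.a₁ * x₂ - W.a₃)) / (x₁ - x₂)) - W.a₂ - x₁ - x₂)) * (x₁ - x₂) ^ 2 = _
    generalize y₁ - (-y₂ - W.a₁ * x₂ - W.a₃) = n'
    generalize y₁ - y₂ = n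
    generalize x₁ - x₂ = d at hd
    field_simp
    ring

end Fermat.Agent.EL
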