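import Fermat.Agent.EL.XFormB

/-!
# EL / XFormC : triplication on a general Weierstrass curve
-/

set_option autoImplicit false

namespace Fermat.Agent.EL

open WeierstrassCurve

variable {F : Type*} [Field F] {W : WeierstrassCurve F} [DecidableEq F]

lemma XFormC_three_nsmul (P : W.toAffine.Point) : 3 • P = 2 • P + P := by
  rw [show (3 : ℕ) = 2 + 1 from rfl, add_nsmul, one_nsmul]

omit [DecidableEq F] in
lemma XFormC_some_ne_zero {x y : F} (h : W.toAffine.Nonsingular x y) :
    (Affine.Point.some x y h : W.toAffine.Point) ≠ 0 := by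
  intro h0
  exact Affine.Point.some_ne_zero h h0

/-- `3 P = 0 ↔ ψ₃(x) = 0`.  [`3P = 0 ↔ 2P = -P`; if `dupD x = 0` then `2P = 0 ≠ -P` and
`ψ₃ x = -dupN x ≠ 0`; otherwise `2P = (dupN/dupD, _)` and `2P = ±P ↔ dupN/dupD = x ↔ ψ₃ x = 0`
(`dupN_sub`), and `2P = P` is impossible.] -/
lemma three_nsmul_eq_zero_iff (hΔ : W.Δ ≠ 0) {x y : F} (h : W.toAffine.Nonsingular x y) :
    3 • (Affine.Point.some x y h : W.toAffine.Point) = 0 ↔ psi3 W x = 0 := by
  have hsub := dupN_sub (W := W) x
  by_cases hD : dupD W x = 0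
  · have h2 := (two_nsmul_eq_zero_iff h).2 hD
    have hN := dupN_ne_zero_of_dupD_eq_zero hΔ hD
    rw [XFormC_three_nsmul, h2, zero_add]
    constructor
    · intro h0
      exact absurd h0 (XFormC_some_ne_zero h)
    · intro h0
      rw [hD, h0, mul_zero, sub_zero, neg_zero] at hsub
      exact absurd hsub hN
  · obtain ⟨y', h', e⟩ := x_two_nsmul h hD
    rw [XFormC_three_nsmul]
    constructor
    · intro h0
      have h1 : 2 • (Affine.Point.some x y h : W.toAffine.Point) = -Affine.Point.some x y h :=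
        eq_neg_of_add_eq_zero_left h0
      rw [e, Affine.Point.neg_some] at h1
      have h2 : dupN W x / dupD W x = x := by
        injection h1
      rw [div_eq_iff hD] at h2
      rw [h2, sub_self] at hsub
      exact neg_eq_zero.1 hsub.symm
    · intro h0
      have hx : dupN W x / dupD W x = x := by
        rw [div_eq_iff hD]
        rw [h0, neg_zero] at hsub
        exact sub_eq_zero.1 hsub
      revert h' e
      rw [hx]
      intro h' e
      rcases eq_or_eq_neg_of_x_eq h' h with h1 | h1
      · exfalso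
        rw [h1, two_nsmul] at e
        exact XFormC_some_ne_zero h (add_eq_right.1 e)
      · rw [e, h1, neg_add_cancel]

/-- triplication formula.  [`dupD x ≠ 0`: `x_add_x_sub` for `2P = (dupN/dupD, _)` and `P`
(`x(2P) - x = -ψ₃/dupD ≠ 0`), `2P - P = P`.  `dupD x = 0`: `3P = P`, and `triN x = x ψ₃(x)²` as
`triN x = 2 N² x - x N²`, `ψ₃ = -N`.] -/
theorem x_three_nsmul (hΔ : W.Δ ≠ 0) {x y : F} (h : W.toAffine.Nonsingular x y)
    (h3 : psi3 W x ≠ 0) :
    ∃ (y' : F) (h' : W.toAffine.Nonsingular (triN W x / psi3 W x ^ 2) y'),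
      3 • (Affine.Point.some x y h : W.toAffine.Point) = .some _ y' h' := by
  have hsub := dupN_sub (W := W) x
  have h32 : psi3 W x ^ 2 ≠ 0 := pow_ne_zero _ h3
  by_cases hD : dupD W x = 0
  · have h2 := (two_nsmul_eq_zero_iff h).2 hD
    have hx : triN W x / psi3 W x ^ 2 = x := by
      rw [div_eq_iff h32]
      have hN : dupN W x = -psi3 W x := by
        rw [hD, mul_zero, sub_zero] at hsub
        exact hsub
      unfold triN
      rw [hD, hN]
      ring
    rw [hx, XFormC_three_nsmul, h2, zero_add]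
    exact ⟨y, h, rfl⟩
  · obtain ⟨y₂, h₂, e⟩ := x_two_nsmul h hD
    have hne : dupN W x / dupD W x ≠ x := by
      intro hx
      rw [div_eq_iff hD] at hx
      rw [hx, sub_self] at hsub
      exact h3 (neg_eq_zero.1 hsub.symm)
    obtain ⟨x₃, y₃, x₄, y₄, h₃, h₄, e₃, e₄, hf⟩ := x_add_x_sub h₂ h hne
    rw [← e] at e₃ e₄
    have hx₄ : x = x₄ := by
      have h1 : 2 • (Affine.Point.some x y h : W.toAffine.Point) - Affine.Point.some x y h
          = Affine.Point.some x y h := by
        rw [two_nsmul, add_sub_cancel_right]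
      rw [h1] at e₄
      injection e₄
    have hx₃ : x₃ = triN W x / psi3 W x ^ 2 := by
      rw [eq_div_iff h32]
      have hpsi : psi3 W x = -(dupN W x - x * dupD W x) := by rw [hsub, neg_neg]
      have hf' : (x₃ + x) * (dupN W x - x * dupD W x) ^ 2 =
          2 * (dupN W x + x * dupD W x) * (dupN W x * x) + W.b₂ * (dupN W x * x) * dupD W x
            + W.b₄ * (dupN W x + x * dupD W x) * dupD W x + W.b₆ * dupD W x ^ 2 := by
        rw [← hx₄] at hf
        have h5 : dupN W x = (dupN W x / dupD W x) * dupD W x := by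
          rw [div_mul_cancel₀ _ hD]
        generalize dupN W x / dupD W x = X at hf h5
        rw [h5]
        linear_combination (dupD W x) ^ 2 * hf
      unfold triN
      rw [hpsi]
      linear_combination hf'
    subst hx₃
    exact ⟨y₃, h₃, by rw [XFormC_three_nsmul]; exact e₃⟩

end Fermat.Agent.EL
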